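/-
PROGRAM MR / S44, strand W, row `MR.W.BetaNorm` (helper45): the norm along the second
degeneracy map `β : F_N → F_{Nℓ}`, `f(q) ↦ f(q^ℓ)`, on Kummer functions.

The Atkin–Lehner swap `w` of `F_{Nℓ}` (`S37/Swap.swapField`) exchanges `α` and `β`, so it is an
isomorphism of `F_N`-algebras `(F_{Nℓ}, β) ≃ (F_{Nℓ}, α)` and

* `norm_beta_eq`   : `Norm_β f = Norm_α (w f)`;
* `krel_norm_beta` : if `f` is a Kummer function of level `N ℓ` with Kummer character `c`, then
  `Norm_β f` is a Kummer function of level `N` with character `c ∘ ω ∘ Ver`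
  (`ω` = `S35.Betti.Swap.omega`, `Ver` = `S35.Betti.Norm.verA`);
* `norm_alpha_eq_pow`, `norm_beta_eq_pow` : the two norm fields of `S44.Contract.IsNewEmb` from
  the vanishing of the two transferred characters.
-/
import Mathlib
import Fermat.Agent.S35.Betti.Swap
import Fermat.Agent.S35.Betti.Norm
import Fermat.Agent.S30.Producer.Glue

set_option autoImplicit false

noncomputable section

open ModularCurve AlgebraicCurve

namespace Fermat.Agent.S44.W.BetaNorm

open Fermat.Agent.S24.Theta Fermat.Agent.S37.Swap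
open Fermat.Agent.S30 Fermat.Agent.S30.Producer
open Fermat.Agent.S35.Betti.Swap Fermat.Agent.S35.Betti.Norm

variable {N ℓ : ℕ} [NeZero N] [NeZero ℓ]

/-- **`Norm_β f = Norm_α (w f)`**, `w` the Atkin–Lehner swap. -/
theorem norm_beta_eq (x y : ℤ) (h : x * ℓ + y * N = 1) (hℓ : ℓ.Prime) (f : FN (N * ℓ)) :
    (letI := algebraAlong (heckeBetaBar Qb N ℓ); Algebra.norm (FN N) f)
      = (letI := algebraAlong (heckeAlphaBar Qb N ℓ)
         Algebra.norm (FN N) (swapField iotaBar x y h hℓ f)) := by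
  have key := @Algebra.norm_eq_of_equiv_equiv (FN N) (FN (N * ℓ)) (FN N) (FN (N * ℓ)) _ _ _ _
    (algebraAlong (heckeBetaBar Qb N ℓ)) (algebraAlong (heckeAlphaBar Qb N ℓ))
    (RingEquiv.refl (FN N)) (swapField iotaBar x y h hℓ).toRingEquiv
    (RingHom.ext fun z => (swapField_beta iotaBar x y h hℓ z).symm) f
  exact key

/-- **The Kummer character of the `β`-norm** is `c ∘ ω ∘ Ver`. -/
theorem krel_norm_beta (x y : ℤ) (h : x * ℓ + y * N = 1) (hℓ : ℓ.Prime) {m : ℕ} [NeZero m]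
    {f : FN (N * ℓ)} {c : AN (N * ℓ) →+ ZMod m} (hf : KRel (N * ℓ) m f c) :
    letI := algebraAlong (heckeBetaBar Qb N ℓ)
    KRel N m (Algebra.norm (FN N) f) ((c.comp (omega x y h)).comp (verA N ℓ)) := by
  have h1 := krel_norm N ℓ (krel_swap x y h hℓ hf)
  rw [← norm_beta_eq x y h hℓ f] at h1
  exact h1

/-- The field `normAlpha` of `IsNewEmb`, from the vanishing of `c ∘ Ver`. -/
theorem norm_alpha_eq_pow {m : ℕ} [NeZero m] {f : FN (N * ℓ)} {c : AN (N * ℓ) →+ ZMod m}
    (hf : KRel (N * ℓ) m f c) (hc : c.comp (verA N ℓ) = 0) :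
    ∃ (a : Qb) (g : FN N),
      (letI := algebraAlong (heckeAlphaBar Qb N ℓ); Algebra.norm (FN N) f)
        = algebraMap Qb (FN N) a * g ^ m := by
  have h1 := krel_norm N ℓ hf
  rw [hc] at h1
  obtain ⟨g, hg⟩ := Glue.krel_inj h1
  exact ⟨1, g, by rw [map_one, one_mul]; exact hg⟩

/-- The field `normBeta` of `IsNewEmb`, from the vanishing of `c ∘ ω ∘ Ver`. -/
theorem norm_beta_eq_pow (x y : ℤ) (h : x * ℓ + y * N = 1) (hℓ : ℓ.Prime) {m : ℕ} [NeZero m]
    {f : FN (N * ℓ)} {c : AN (N * ℓ) →+ ZMod m} (hf : KRel (N * ℓ) m f c)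
    (hc : (c.comp (omega x y h)).comp (verA N ℓ) = 0) :
    ∃ (a : Qb) (g : FN N),
      (letI := algebraAlong (heckeBetaBar Qb N ℓ); Algebra.norm (FN N) f)
        = algebraMap Qb (FN N) a * g ^ m := by
  have h1 := krel_norm_beta x y h hℓ hf
  rw [hc] at h1
  obtain ⟨g, hg⟩ := Glue.krel_inj h1
  exact ⟨1, g, by rw [map_one, one_mul]; exact hg⟩

end Fermat.Agent.S44.W.BetaNorm

end
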