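/-
PROGRAM MR / S44, strand W, row `MR.W.4` (helper45): from the character level to the function
level.

`IsCharEmb P N' W e` : a map `e : E(ℚ̄) → Hom(A_{N' p}, ℤ/p)` which on `E[p]` is additive,
injective, Galois equivariant (for the Galois action on Kummer characters, stated on
representing Kummer functions), Hecke-eigen with the eigenvalues `a_ℓ(W)`, and `p`-new (killed
by the two transfers to level `N'`).

`exists_isNewEmb` : such a map gives `ι` with `S44.Contract.IsNewEmb P N' W ι`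
(`ι Q` := a Kummer function with Kummer character `e Q`).

The first section holds the needed calculus of the Kummer relation `KRel` (any level, any
exponent `m`): `krel_mul_pow`, `krel_npow`, `krel_inv`, `krel_zpow`, `krel_const`,
`krel_eq_mul_pow`.
-/
import Mathlib
import Fermat.Agent.S44.Contract
import Fermat.Agent.S44.W.BetaNorm
import Fermat.Agent.S30.Producer.Assembly
import Fermat.Agent.S30.Producer.SurjXRoot

set_option autoImplicit false

noncomputable section

open WeierstrassCurve WeierstrassCurve.Affine WeierstrassCurve.Affine.Point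
open ModularCurve AlgebraicCurve

namespace Fermat.Agent.S44.W.NewEmb

open Fermat.Agent.S30 Fermat.Agent.S30.Producer
open Fermat.Agent.S35.Betti.Swap Fermat.Agent.S35.Betti.Norm
open Fermat.Agent.S44.Contract

local notation "GQb" => (AlgebraicClosure ℚ ≃ₐ[ℚ] AlgebraicClosure ℚ)

/-! ### Calculus of the Kummer relation -/

section KRelCalc

variable {N m : ℕ} [NeZero m]

theorem krel_mul_pow {f k : FN N} {c : AN N →+ ZMod m} (h : KRel N m f c) (hk : k ≠ 0) :
    KRel N m (f * k ^ m) c := by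
  have h1 := Glue.krel_mul h (Glue.krel_pow (m := m) hk)
  rwa [add_zero] at h1

theorem krel_one : KRel N m (1 : FN N) 0 := by
  have h1 := Glue.krel_pow (N := N) (m := m) (one_ne_zero (α := FN N))
  rwa [one_pow] at h1

theorem krel_npow {f : FN N} {c : AN N →+ ZMod m} (h : KRel N m f c) (n : ℕ) :
    KRel N m (f ^ n) (n • c) := by
  induction n with
  | zero =>
    rw [pow_zero, zero_smul]
    exact krel_one
  | succ n ih =>
    rw [pow_succ, succ_nsmul]
    exact Glue.krel_mul ih h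

theorem nsmul_hom_eq_zero (c : AN N →+ ZMod m) : m • c = 0 := by
  refine AddMonoidHom.ext fun x => ?_
  rw [AddMonoidHom.smul_apply, AddMonoidHom.zero_apply, nsmul_eq_mul, ZMod.natCast_self,
    zero_mul]

theorem krel_inv {f : FN N} {c : AN N →+ ZMod m} (h : KRel N m f c) :
    KRel N m f⁻¹ (-c) := by
  have hf : f ≠ 0 := h.1
  have hm : 0 < m := Nat.pos_of_ne_zero (NeZero.ne m)
  have h1 := krel_mul_pow (krel_npow h (m - 1)) (inv_ne_zero hf)
  have h2 : f ^ (m - 1) * f⁻¹ ^ m = f⁻¹ := by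
    obtain ⟨k, rfl⟩ : ∃ k, m = k + 1 := ⟨m - 1, (Nat.sub_add_cancel hm).symm⟩
    rw [Nat.add_sub_cancel, pow_succ, inv_pow, ← mul_assoc, mul_inv_cancel₀ (pow_ne_zero k hf),
      one_mul]
  have h3 : (m - 1) • c = -c := by
    have h4 : (m - 1) • c + c = 0 := by
      rw [← succ_nsmul, Nat.sub_add_cancel hm]
      exact nsmul_hom_eq_zero c
    exact eq_neg_of_add_eq_zero_left h4
  rw [h2, h3] at h1
  exact h1

theorem krel_zpow {f : FN N} {c : AN N →+ ZMod m} (h : KRel N m f c) (a : ℤ) :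
    KRel N m (f ^ a) (a • c) := by
  obtain ⟨n, rfl | rfl⟩ := Int.eq_nat_or_neg a
  · rw [zpow_natCast, natCast_zsmul]
    exact krel_npow h n
  · rw [zpow_neg, zpow_natCast, neg_smul, natCast_zsmul]
    exact krel_inv (krel_npow h n)

/-- Nonzero constants have trivial Kummer character. -/
theorem krel_const {a : Qb} (ha : a ≠ 0) : KRel N m (algebraMap Qb (FN N) a) 0 := by
  have hm : 0 < m := Nat.pos_of_ne_zero (NeZero.ne m)
  obtain ⟨b, hb⟩ := IsAlgClosed.exists_pow_nat_eq a hm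
  have hb0 : b ≠ 0 := by
    rintro rfl
    rw [zero_pow hm.ne'] at hb
    exact ha hb.symm
  have h1 := Glue.krel_pow (N := N) (m := m)
    (g := algebraMap Qb (FN N) b) ((_root_.map_ne_zero _).mpr hb0)
  rwa [← _root_.map_pow, hb] at h1

/-- Two Kummer functions with the same character differ by an `m`-th power. -/
theorem krel_eq_mul_pow [NeZero N] {f f' : FN N} {c : AN N →+ ZMod m} (h : KRel N m f c)
    (h' : KRel N m f' c) : ∃ k : FN N, k ≠ 0 ∧ f' = f * k ^ m := by
  have hm : 0 < m := Nat.pos_of_ne_zero (NeZero.ne m)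
  have hf : f ≠ 0 := h.1
  have hf' : f' ≠ 0 := h'.1
  have h1 := Glue.krel_mul h' (krel_inv h)
  rw [add_neg_cancel] at h1
  obtain ⟨k, hk⟩ := Glue.krel_inj h1
  have hk0 : k ≠ 0 := by
    rintro rfl
    rw [zero_pow hm.ne'] at hk
    exact mul_ne_zero hf' (inv_ne_zero hf) hk
  refine ⟨k, hk0, ?_⟩
  rw [← hk, mul_comm f' f⁻¹, ← mul_assoc, mul_inv_cancel₀ hf, one_mul]

end KRelCalc

/-! ### The character-level embedding -/

/-- **A Galois-equivariant Hecke-eigen embedding of `E[p]` into the `p`-new Kummer characters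
of level `N' p`** (Betti level): `e Q : A_{N' p} → ℤ/p`. -/
structure IsCharEmb (P : FreyPackage) (N' : ℕ) [NeZero N'] [NeZero P.p] (W : WeierstrassCurve ℤ)
    (e : (P.freyCurve⁄Qb).Point → (AN (N' * P.p) →+ ZMod P.p)) : Prop where
  add : ∀ Q Q', P.p • Q = 0 → P.p • Q' = 0 → e (Q + Q') = e Q + e Q'
  inj : ∀ Q, P.p • Q = 0 → e Q = 0 → Q = 0
  gal : ∀ (σ : GQb) (Q), P.p • Q = 0 → ∃ f : FN (N' * P.p),
    KRel (N' * P.p) P.p f (e Q) ∧ KRel (N' * P.p) P.p (galF (N' * P.p) σ f) (e (σ • Q))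
  hecke : ∀ ℓ : ℕ, ℓ.Prime → ¬ ℓ ∣ N' * P.p → W.IsGoodPrimeFor ℓ → ∀ Q, P.p • Q = 0 →
    ∀ x : AN (N' * P.p), e Q (tau (N' * P.p) ℓ x) = ((W.apOfModel ℓ : ℤ) : ZMod P.p) * e Q x
  newAlpha : ∀ Q, P.p • Q = 0 → (e Q).comp (verA N' P.p) = 0
  newBeta : ∀ Q, P.p • Q = 0 → ∃ (x y : ℤ) (h : x * P.p + y * N' = 1),
    ((e Q).comp (omega x y h)).comp (verA N' P.p) = 0

/-- **(W4)** A character-level embedding gives a function-level embedding. -/
theorem exists_isNewEmb (P : FreyPackage) (N' : ℕ) [NeZero N'] [NeZero P.p]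
    (W : WeierstrassCurve ℤ) (e : (P.freyCurve⁄Qb).Point → (AN (N' * P.p) →+ ZMod P.p))
    (he : IsCharEmb P N' W e) :
    ∃ ι : (P.freyCurve⁄Qb).Point → FN (N' * P.p), IsNewEmb P N' W ι := by
  have hp : P.p.Prime := P.pp
  have hex : ∀ Q, ∃ f : FN (N' * P.p), KRel (N' * P.p) P.p f (e Q) :=
    fun Q => Glue.krel_ex (SurjXRoot.surj (N' * P.p)) (e Q)
  choose ι hι using hex
  refine ⟨ι, ?_, ?_, ?_, ?_, ?_, ?_, ?_, ?_⟩
  · intro Q _
    exact (hι Q).1
  · intro Q _
    exact (hι Q).2.1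
  · intro Q Q' hQ hQ'
    have h1 := Glue.krel_mul (hι Q) (hι Q')
    have h2 := hι (Q + Q')
    rw [he.add Q Q' hQ hQ'] at h2
    obtain ⟨k, -, hk⟩ := krel_eq_mul_pow h1 h2
    exact ⟨1, k, by rw [_root_.map_one, one_mul]; exact hk⟩
  · rintro Q hQ ⟨c, k, hck⟩
    have h0 : ι Q ≠ 0 := (hι Q).1
    have hc : c ≠ 0 := by
      rintro rfl
      rw [_root_.map_zero, zero_mul] at hck
      exact h0 hck
    have hk : k ≠ 0 := by
      rintro rfl
      rw [zero_pow hp.ne_zero, mul_zero] at hck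
      exact h0 hck
    have h1 : KRel (N' * P.p) P.p (ι Q) 0 := by
      rw [hck]
      exact krel_mul_pow (krel_const hc) hk
    exact he.inj Q hQ (Glue.krel_uniq (hι Q) h1)
  · intro σ Q hQ
    obtain ⟨f, hf, hσf⟩ := he.gal σ Q hQ
    obtain ⟨k, hk0, hk⟩ := krel_eq_mul_pow hf (hι Q)
    have h1 : KRel (N' * P.p) P.p (galF (N' * P.p) σ (ι Q)) (e (σ • Q)) := by
      rw [hk, _root_.map_mul, _root_.map_pow]
      exact krel_mul_pow hσf ((_root_.map_ne_zero_iff _ (galF (N' * P.p) σ).injective).mpr hk0)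
    obtain ⟨k', -, hk'⟩ := krel_eq_mul_pow h1 (hι (σ • Q))
    exact ⟨1, k', by rw [_root_.map_one, one_mul]; exact hk'⟩
  · intro ℓ hℓ hℓN hgood Q hQ
    have h1 : KRel (N' * P.p) P.p (E4.heckeFb (N' * P.p) ℓ (ι Q))
        ((e Q).comp (tau (N' * P.p) ℓ)) :=
      Glue.krel_hecke (BettiABricks.tHomParEll (N' * P.p)) hℓ hℓN
        (TransferTrivialProof.heckeDiv (N' * P.p) ℓ) (hι Q)
    have h2 : (e Q).comp (tau (N' * P.p) ℓ) = (W.apOfModel ℓ) • e Q := by
      refine AddMonoidHom.ext fun x => ?_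
      rw [AddMonoidHom.comp_apply, he.hecke ℓ hℓ hℓN hgood Q hQ x, AddMonoidHom.smul_apply,
        zsmul_eq_mul]
    rw [h2] at h1
    obtain ⟨k, -, hk⟩ := krel_eq_mul_pow (krel_zpow (hι Q) (W.apOfModel ℓ)) h1
    exact ⟨1, k, by rw [_root_.map_one, one_mul]; exact hk⟩
  · intro Q hQ
    exact BetaNorm.norm_alpha_eq_pow (hι Q) (he.newAlpha Q hQ)
  · intro Q hQ
    obtain ⟨x, y, h, hxy⟩ := he.newBeta Q hQ
    exact BetaNorm.norm_beta_eq_pow x y h hp (hι Q) hxy

end Fermat.Agent.S44.W.NewEmb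

end
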