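/-
PROGRAM MR / S44, strand W, row (W1) (helper288): the `p`-old exit, Betti side only.

An INTEGRAL character `c : AN N →+ ℤ` of the Betti group `A = Γ₀(N)^ab / ⟨parabolic, elliptic⟩`
which is nonzero modulo `p` and is an eigenvector modulo `p` of the Hecke correspondences
`τ_ℓ` (good primes `ℓ ∤ N`) with eigenvalues `a_ℓ(E)` makes the Frey representation modular of
level `N`:

* `exists_eigen_lift_int` (O1): Deligne–Serre lifting for commuting INTEGER matrices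
  (`S48.ModEigen.exists_eigen_lift` on `ℂ^r`);
* `exists_eigenform_of_char` (O2): a mod-`p` eigen-character of `AN N` gives a normalised
  eigenform of level `N` with congruent eigenvalues (`S35.Cocc`);
* `modularRepOfLevel_of_char` (O3): the frozen `P.ModularRepOfLevel N`;
* `modularRepOfLevel_of_verA`, `old_or_new` (O4): at level `N' p`, either the transfer
  `c ∘ verA` (or `c ∘ ω ∘ verA`, `ω` the Atkin–Lehner endomorphism) is nonzero modulo `p` and the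
  representation is modular of level `N'`, or both vanish modulo `p` (the `p`-new condition);
* `exists_int_lift` (O5): a `ZMod p`-valued character killing the torsion of `AN N` is the
  reduction of an integral character.

(No torsion-freeness of `AN N` is used: this is why the characters are integral.)
-/
import Mathlib
import Fermat.Prelude.Def_FLTPrelim_ModularRep
import Fermat.Agent.S35.Cocc
import Fermat.Agent.S35.Betti.NormHecke
import Fermat.Agent.S35.Betti.SwapHecke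
import Fermat.Agent.S48.ModEigen

set_option autoImplicit false

namespace Fermat.Agent.S44.W.OldExit

open CongruenceSubgroup
open Fermat.Agent.S30 Fermat.Agent.S30.Producer

/-! ### (O1) Deligne–Serre lifting for commuting integer matrices -/

/-- Integer matrices acting on `ℂ^r`. -/
noncomputable def matEnd (r : ℕ) : Matrix (Fin r) (Fin r) ℤ →+* Module.End ℂ (Fin r → ℂ) :=
  ((Matrix.toLinAlgEquiv' : Matrix (Fin r) (Fin r) ℂ ≃ₐ[ℂ] Module.End ℂ (Fin r → ℂ)) :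
    Matrix (Fin r) (Fin r) ℂ →+* Module.End ℂ (Fin r → ℂ)).comp (Int.castRingHom ℂ).mapMatrix

theorem matEnd_apply {r : ℕ} (t : Matrix (Fin r) (Fin r) ℤ) (v : Fin r → ℂ) :
    matEnd r t v = (t.map (Int.castRingHom ℂ)).mulVec v := rfl

theorem matEnd_apply_apply {r : ℕ} (t : Matrix (Fin r) (Fin r) ℤ) (v : Fin r → ℂ) (k : Fin r) :
    matEnd r t v k = ∑ j, (t k j : ℂ) * v j := rfl

/-- The `ℤ`-algebra generated by integer matrices inside `End(ℂ^r)` is a finite `ℤ`-module. -/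
theorem adjoin_range_fg {r : ℕ} {I : Type*} (t : I → Matrix (Fin r) (Fin r) ℤ) :
    (Subalgebra.toSubmodule (Algebra.adjoin ℤ (Set.range fun i => matEnd r (t i)))).FG := by
  let Φ : Matrix (Fin r) (Fin r) ℤ →ₐ[ℤ] Module.End ℂ (Fin r → ℂ) := (matEnd r).toIntAlgHom
  have hle : Algebra.adjoin ℤ (Set.range fun i => matEnd r (t i)) ≤ Φ.range := by
    refine Algebra.adjoin_le ?_
    rintro _ ⟨i, rfl⟩
    exact (AlgHom.mem_range Φ).mpr ⟨t i, rfl⟩
  have : Module.Finite ℤ Φ.range :=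
    Module.Finite.of_surjective Φ.rangeRestrict.toLinearMap Φ.rangeRestrict_surjective
  have : IsNoetherian ℤ Φ.range := isNoetherian_of_isNoetherianRing_of_finite ℤ Φ.range
  have hfin : Module.Finite ℤ (Algebra.adjoin ℤ (Set.range fun i => matEnd r (t i))) :=
    Module.Finite.of_injective (Subalgebra.inclusion hle).toLinearMap
      (Subalgebra.inclusion_injective hle)
  exact Module.Finite.iff_fg.mp hfin

/-- The vectors of `ℂ^r` whose coordinates are algebraic integers in the kernel of `ρ`. -/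
def kerSub {k : Type*} [Field k] (ρ : integralClosure ℤ ℂ →+* k) (r : ℕ) :
    AddSubgroup (Fin r → ℂ) where
  carrier := {v | ∀ j, ∃ z : integralClosure ℤ ℂ, (z : ℂ) = v j ∧ ρ z = 0}
  zero_mem' := fun _ => ⟨0, rfl, map_zero ρ⟩
  add_mem' := by
    intro u v hu hv j
    obtain ⟨z₁, h₁, h₁'⟩ := hu j
    obtain ⟨z₂, h₂, h₂'⟩ := hv j
    refine ⟨z₁ + z₂, ?_, by rw [map_add, h₁', h₂', add_zero]⟩
    rw [Pi.add_apply, ← h₁, ← h₂]
    rfl
  neg_mem' := by
    intro u hu j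
    obtain ⟨z₁, h₁, h₁'⟩ := hu j
    refine ⟨-z₁, ?_, by rw [map_neg, h₁', neg_zero]⟩
    rw [Pi.neg_apply, ← h₁]
    rfl

theorem mem_kerSub {k : Type*} [Field k] (ρ : integralClosure ℤ ℂ →+* k) {r : ℕ}
    {v : Fin r → ℂ} :
    v ∈ kerSub ρ r ↔ ∀ j, ∃ z : integralClosure ℤ ℂ, (z : ℂ) = v j ∧ ρ z = 0 := Iff.rfl

/-- The kernel of a ring homomorphism from the algebraic integers to a field of
characteristic `p` is a maximal ideal. -/
theorem ker_isMaximal {k : Type*} [Field k] (p : ℕ) (hp : p.Prime) [CharP k p]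
    (φ : integralClosure ℤ ℂ →+* k) : (RingHom.ker φ).IsMaximal := by
  have hprime : (RingHom.ker φ).IsPrime := RingHom.ker_isPrime φ
  refine Ring.DimensionLEOne.maximalOfPrime ?_ hprime
  intro hbot
  have hmem : (p : integralClosure ℤ ℂ) ∈ RingHom.ker φ := by
    rw [RingHom.mem_ker, map_natCast]
    exact CharP.cast_eq_zero k p
  rw [hbot, Ideal.mem_bot] at hmem
  have h2 : ((p : integralClosure ℤ ℂ) : ℂ) = 0 := by rw [hmem]; rfl
  have h3 : (p : ℂ) = 0 := by exact_mod_cast h2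
  exact hp.ne_zero (Nat.cast_eq_zero.mp h3)

/-- **(O1) Deligne–Serre lifting for commuting integer matrices.**  If `w ∈ ℤ^r` is nonzero
modulo `p` and is an eigenvector modulo `p` of the commuting matrices `t i` with eigenvalues
`α i`, there is a genuine complex eigenvector whose eigenvalues are algebraic integers congruent
to the `α i` modulo a maximal ideal over `p`. -/
theorem exists_eigen_lift_int {r : ℕ} {I : Type*} (t : I → Matrix (Fin r) (Fin r) ℤ)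
    (hcomm : ∀ i i', Commute (t i) (t i')) (p : ℕ) (hp : p.Prime) (α : I → ℤ)
    (w : Fin r → ℤ) (hw : ∃ k, ¬ (p : ℤ) ∣ w k)
    (hwt : ∀ i k, (p : ℤ) ∣ (t i).mulVec w k - α i * w k) :
    ∃ (a : I → integralClosure ℤ ℂ) (v : Fin r → ℂ) (𝔪 : Ideal (integralClosure ℤ ℂ)),
      v ≠ 0 ∧ 𝔪.IsMaximal ∧ (p : integralClosure ℤ ℂ) ∈ 𝔪 ∧
      (∀ i, ((t i).map (Int.castRingHom ℂ)).mulVec v = (a i : ℂ) • v) ∧
      ∀ i, a i - (α i : integralClosure ℤ ℂ) ∈ 𝔪 := by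
  classical
  have : Fact p.Prime := ⟨hp⟩
  have : CharP (AlgebraicClosure (ZMod p)) p :=
    charP_of_injective_algebraMap
      (algebraMap (ZMod p) (AlgebraicClosure (ZMod p))).injective p
  -- a residue map of the algebraic integers
  have hinj : Function.Injective (algebraMap ℤ (integralClosure ℤ ℂ)) := by
    intro m n hmn
    have h2 := congrArg (fun z : integralClosure ℤ ℂ => (z : ℂ)) hmn
    simp only [eq_intCast, SubringClass.coe_intCast] at h2
    exact_mod_cast h2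
  obtain ⟨ρ, -⟩ := Fermat.Agent.S48.ModEigen.exists_ringHom_extension
    (A := integralClosure ℤ ℂ) (R₀ := ℤ) hinj (Int.castRingHom (AlgebraicClosure (ZMod p)))
  have hρp : ∀ m : ℤ, ρ (((p : ℤ) * m : ℤ) : integralClosure ℤ ℂ) = 0 := by
    intro m
    rw [map_intCast, Int.cast_mul, Int.cast_natCast, CharP.cast_eq_zero, zero_mul]
  -- the hypotheses of `exists_eigen_lift`
  have hcomm' : ∀ i j, matEnd r (t i) * matEnd r (t j) = matEnd r (t j) * matEnd r (t i) := by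
    intro i j
    rw [← map_mul, (hcomm i j).eq, map_mul]
  have hMA : ∀ (c : integralClosure ℤ ℂ) (v : Fin r → ℂ), v ∈ kerSub ρ r →
      (c : ℂ) • v ∈ kerSub ρ r := by
    intro c v hv
    refine (mem_kerSub ρ).mpr fun j => ?_
    obtain ⟨z, hz, hz0⟩ := (mem_kerSub ρ).mp hv j
    refine ⟨c * z, ?_, by rw [map_mul, hz0, mul_zero]⟩
    rw [Pi.smul_apply, smul_eq_mul, ← hz]
    rfl
  have hMT : ∀ i, ∀ v ∈ kerSub ρ r, matEnd r (t i) v ∈ kerSub ρ r := by
    intro i v hv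
    refine (mem_kerSub ρ).mpr fun j => ?_
    choose z hz hz0 using (mem_kerSub ρ).mp hv
    refine ⟨∑ j', ((t i j j' : ℤ) : integralClosure ℤ ℂ) * z j', ?_, ?_⟩
    · rw [matEnd_apply_apply]
      push_cast
      exact Finset.sum_congr rfl fun j' _ => by rw [hz j']
    · rw [map_sum]
      exact Finset.sum_eq_zero fun j' _ => by rw [map_mul, hz0 j', mul_zero]
  have hg : ∀ i, matEnd r (t i) (fun j => (w j : ℂ))
      - (((α i : ℤ) : integralClosure ℤ ℂ) : ℂ) • (fun j => (w j : ℂ)) ∈ kerSub ρ r := by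
    intro i
    refine (mem_kerSub ρ).mpr fun j => ?_
    obtain ⟨m, hm⟩ := hwt i j
    refine ⟨(((p : ℤ) * m : ℤ) : integralClosure ℤ ℂ), ?_, hρp m⟩
    have h1 : (((t i).mulVec w j - α i * w j : ℤ) : ℂ)
        = ∑ j', ((t i j j' : ℤ) : ℂ) * (w j' : ℂ) - (α i : ℂ) * (w j : ℂ) := by
      simp only [Matrix.mulVec, dotProduct]
      push_cast
      rfl
    show ((((p : ℤ) * m : ℤ) : integralClosure ℤ ℂ) : ℂ)
      = ∑ j', ((t i j j' : ℤ) : ℂ) * (w j' : ℂ)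
        - (((α i : ℤ) : integralClosure ℤ ℂ) : ℂ) * (w j : ℂ)
    rw [SubringClass.coe_intCast, SubringClass.coe_intCast, ← hm, h1]
  have hg1 : ∀ c : integralClosure ℤ ℂ, (c : ℂ) • (fun j => (w j : ℂ)) ∈ kerSub ρ r →
      ρ c = 0 := by
    intro c hc
    obtain ⟨k₀, hk₀⟩ := hw
    obtain ⟨z, hz, hz0⟩ := (mem_kerSub ρ).mp hc k₀
    have hz' : z = c * ((w k₀ : ℤ) : integralClosure ℤ ℂ) := by
      apply Subtype.ext
      rw [hz, Subalgebra.coe_mul, SubringClass.coe_intCast]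
      rfl
    rw [hz', map_mul, map_intCast] at hz0
    rcases mul_eq_zero.mp hz0 with h | h
    · exact h
    · exact absurd ((CharP.intCast_eq_zero_iff (AlgebraicClosure (ZMod p)) p (w k₀)).mp h) hk₀
  obtain ⟨a, v, φ, hv, hT, hφ⟩ := Fermat.Agent.S48.ModEigen.exists_eigen_lift
    (fun i => matEnd r (t i)) hcomm' (adjoin_range_fg t) ρ (kerSub ρ r) hMA hMT
    (fun j => (w j : ℂ)) (fun i => ((α i : ℤ) : integralClosure ℤ ℂ)) hg hg1
  refine ⟨a, v, RingHom.ker φ, hv, ker_isMaximal p hp φ, ?_, fun i => hT i, fun i => ?_⟩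
  · rw [RingHom.mem_ker, map_natCast]
    exact CharP.cast_eq_zero _ p
  · rw [RingHom.mem_ker, map_sub, hφ i, map_intCast, map_intCast, sub_self]

/-! ### (O2) A mod-`p` eigen-character of `AN N` gives an eigenform -/

/-- **(O2)** An integral character of `AN N`, nonzero modulo `p`, which is an eigenvector modulo
`p` of the `τ_ℓ` (`ℓ ∤ N` prime, `ℓ ∈ S`) with eigenvalues `α ℓ`, gives a normalised eigenform of
level `N` whose `ℓ`-th coefficients are congruent to `α ℓ` modulo a maximal ideal over `p`. -/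
theorem exists_eigenform_of_char (N : ℕ) [NeZero N] (p : ℕ) (hp : p.Prime) (S : Set ℕ)
    (α : ℕ → ℤ) (c : AN N →+ ℤ) (hne : ∃ x, ¬ (p : ℤ) ∣ c x)
    (heig : ∀ ℓ : ℕ, ℓ.Prime → ¬ ℓ ∣ N → ℓ ∈ S →
      ∀ x, (p : ℤ) ∣ c (tau N ℓ x) - α ℓ * c x) :
    ∃ (g : CuspForm (Gamma0 N) 2) (𝔪 : Ideal (integralClosure ℤ ℂ)),
      g.IsNormalizedEigenform ∧ 𝔪.IsMaximal ∧ (p : integralClosure ℤ ℂ) ∈ 𝔪 ∧
      ∀ ℓ : ℕ, ℓ.Prime → ¬ ℓ ∣ N → ℓ ∈ S →
        ∃ a : integralClosure ℤ ℂ, (a : ℂ) = ModularFormClass.qCoeff g ℓ ∧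
          a - (α ℓ : integralClosure ℤ ℂ) ∈ 𝔪 := by
  classical
  obtain ⟨r, a, e, hdual, hexp⟩ := BettiLimit.exists_coords (AN N) (fg_AN N)
  have hcomm : ∀ i i' : {ℓ : ℕ // ℓ.Prime ∧ ¬ ℓ ∣ N ∧ ℓ ∈ S},
      Commute (BettiLimit.tmat a e (tau N) i.1) (BettiLimit.tmat a e (tau N) i'.1) :=
    fun i i' => BettiLimit.tmat_comm a e hexp (tau N) i.1 i'.1
      (BettiABricks.tauComm N i.1 i'.1 i.2.1 i.2.2.1 i'.2.1 i'.2.2.1)
  have hw : ∃ k, ¬ (p : ℤ) ∣ c (a k) := by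
    by_contra hcon
    push Not at hcon
    obtain ⟨x, hx⟩ := hne
    apply hx
    rw [hexp ℤ c x]
    exact Finset.dvd_sum fun i _ => Dvd.dvd.mul_left (hcon i) _
  have hwt : ∀ (i : {ℓ : ℕ // ℓ.Prime ∧ ¬ ℓ ∣ N ∧ ℓ ∈ S}) (k : Fin r),
      (p : ℤ) ∣ (BettiLimit.tmat a e (tau N) i.1).mulVec (fun j => c (a j)) k
        - α i.1 * c (a k) := by
    intro i k
    have h1 : (BettiLimit.tmat a e (tau N) i.1).mulVec (fun j => c (a j)) k
        = c (tau N i.1 (a k)) := by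
      rw [hexp ℤ c (tau N i.1 (a k))]
      rfl
    rw [h1]
    exact heig i.1 i.2.1 i.2.2.1 i.2.2.2 (a k)
  obtain ⟨θ, v, 𝔪, hv, hmax, hpm, hev, hcong⟩ :=
    exists_eigen_lift_int (fun i : {ℓ : ℕ // ℓ.Prime ∧ ¬ ℓ ∣ N ∧ ℓ ∈ S} =>
      BettiLimit.tmat a e (tau N) i.1) hcomm p hp (fun i => α i.1) (fun j => c (a j)) hw hwt
  obtain ⟨g, hg, hq⟩ := Fermat.Agent.S35.Cocc.exists_isNormalizedEigenform_of_coords N a e hdual
    (fun ψ x => hexp ℂ ψ x) S
    (fun ℓ => if h : ℓ.Prime ∧ ¬ ℓ ∣ N ∧ ℓ ∈ S then ((θ ⟨ℓ, h⟩ : integralClosure ℤ ℂ) : ℂ) else 0)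
    v hv (by
      intro ℓ hℓ hℓN hℓS
      rw [dif_pos (show ℓ.Prime ∧ ¬ ℓ ∣ N ∧ ℓ ∈ S from ⟨hℓ, hℓN, hℓS⟩)]
      exact hev ⟨ℓ, hℓ, hℓN, hℓS⟩)
  refine ⟨g, 𝔪, hg, hmax, hpm, fun ℓ hℓ hℓN hℓS => ⟨θ ⟨ℓ, hℓ, hℓN, hℓS⟩, ?_, hcong _⟩⟩
  rw [hq ℓ hℓ hℓN hℓS, dif_pos (show ℓ.Prime ∧ ¬ ℓ ∣ N ∧ ℓ ∈ S from ⟨hℓ, hℓN, hℓS⟩)]

/-! ### (O3) The frozen conclusion -/

/-- **(O3)** An integral character of `AN N`, nonzero modulo `p`, which is an eigenvector modulo
`p` of the `τ_ℓ` with eigenvalues `a_ℓ(E)` at the good primes `ℓ ∤ N`, `ℓ ≠ p`, makes the Frey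
representation modular of level `N`. -/
theorem modularRepOfLevel_of_char (P : FreyPackage) (N : ℕ) [NeZero N] (W : WeierstrassCurve ℤ)
    (hW : W.IsIntegralModelOf P.freyCurve) (c : AN N →+ ℤ) (hne : ∃ x, ¬ (P.p : ℤ) ∣ c x)
    (heig : ∀ ℓ : ℕ, ℓ.Prime → ¬ ℓ ∣ N → ℓ ≠ P.p → W.IsGoodPrimeFor ℓ →
      ∀ x, (P.p : ℤ) ∣ c (tau N ℓ x) - W.apOfModel ℓ * c x) :
    P.ModularRepOfLevel N := by
  obtain ⟨g, 𝔪, hg, hmax, hpm, hcong⟩ := exists_eigenform_of_char N P.p P.pp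
    {ℓ | W.IsGoodPrimeFor ℓ ∧ ℓ ≠ P.p} (fun ℓ => W.apOfModel ℓ) c hne
    (fun ℓ hℓ hℓN hℓS x => heig ℓ hℓ hℓN hℓS.2 hℓS.1 x)
  exact ⟨g, W, 𝔪, hg, hW, hmax, hpm, fun ℓ hℓ hgood hℓN hℓp => hcong ℓ hℓ hℓN ⟨hgood, hℓp⟩⟩

/-! ### (O4) Level `N' p`: the `p`-old exit through the transfer -/

open Fermat.Agent.S35.Betti

/-- The transfer of a mod-`p` eigen-character of level `N' p` which is nonzero modulo `p` makes
the Frey representation modular of level `N'`. -/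
theorem modularRepOfLevel_of_verA (P : FreyPackage) (N' : ℕ) [NeZero N'] [NeZero P.p]
    (W : WeierstrassCurve ℤ) (hW : W.IsIntegralModelOf P.freyCurve)
    (c : AN (N' * P.p) →+ ℤ)
    (heig : ∀ ℓ : ℕ, ℓ.Prime → ¬ ℓ ∣ N' * P.p → W.IsGoodPrimeFor ℓ →
      ∀ z, (P.p : ℤ) ∣ c (tau (N' * P.p) ℓ z) - W.apOfModel ℓ * c z)
    (hne : ∃ x, ¬ (P.p : ℤ) ∣ c (Norm.verA N' P.p x)) : P.ModularRepOfLevel N' := by
  refine modularRepOfLevel_of_char P N' W hW (c.comp (Norm.verA N' P.p)) hne ?_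
  intro ℓ hℓ hℓN hℓp hgood x
  have hℓNp : ¬ ℓ ∣ N' * P.p := by
    intro h
    rcases (Nat.Prime.dvd_mul hℓ).mp h with h | h
    · exact hℓN h
    · exact hℓp ((Nat.prime_dvd_prime_iff_eq hℓ P.pp).mp h)
  show (P.p : ℤ) ∣ c (Norm.verA N' P.p (tau N' ℓ x)) - W.apOfModel ℓ * c (Norm.verA N' P.p x)
  rw [NormHecke.verA_tau N' P.p hℓ hℓNp x]
  exact heig ℓ hℓ hℓNp hgood _

/-- The Atkin–Lehner twist of a mod-`p` eigen-character is a mod-`p` eigen-character. -/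
theorem eig_comp_omega (P : FreyPackage) (N' : ℕ) [NeZero N'] [NeZero P.p]
    (W : WeierstrassCurve ℤ) (x y : ℤ) (h : x * P.p + y * N' = 1)
    (c : AN (N' * P.p) →+ ℤ)
    (heig : ∀ ℓ : ℕ, ℓ.Prime → ¬ ℓ ∣ N' * P.p → W.IsGoodPrimeFor ℓ →
      ∀ z, (P.p : ℤ) ∣ c (tau (N' * P.p) ℓ z) - W.apOfModel ℓ * c z) :
    ∀ ℓ : ℕ, ℓ.Prime → ¬ ℓ ∣ N' * P.p → W.IsGoodPrimeFor ℓ →
      ∀ z, (P.p : ℤ) ∣ (c.comp (Swap.omega x y h)) (tau (N' * P.p) ℓ z)
        - W.apOfModel ℓ * (c.comp (Swap.omega x y h)) z := by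
  intro ℓ hℓ hℓNp hgood z
  show (P.p : ℤ) ∣ c (Swap.omega x y h (tau (N' * P.p) ℓ z))
    - W.apOfModel ℓ * c (Swap.omega x y h z)
  rw [Swap.omega_tau_apply x y h P.pp hℓ hℓNp z]
  exact heig ℓ hℓ hℓNp hgood _

/-- **(O4) The seam of strand W.**  For an integral mod-`p` eigen-character `c` of level `N' p`
with the eigenvalues of the Frey curve: either the Frey representation is modular of level `N'`
(the `p`-old exit), or the reduction of `c` modulo `p` is killed by both transfers to level `N'`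
(the `p`-new condition). -/
theorem old_or_new (P : FreyPackage) (N' : ℕ) [NeZero N'] [NeZero P.p]
    (W : WeierstrassCurve ℤ) (hW : W.IsIntegralModelOf P.freyCurve)
    (x y : ℤ) (h : x * P.p + y * N' = 1) (c : AN (N' * P.p) →+ ℤ)
    (heig : ∀ ℓ : ℕ, ℓ.Prime → ¬ ℓ ∣ N' * P.p → W.IsGoodPrimeFor ℓ →
      ∀ z, (P.p : ℤ) ∣ c (tau (N' * P.p) ℓ z) - W.apOfModel ℓ * c z) :
    P.ModularRepOfLevel N' ∨
      (((Int.castAddHom (ZMod P.p)).comp c).comp (Norm.verA N' P.p) = 0 ∧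
        (((Int.castAddHom (ZMod P.p)).comp c).comp (Swap.omega x y h)).comp
          (Norm.verA N' P.p) = 0) := by
  by_cases h1 : ∃ z, ¬ (P.p : ℤ) ∣ c (Norm.verA N' P.p z)
  · exact Or.inl (modularRepOfLevel_of_verA P N' W hW c heig h1)
  by_cases h2 : ∃ z, ¬ (P.p : ℤ) ∣ (c.comp (Swap.omega x y h)) (Norm.verA N' P.p z)
  · exact Or.inl (modularRepOfLevel_of_verA P N' W hW (c.comp (Swap.omega x y h))
      (eig_comp_omega P N' W x y h c heig) h2)
  push Not at h1 h2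
  refine Or.inr ⟨AddMonoidHom.ext fun z => ?_, AddMonoidHom.ext fun z => ?_⟩
  · show ((c (Norm.verA N' P.p z) : ℤ) : ZMod P.p) = 0
    exact (ZMod.intCast_zmod_eq_zero_iff_dvd _ _).mpr (h1 z)
  · show ((c (Swap.omega x y h (Norm.verA N' P.p z)) : ℤ) : ZMod P.p) = 0
    exact (ZMod.intCast_zmod_eq_zero_iff_dvd _ _).mpr (h2 z)

/-- **(O4′) The seam, `ZMod p` form** (the shape of `S44.W.NewEmb.IsCharEmb`): for a
`ZMod p`-valued Hecke eigen-character `e` of level `N' p` which is the reduction of an integral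
character, either the Frey representation is modular of level `N'`, or `e` is `p`-new. -/
theorem old_or_new_zmod (P : FreyPackage) (N' : ℕ) [NeZero N'] [NeZero P.p]
    (W : WeierstrassCurve ℤ) (hW : W.IsIntegralModelOf P.freyCurve)
    (x y : ℤ) (h : x * P.p + y * N' = 1) (e : AN (N' * P.p) →+ ZMod P.p)
    (hlift : ∃ c : AN (N' * P.p) →+ ℤ, (Int.castAddHom (ZMod P.p)).comp c = e)
    (hecke : ∀ ℓ : ℕ, ℓ.Prime → ¬ ℓ ∣ N' * P.p → W.IsGoodPrimeFor ℓ →
      ∀ z, e (tau (N' * P.p) ℓ z) = ((W.apOfModel ℓ : ℤ) : ZMod P.p) * e z) :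
    P.ModularRepOfLevel N' ∨
      (e.comp (Norm.verA N' P.p) = 0 ∧
        (e.comp (Swap.omega x y h)).comp (Norm.verA N' P.p) = 0) := by
  obtain ⟨c, rfl⟩ := hlift
  refine old_or_new P N' W hW x y h c ?_
  intro ℓ hℓ hℓNp hgood z
  have h1 : ((c (tau (N' * P.p) ℓ z) : ℤ) : ZMod P.p)
      = ((W.apOfModel ℓ : ℤ) : ZMod P.p) * ((c z : ℤ) : ZMod P.p) := hecke ℓ hℓ hℓNp hgood z
  rw [← ZMod.intCast_zmod_eq_zero_iff_dvd, Int.cast_sub, Int.cast_mul, h1, sub_self]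

/-! ### (O5) Integral lifts of characters killing torsion -/

/-- **(O5)** A `ZMod p`-valued character of `AN N` which kills the torsion elements is the
reduction of an integral character. -/
theorem exists_int_lift (N : ℕ) [NeZero N] (p : ℕ) (e : AN N →+ ZMod p)
    (hker : ∀ x : AN N, ∀ n : ℕ, 0 < n → n • x = 0 → e x = 0) :
    ∃ c : AN N →+ ℤ, (Int.castAddHom (ZMod p)).comp c = e := by
  classical
  obtain ⟨r, a, ε, -, hexp⟩ := BettiLimit.exists_coords (AN N) (fg_AN N)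
  have htor : ∀ x : AN N, e (x - ∑ i, ε i x • a i) = 0 := by
    intro x
    have h1 := hexp (AN N ⧸ Submodule.torsion ℤ (AN N))
      (Submodule.mkQ (Submodule.torsion ℤ (AN N))).toAddMonoidHom x
    have h2 : Submodule.mkQ (Submodule.torsion ℤ (AN N)) (x - ∑ i, ε i x • a i) = 0 := by
      rw [map_sub, map_sum, sub_eq_zero]
      simp only [map_zsmul]
      exact h1
    have h3 : x - ∑ i, ε i x • a i ∈ Submodule.torsion ℤ (AN N) :=
      (Submodule.Quotient.mk_eq_zero _).mp h2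
    rw [Submodule.mem_torsion_iff] at h3
    obtain ⟨⟨m, hm⟩, hmx⟩ := h3
    have hm0 : m ≠ 0 := nonZeroDivisors.ne_zero hm
    have hmx' : m • (x - ∑ i, ε i x • a i) = 0 := hmx
    refine hker _ m.natAbs (Int.natAbs_pos.mpr hm0) ?_
    rw [← natCast_zsmul]
    rcases Int.natAbs_eq m with h | h
    · rw [← h]
      exact hmx'
    · have h' : (m.natAbs : ℤ) = -m := by omega
      rw [h', neg_smul, hmx', neg_zero]
  refine ⟨∑ j, (ZMod.cast (e (a j)) : ℤ) • ε j, AddMonoidHom.ext fun x => ?_⟩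
  have h4 : e x = ∑ i, ((ε i x : ℤ) : ZMod p) * e (a i) := by
    have h5 := htor x
    rw [map_sub, sub_eq_zero] at h5
    rw [h5, map_sum]
    exact Finset.sum_congr rfl fun i _ => by rw [map_zsmul, zsmul_eq_mul]
  show (((∑ j, (ZMod.cast (e (a j)) : ℤ) • ε j) x : ℤ) : ZMod p) = e x
  rw [h4, AddMonoidHom.finsetSum_apply, Int.cast_sum]
  refine Finset.sum_congr rfl fun j _ => ?_
  rw [AddMonoidHom.zsmul_apply, smul_eq_mul, Int.cast_mul, ZMod.intCast_zmod_cast, mul_comm]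

end Fermat.Agent.S44.W.OldExit
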