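/-
PROGRAM MR (S44), strand W, row MR.W.L (helper275, second of the row; owner helper165):
`liftStatement : W.LiftStatement` -- the liftable Kummer classes are Galois stable.

Route (W DEAL #1): `d` is liftable as soon as it kills the torsion of `AN N`
(`OldExit.exists_int_lift`).  For a torsion `x`, `n • x = 0`, `0 < n`: take the character
`c' mod p ^ n`, a Kummer function `g` for it (`Glue.krel_ex`), the character `dₙ` of `galF σ g`
at exponent `p ^ n` (`Glue.krel_gal`).  Then `n • dₙ x = 0` with `n < p ^ n` forces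
`dₙ x ≡ 0 mod p`, and `d = dₙ mod p` because `g` and `f` differ by a `p`-th power
(`NewEmb.krel_eq_mul_pow`, `krel_cast`, `Glue.krel_uniq`).

* `krel_congr` : transport of `KRel` along an equality of exponents.
* `krel_cast`  : `KRel N (p ^ n) f c → KRel N p f (φ ∘ c)` for `n ≠ 0` and the ring hom
                 `φ : ZMod (p ^ n) →+* ZMod p` (iterated `Glue.krel_red`).
* `castHom_eq_zero_of_nsmul` : `n₀ • y = 0` in `ZMod (p ^ n)`, `0 < n₀ < p ^ n` ⟹ `φ y = 0`.
-/
import Mathlib
import Fermat.Agent.S44.W.Bricks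
import Fermat.Agent.S44.W.OldExit
import Fermat.Agent.S44.W.NewEmb
import Fermat.Agent.S30.Producer.SurjXRoot
import Fermat.Agent.S30.Producer.ParEllBrick

set_option autoImplicit false

namespace Fermat.Agent.S44.W.Lift

open Fermat.Agent.S30 Fermat.Agent.S30.Producer

local notation "GQb" => (AlgebraicClosure ℚ ≃ₐ[ℚ] AlgebraicClosure ℚ)

/-- Transport of the Kummer relation along an equality of exponents. -/
theorem krel_congr {N m m' : ℕ} [NeZero m] [NeZero m'] (h : m = m') {f : FN N}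
    {c : AN N →+ ZMod m} (hk : KRel N m f c) :
    KRel N m' f ((ZMod.ringEquivCongr h).toAddMonoidHom.comp c) := by
  subst h
  have : (ZMod.ringEquivCongr (rfl : m = m)).toAddMonoidHom.comp c = c := by
    refine AddMonoidHom.ext fun x => ?_
    simp
  rw [this]
  exact hk

/-- Reduction of the exponent `p ^ n → p`, for any ring hom `ZMod (p ^ n) →+* ZMod p`. -/
theorem krel_cast {N p : ℕ} [Fact p.Prime] [NeZero p] : ∀ (n : ℕ), n ≠ 0 →
    ∀ (φ : ZMod (p ^ n) →+* ZMod p) {f : FN N} {c : AN N →+ ZMod (p ^ n)},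
      KRel N (p ^ n) f c → KRel N p f (φ.toAddMonoidHom.comp c) := by
  intro n
  induction n with
  | zero => intro h; exact absurd rfl h
  | succ n ih =>
    intro _ φ f c hk
    rcases Nat.eq_zero_or_pos n with h0 | hpos
    · subst h0
      have h1 := krel_congr (pow_one p : p ^ (0 + 1) = p) hk
      have h2 : ((ZMod.ringEquivCongr (pow_one p : p ^ (0 + 1) = p)) : ZMod (p ^ (0 + 1)) →+* ZMod p)
          = φ := Subsingleton.elim _ _
      have h3 : (ZMod.ringEquivCongr (pow_one p : p ^ (0 + 1) = p)).toAddMonoidHom.comp c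
          = φ.toAddMonoidHom.comp c := by
        refine AddMonoidHom.ext fun x => ?_
        exact congrArg (fun ψ : ZMod (p ^ (0 + 1)) →+* ZMod p => ψ (c x)) h2
      rw [← h3]
      exact h1
    · have h1 := Glue.krel_red hk
      let ψ : ZMod (p ^ n) →+* ZMod p := ZMod.castHom (dvd_pow_self p hpos.ne') (ZMod p)
      have h2 := ih hpos.ne' ψ h1
      have h3 : ψ.comp (ZMod.castHom (pow_dvd_pow p (Nat.le_succ n)) (ZMod (p ^ n))) = φ :=
        Subsingleton.elim _ _
      have h4 : ψ.toAddMonoidHom.comp (BettiLimit.red (AN N) p n c) = φ.toAddMonoidHom.comp c := by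
        refine AddMonoidHom.ext fun x => ?_
        exact congrArg (fun χ : ZMod (p ^ (n + 1)) →+* ZMod p => χ (c x)) h3
      rw [← h4]
      exact h2

theorem castHom_eq_zero_of_nsmul {p n n0 : ℕ} (hp : p.Prime) (hn0 : 0 < n0)
    (hlt : n0 < p ^ n) (φ : ZMod (p ^ n) →+* ZMod p) (y : ZMod (p ^ n)) (hy : n0 • y = 0) :
    φ y = 0 := by
  have : Fact p.Prime := ⟨hp⟩
  have : NeZero (p ^ n) := ⟨pow_ne_zero _ hp.ne_zero⟩
  by_contra hne
  have hφ : φ y = ((y.val : ℕ) : ZMod p) := by
    conv_lhs => rw [← ZMod.natCast_zmod_val y]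
    rw [map_natCast]
  have hcop : Nat.Coprime y.val (p ^ n) := by
    apply Nat.Coprime.pow_right
    rw [Nat.coprime_comm, hp.coprime_iff_not_dvd]
    intro hdvd
    apply hne
    rw [hφ]
    exact (ZMod.natCast_eq_zero_iff _ _).mpr hdvd
  have hunit : IsUnit y := by
    rw [← ZMod.natCast_zmod_val y]
    exact (ZMod.isUnit_iff_coprime _ _).mpr hcop
  have h6 : (n0 : ZMod (p ^ n)) = 0 := by
    rw [nsmul_eq_mul] at hy
    exact (hunit.mul_left_eq_zero).mp hy
  have h7 : p ^ n ∣ n0 := (ZMod.natCast_eq_zero_iff _ _).mp h6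
  exact absurd (Nat.le_of_dvd hn0 h7) (not_le.mpr hlt)

theorem liftStatement : LiftStatement := by
  intro N p _ _ hp σ f c d hfc hfd hc
  have : Fact p.Prime := ⟨hp⟩
  obtain ⟨c', rfl⟩ := hc
  refine OldExit.exists_int_lift N p d ?_
  intro x n hn hx
  have hnp : n < p ^ n := Nat.lt_pow_self hp.one_lt
  let cn : AN N →+ ZMod (p ^ n) := (Int.castAddHom (ZMod (p ^ n))).comp c'
  obtain ⟨g, hg⟩ := Glue.krel_ex (SurjXRoot.surj N) cn
  obtain ⟨dn, hdn⟩ := Glue.krel_gal (ParEllBrick.parEll N) σ hg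
  let φ : ZMod (p ^ n) →+* ZMod p := ZMod.castHom (dvd_pow_self p hn.ne') (ZMod p)
  have h1 : KRel N p g ((Int.castAddHom (ZMod p)).comp c') := by
    have h := krel_cast n hn.ne' φ hg
    have e : φ.toAddMonoidHom.comp cn = (Int.castAddHom (ZMod p)).comp c' := by
      refine AddMonoidHom.ext fun y => ?_
      simp [cn]
    rw [← e]
    exact h
  have h2 : KRel N p (galF N σ g) (φ.toAddMonoidHom.comp dn) := krel_cast n hn.ne' φ hdn
  obtain ⟨k, hk0, hk⟩ := NewEmb.krel_eq_mul_pow hfc h1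
  have h3 : KRel N p (galF N σ g) d := by
    rw [hk, map_mul, map_pow]
    exact NewEmb.krel_mul_pow hfd ((map_ne_zero_iff _ (galF N σ).injective).mpr hk0)
  have h4 : d = φ.toAddMonoidHom.comp dn := Glue.krel_uniq h3 h2
  have h5 : n • dn x = 0 := by rw [← map_nsmul, hx, map_zero]
  rw [h4]
  exact castHom_eq_zero_of_nsmul hp hn hnp φ (dn x) h5

end Fermat.Agent.S44.W.Lift
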