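import Mathlib
import Fermat.Agent.S44.Contract
import Fermat.Agent.S35.Betti.NormHecke
import Fermat.Agent.S35.Betti.SwapAt

/-!
# PROGRAM MR (S44), strand W: the brick statements (helper84, W sub-captain)

Statement-only file.  `WStatement_of_bricks` proves `Contract.WStatement` from four bricks; the
bricks `Emb` and `NewEmb` are in turn fed by the rows `Rel`, `Lift`, `Alg`, `NormBeta`
(`EmbInputs`, `NewEmbInputs` record the intended dependencies as Props).

Vocabulary (all landed): `AN M = Γ₀(M)^ab / ⟨parabolic, elliptic⟩`, `tau M ℓ` the Hecke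
correspondence on `AN M`, `KRel M m f c` the Kummer relation ("`f ≠ 0`, `m ∣ div f`, the Kummer
character of `f` is `c : AN M →+ ZMod m`"; `Glue.krel_ex / krel_mul / krel_uniq / krel_inj /
krel_pow / krel_gal / krel_hecke`), `verA N ℓ : AN N →+ AN (N ℓ)` the transfer
(`Norm.krel_norm`: the character of the `α`-norm of `f` is `c ∘ verA`), `omegaAt M q` the
Atkin–Lehner endomorphism of `AN M` (`omegaAt_mul`: it is `Swap.omega x y h` for ANY Bezout
datum; `Swap.krel_wAL`).

The Kummer classes of level `M` and exponent `p` are `AN M →+ ZMod p`; the Galois action on them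
is expressed through `KRel` (`KRel f c → KRel (galF σ f) (σ · c)`), never as a new definition.
Torsion-freeness of `AN M` is NOT on main, so the classes of strand W are the LIFTABLE ones
(`IsLift`: reductions of integral characters `AN M →+ ℤ`); only those lift to characteristic 0.

* `IsLift M p c`     : `c` is the reduction of an integral character.
* `IsEigen W M p c`  : `c ∘ τ_ℓ = a_ℓ(W) • c` for the good primes `ℓ ∤ M`, `ℓ ≠ p`.
* `OccStatement`  (W0): the eigensystem of the Frey curve occurs in the liftable classes.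
* `ExitStatement` (W1): a nonzero liftable eigen-class of level `M` gives `ModularRepOfLevel M`
  (Deligne–Serre on the lattice, `S35.Cocc.exists_isNormalizedEigenform`).
* `RelStatement`  (W2): every `σ` satisfies ONE quadratic relation `σ² - t σ + k = 0` on `E[p]`
  and on the eigen-classes, with `σ ζ = ζ ^ k` on `μ_p` (Frobenius density + Lucas).
* `LiftStatement` (WL): the liftable classes are Galois stable.
* `AlgStatement`  (W3): the Boston–Lenstra–Ribet step, pure algebra over `ZMod p`.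
* `EmbStatement`  (W2 + WL + W3 + glue): a Galois-equivariant embedding of `E[p]` into the
  liftable eigen-classes of level `N`.
* `NormBetaStatement` (Wβ): the character of the `β`-norm of `f` is `(c ∘ ω_ℓ) ∘ verA`.
* `NewEmbStatement` (W4): the function-level `IsNewEmb` from the Betti-level embedding.
-/

set_option autoImplicit false

open WeierstrassCurve WeierstrassCurve.Affine WeierstrassCurve.Affine.Point
open ModularCurve AlgebraicCurve

namespace Fermat.Agent.S44.W

open Fermat.Agent.S30 Fermat.Agent.S30.Producer Fermat.Agent.S44.Contract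
open Fermat.Agent.S35.Betti Fermat.Agent.S35.Betti.Swap

local notation "GQb" => (AlgebraicClosure ℚ ≃ₐ[ℚ] AlgebraicClosure ℚ)

/-- `c` is the reduction modulo `p` of an integral character of `AN M`. -/
def IsLift (M p : ℕ) (c : AN M →+ ZMod p) : Prop :=
  ∃ c' : AN M →+ ℤ, (Int.castAddHom (ZMod p)).comp c' = c

/-- `c` is an eigen-class for the integral model `W`: `c ∘ τ_ℓ = a_ℓ(W) • c` for every prime
`ℓ ∤ M`, `ℓ ≠ p`, of good reduction. -/
def IsEigen (W : WeierstrassCurve ℤ) (M p : ℕ) (c : AN M →+ ZMod p) : Prop :=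
  ∀ ℓ : ℕ, ℓ.Prime → ¬ ℓ ∣ M → ℓ ≠ p → W.IsGoodPrimeFor ℓ →
    c.comp (tau M ℓ) = W.apOfModel ℓ • c

/-- **(W0) Occurrence.**  If the Frey curve is residually modular of level `N`, the eigensystem
of an integral model occurs in the liftable Kummer classes of level `N`. -/
def OccStatement : Prop :=
  ∀ (P : FreyPackage) (N : ℕ) [NeZero N], P.ModularRepOfLevel N →
    ∃ W : WeierstrassCurve ℤ, W.IsIntegralModelOf P.freyCurve ∧
      ∃ c : AN N →+ ZMod P.p, c ≠ 0 ∧ IsLift N P.p c ∧ IsEigen W N P.p c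

/-- **(W1) Exit.**  A nonzero liftable eigen-class of level `M` modulo `p` gives an eigenFORM of
level `M` congruent to the Frey curve. -/
def ExitStatement : Prop :=
  ∀ (P : FreyPackage) (M : ℕ) [NeZero M] (W : WeierstrassCurve ℤ),
    W.IsIntegralModelOf P.freyCurve →
    (∃ c : AN M →+ ZMod P.p, c ≠ 0 ∧ IsLift M P.p c ∧ IsEigen W M P.p c) →
    P.ModularRepOfLevel M

/-- **(W2) Quadratic relations for all `σ`.**  Every `σ ∈ G_ℚ` acts on `μ_p` by `ζ ↦ ζ ^ k` and
satisfies `σ² - t σ + k = 0` both on `E[p]` and on the eigen-classes of level `N` (Galois action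
through `KRel`), with the SAME `t`. -/
def RelStatement : Prop :=
  ∀ (P : FreyPackage) (N : ℕ) [NeZero N] [NeZero P.p] (W : WeierstrassCurve ℤ),
    W.IsIntegralModelOf P.freyCurve → ∀ σ : GQb, ∃ (k : ℕ) (t : ℤ),
      (∀ ζ : Qb, ζ ^ P.p = 1 → σ ζ = ζ ^ k) ∧
      (∀ Q : (P.freyCurve⁄Qb).Point, P.p • Q = 0 → σ • σ • Q - t • σ • Q + k • Q = 0) ∧
      (∀ (c c₁ c₂ : AN N →+ ZMod P.p) (f : FN N), IsEigen W N P.p c →
        KRel N P.p f c → KRel N P.p (galF N σ f) c₁ →
        KRel N P.p (galF N σ (galF N σ f)) c₂ → c₂ - t • c₁ + k • c = 0)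

/-- **(WL) The liftable classes are Galois stable.**  If the Kummer character of `f` is the
reduction of an integral character, so is the Kummer character of `galF σ f`. -/
def LiftStatement : Prop :=
  ∀ (N p : ℕ) [NeZero N] [NeZero p], p.Prime → ∀ (σ : GQb) (f : FN N) (c d : AN N →+ ZMod p),
    KRel N p f c → KRel N p (galF N σ f) d → IsLift N p c → IsLift N p d

/-- **(W3) The Boston–Lenstra–Ribet step.**  `E` an irreducible `ZMod p[G]`-module with `p ^ 2`
elements, `X ≠ 0` a finite one, `d` multiplicative with `d c₀ = -1` for an involution `c₀`; if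
every `g` satisfies `g² - t g + d g = 0` on `E` and on `X` with the same `t`, then `E` embeds
`G`-equivariantly into `X`. -/
def AlgStatement : Prop :=
  ∀ (p : ℕ) [Fact p.Prime], p ≠ 2 →
    ∀ (G E X : Type) [Group G] [AddCommGroup E] [AddCommGroup X] [Module (ZMod p) E]
      [Module (ZMod p) X] [Finite X] [DistribMulAction G E] [DistribMulAction G X]
      (d : G → ZMod p) (c₀ : G),
      Nat.card E = p ^ 2 → Nontrivial X →
      (∀ S : AddSubgroup E, (∀ (g : G), ∀ x ∈ S, g • x ∈ S) → S = ⊥ ∨ S = ⊤) →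
      (∀ g h : G, d (g * h) = d g * d h) → c₀ * c₀ = 1 → d c₀ = -1 →
      (∀ g : G, ∃ t : ZMod p, (∀ e : E, g • g • e - t • g • e + d g • e = 0) ∧
        (∀ x : X, g • g • x - t • g • x + d g • x = 0)) →
      ∃ φ : E →+ X, Function.Injective φ ∧ ∀ (g : G) (e : E), φ (g • e) = g • φ e

/-- **(W2 + WL + W3) The Betti-level embedding.**  If the eigensystem occurs at level `N` and
`E[p]` is irreducible, there is an additive, injective, Galois-equivariant map from `E[p]` to the
liftable eigen-classes of level `N`. -/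
def EmbStatement : Prop :=
  ∀ (P : FreyPackage) (N : ℕ) [NeZero N] [NeZero P.p] (W : WeierstrassCurve ℤ),
    W.IsIntegralModelOf P.freyCurve →
    GaloisRepIsIrreducible (K := AlgebraicClosure ℚ) ℚ P.freyCurve P.p →
    (∃ c : AN N →+ ZMod P.p, c ≠ 0 ∧ IsLift N P.p c ∧ IsEigen W N P.p c) →
    ∃ φ : (P.freyCurve⁄Qb).Point → (AN N →+ ZMod P.p),
      (∀ Q Q', P.p • Q = 0 → P.p • Q' = 0 → φ (Q + Q') = φ Q + φ Q') ∧
      (∀ Q, P.p • Q = 0 → φ Q = 0 → Q = 0) ∧
      (∀ Q, P.p • Q = 0 → IsLift N P.p (φ Q) ∧ IsEigen W N P.p (φ Q)) ∧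
      (∀ (σ : GQb) (Q), P.p • Q = 0 → ∀ f : FN N, KRel N P.p f (φ Q) →
        KRel N P.p (galF N σ f) (φ (σ • Q)))

/-- The intended proof of `EmbStatement` (glue row): from (W2), (WL) and (W3). -/
def EmbInputs : Prop := RelStatement → LiftStatement → AlgStatement → EmbStatement

/-- **(Wβ) The `β`-norm.**  The Kummer character of the norm along the second degeneracy map is
the transfer of the Atkin–Lehner twist of the character. -/
def NormBetaStatement : Prop :=
  ∀ (N ℓ : ℕ) [NeZero N] [NeZero ℓ], ℓ.Prime → ¬ ℓ ∣ N → ∀ (m : ℕ) [NeZero m]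
    (f : FN (N * ℓ)) (c : AN (N * ℓ) →+ ZMod m), KRel (N * ℓ) m f c →
    (letI := algebraAlong (heckeBetaBar Qb N ℓ)
     KRel N m (Algebra.norm (FN N) f) ((c.comp (omegaAt (N * ℓ) ℓ)).comp (Norm.verA N ℓ)))

/-- **(W4) The function-level embedding.**  A Betti-level embedding into the eigen-classes of
level `N' p` killed by both transfers to level `N'` gives `Contract.IsNewEmb`. -/
def NewEmbStatement : Prop :=
  ∀ (P : FreyPackage) (N' : ℕ) [NeZero N'] [NeZero P.p] (W : WeierstrassCurve ℤ),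
    ¬ P.p ∣ N' →
    ∀ φ : (P.freyCurve⁄Qb).Point → (AN (N' * P.p) →+ ZMod P.p),
      (∀ Q Q', P.p • Q = 0 → P.p • Q' = 0 → φ (Q + Q') = φ Q + φ Q') →
      (∀ Q, P.p • Q = 0 → φ Q = 0 → Q = 0) →
      (∀ Q, P.p • Q = 0 → IsEigen W (N' * P.p) P.p (φ Q)) →
      (∀ (σ : GQb) (Q), P.p • Q = 0 → ∀ f : FN (N' * P.p), KRel (N' * P.p) P.p f (φ Q) →
        KRel (N' * P.p) P.p (galF (N' * P.p) σ f) (φ (σ • Q))) →
      (∀ Q, P.p • Q = 0 → (φ Q).comp (Norm.verA N' P.p) = 0 ∧
        ((φ Q).comp (omegaAt (N' * P.p) P.p)).comp (Norm.verA N' P.p) = 0) →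
      ∃ ι : (P.freyCurve⁄Qb).Point → FN (N' * P.p), IsNewEmb P N' W ι

/-- The intended proof of `NewEmbStatement` (row W4): from (Wβ) and landed Kummer theory. -/
def NewEmbInputs : Prop := NormBetaStatement → NewEmbStatement

/-- The transfer of an eigen-class of level `N' p` is an eigen-class of level `N'`. -/
theorem isEigen_comp_verA {W : WeierstrassCurve ℤ} {N' p : ℕ} [NeZero N'] [NeZero p]
    (hp : p.Prime) {c : AN (N' * p) →+ ZMod p} (hc : IsEigen W (N' * p) p c) :
    IsEigen W N' p (c.comp (Norm.verA N' p)) := by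
  intro ℓ hℓ hℓN hℓp hgood
  have hℓNp : ¬ ℓ ∣ N' * p := fun h => by
    rcases (Nat.Prime.dvd_mul hℓ).1 h with h | h
    · exact hℓN h
    · exact hℓp ((Nat.prime_dvd_prime_iff_eq hℓ hp).1 h)
  rw [← NormHecke.comp_tau_comp_verA N' p hℓ hℓNp c, hc ℓ hℓ hℓNp hℓp hgood]
  rfl

/-- The Atkin–Lehner twist of an eigen-class of level `N' p` is an eigen-class. -/
theorem isEigen_comp_omegaAt {W : WeierstrassCurve ℤ} {N' p : ℕ} (hp : p.Prime) (hpN' : ¬ p ∣ N')
    {c : AN (N' * p) →+ ZMod p} (hc : IsEigen W (N' * p) p c) :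
    IsEigen W (N' * p) p (c.comp (omegaAt (N' * p) p)) := by
  intro ℓ hℓ hℓN hℓp hgood
  have h2 : ¬ p ^ 2 ∣ N' * p := fun h => by
    rw [pow_two] at h
    exact hpN' (Nat.dvd_of_mul_dvd_mul_right hp.pos h)
  rw [AddMonoidHom.comp_assoc, omegaAt_tau hp (Dvd.intro_left N' rfl) h2 ℓ,
    ← AddMonoidHom.comp_assoc, hc ℓ hℓ hℓN hℓp hgood]
  rfl

/-- Precomposition preserves liftability. -/
theorem IsLift.comp {M M' p : ℕ} {c : AN M →+ ZMod p} (hc : IsLift M p c) (g : AN M' →+ AN M) :
    IsLift M' p (c.comp g) := by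
  obtain ⟨c', rfl⟩ := hc
  exact ⟨c'.comp g, rfl⟩

/-- **Strand W from its bricks.** -/
theorem WStatement_of_bricks (hOcc : OccStatement) (hExit : ExitStatement)
    (hEmb : EmbStatement) (hNew : NewEmbStatement) : WStatement := by
  intro P N' _ _ hpN' _ hirr hmod
  obtain ⟨W, hW, c₀, hc₀, hlift₀, heig₀⟩ := hOcc P (N' * P.p) hmod
  by_cases hnew : ∀ c : AN (N' * P.p) →+ ZMod P.p, IsLift (N' * P.p) P.p c →
      IsEigen W (N' * P.p) P.p c →
      c.comp (Norm.verA N' P.p) = 0 ∧
        (c.comp (omegaAt (N' * P.p) P.p)).comp (Norm.verA N' P.p) = 0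
  · right
    obtain ⟨φ, hadd, hinj, hcl, hgal⟩ :=
      hEmb P (N' * P.p) W hW hirr ⟨c₀, hc₀, hlift₀, heig₀⟩
    obtain ⟨ι, hι⟩ := hNew P N' W hpN' φ hadd hinj (fun Q hQ => (hcl Q hQ).2) hgal
      (fun Q hQ => hnew _ (hcl Q hQ).1 (hcl Q hQ).2)
    exact ⟨W, ι, hW, hι⟩
  · left
    push Not at hnew
    obtain ⟨c, hlift, hc, hne⟩ := hnew
    by_cases h1 : c.comp (Norm.verA N' P.p) = 0
    · exact hExit P N' W hW ⟨_, hne h1, (hlift.comp _).comp _,
        isEigen_comp_verA P.pp (isEigen_comp_omegaAt P.pp hpN' hc)⟩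
    · exact hExit P N' W hW ⟨_, h1, hlift.comp _, isEigen_comp_verA P.pp hc⟩

end Fermat.Agent.S44.W
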