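import Mathlib
import Fermat.Agent.S30.BettiLimit
import Fermat.Agent.S35.EigenTransfer

/-!
# PROGRAM MR / S44, strand W, row `MR.W.0` (helper59): reduction of an eigensystem, abstract core

Level-free linear algebra for `W.OccStatement`:

* `isIntegral_of_mulVec_eq_smul` (A): an eigenvalue (on `ℂ^r`) of an INTEGER matrix is an
  algebraic integer (Cayley–Hamilton).
* `exists_modp_eigenvector` (B): **reduction of an eigensystem**.  Let `t i` be commuting integer
  matrices with a joint complex eigenvector whose eigenvalues `θ i` are algebraic integers, and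
  let `θ i ≡ α i` modulo a maximal ideal `𝔪 ∋ p` of the ring of algebraic integers, `α i ∈ ℤ`.
  Then the reductions of the `t i` modulo `p` have a joint eigenvector in `(ZMod p)^r` with
  eigenvalues `α i`.  (Mirror of `S35.EigenTransfer.exists_complex_eigenvector`; the converse of
  the Deligne–Serre lifting `S44.W.OldExit.exists_eigen_lift_int`.)
* `exists_eigen_class` (B'): the same for a finitely generated abelian group `A` with commuting
  endomorphisms `τ ℓ`: a complex eigen-character of `A` gives an INTEGRAL character of `A` which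
  is nonzero modulo `p` and an eigen-character modulo `p` with the eigenvalues `α ℓ`.

Proof of (B): `MvPolynomial I (ZMod p)` acts on `(ZMod p)^r` through the reduced matrices; the
character `X i ↦ α i` kills the annihilator: if `Q(t) ≡ 0 mod p` for an integer polynomial `Q`
then `Q(t) = p T'` with `T'` an integer matrix, `T' v = (Q(θ)/p) v`, so `Q(θ)/p` is an algebraic
integer by (A), `Q(θ) ∈ 𝔪`, `Q(α) ∈ 𝔪 ∩ ℤ = pℤ`.  Then `S30.Eigen.exists_eigenvector`.
-/

set_option autoImplicit false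

namespace Fermat.Agent.S44.W.OccCore

open Fermat.Agent.S30 Fermat.Agent.S30.Eigen Fermat.Agent.S35.EigenTransfer

/-- **(A)** An eigenvalue of an integer matrix acting on `ℂ^r` is an algebraic integer. -/
theorem isIntegral_of_mulVec_eq_smul {r : ℕ} (M : Matrix (Fin r) (Fin r) ℤ) (v : Fin r → ℂ)
    (hv : v ≠ 0) (μ : ℂ) (h : (M.map (Int.castRingHom ℂ)).mulVec v = μ • v) :
    IsIntegral ℤ μ := by
  classical
  have hpow : ∀ n : ℕ, ((M.map (Int.castRingHom ℂ)) ^ n).mulVec v = μ ^ n • v := by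
    intro n
    induction n with
    | zero => simp
    | succ n ih =>
      rw [pow_succ, ← Matrix.mulVec_mulVec, h, Matrix.mulVec_smul, ih, smul_smul, pow_succ,
        mul_comm]
  have hpoly : ∀ q : Polynomial ℂ,
      (Polynomial.aeval (M.map (Int.castRingHom ℂ)) q).mulVec v = q.eval μ • v := by
    intro q
    induction q using Polynomial.induction_on' with
    | add p q hp hq =>
      rw [map_add, Matrix.add_mulVec, hp, hq, Polynomial.eval_add, add_smul]
    | monomial n a =>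
      rw [Polynomial.aeval_monomial, Polynomial.eval_monomial, Algebra.algebraMap_eq_smul_one,
        smul_mul_assoc, one_mul, Matrix.smul_mulVec, hpow, smul_smul]
  have h0 : (M.map (Int.castRingHom ℂ)).charpoly.eval μ • v = 0 := by
    rw [← hpoly, Matrix.aeval_self_charpoly, Matrix.zero_mulVec]
  have hroot : (M.map (Int.castRingHom ℂ)).charpoly.eval μ = 0 :=
    (smul_eq_zero.1 h0).resolve_right hv
  refine ⟨M.charpoly, Matrix.charpoly_monic M, ?_⟩
  rw [Polynomial.eval₂_eq_eval_map, algebraMap_int_eq, ← Matrix.charpoly_map]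
  exact hroot

section Reduction

variable {r : ℕ} {I : Type}

/-- **(B) Reduction of an eigensystem.** -/
theorem exists_modp_eigenvector (t : I → Matrix (Fin r) (Fin r) ℤ)
    (hcomm : ∀ i i', Commute (t i) (t i')) (p : ℕ) [Fact p.Prime]
    (𝔪 : Ideal (integralClosure ℤ ℂ)) (h𝔪 : 𝔪.IsMaximal)
    (hp𝔪 : (p : integralClosure ℤ ℂ) ∈ 𝔪)
    (θ : I → integralClosure ℤ ℂ) (α : I → ℤ)
    (hθα : ∀ i, θ i - ((α i : ℤ) : integralClosure ℤ ℂ) ∈ 𝔪)
    (v : Fin r → ℂ) (hv : v ≠ 0)
    (hvt : ∀ i, ((t i).map (Int.castRingHom ℂ)).mulVec v = (θ i : ℂ) • v) :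
    ∃ y : Fin r → ZMod p, y ≠ 0 ∧
      ∀ i, ((t i).map (Int.castRingHom (ZMod p))).mulVec y = ((α i : ℤ) : ZMod p) • y := by
  classical
  have hpp : p.Prime := Fact.out
  have ht : ∀ i i', t i * t i' = t i' * t i := fun i i' => (hcomm i i').eq
  have htK : ∀ (K : Type) [CommRing K] (i i' : I),
      (t i).map (Int.castRingHom K) * (t i').map (Int.castRingHom K) =
        (t i').map (Int.castRingHom K) * (t i).map (Int.castRingHom K) := by
    intro K _ i i'
    have h := congrArg (fun M : Matrix (Fin r) (Fin r) ℤ => M.map (Int.castRingHom K)) (ht i i')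
    simp only [Matrix.map_mul] at h
    exact h
  let evZ : MvPolynomial I ℤ →ₐ[ℤ] Matrix (Fin r) (Fin r) ℤ := evalComm (R0 := ℤ) t ht
  let ι : integralClosure ℤ ℂ →+* ℂ := (integralClosure ℤ ℂ).val.toRingHom
  have hι : ∀ z : integralClosure ℤ ℂ, ι z = (z : ℂ) := fun _ => rfl
  -- Step 1: integer polynomials act on `v` through their values at `θ`
  have hall : ∀ Q : MvPolynomial I ℤ,
      ((evZ Q).map (Int.castRingHom ℂ)).mulVec v = ι (MvPolynomial.aeval θ Q) • v := by
    intro Q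
    induction Q using MvPolynomial.induction_on with
    | C n =>
      have h1 : evZ (MvPolynomial.C n) = (n : Matrix (Fin r) (Fin r) ℤ) := by
        rw [← MvPolynomial.algebraMap_eq, AlgHom.commutes, eq_intCast]
      rw [h1, MvPolynomial.aeval_C, eq_intCast, map_intCast]
      have h2 : ((n : Matrix (Fin r) (Fin r) ℤ)).map (Int.castRingHom ℂ) =
          (n : Matrix (Fin r) (Fin r) ℂ) := by
        have := map_intCast ((Int.castRingHom ℂ).mapMatrix (m := Fin r)) n
        rw [RingHom.mapMatrix_apply] at this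
        exact this
      rw [h2, Matrix.intCast_mulVec]
    | add p q hp hq =>
      rw [map_add, Matrix.map_add (Int.castRingHom ℂ) (map_add _), Matrix.add_mulVec, hp, hq,
        map_add, map_add, add_smul]
    | mul_X p i hp =>
      rw [map_mul, Matrix.map_mul, ← Matrix.mulVec_mulVec]
      have hX : evZ (MvPolynomial.X i) = t i := evalComm_X _ _ i
      rw [hX, hvt i, ← hι (θ i), Matrix.mulVec_smul, hp, map_mul, MvPolynomial.aeval_X, map_mul,
        smul_smul, mul_comm]
  -- Step 2: the algebra over `ZMod p`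
  let tK : I → Matrix (Fin r) (Fin r) (ZMod p) := fun i => (t i).map (Int.castRingHom (ZMod p))
  let evK : MvPolynomial I (ZMod p) →ₐ[ZMod p] Matrix (Fin r) (Fin r) (ZMod p) :=
    evalComm (R0 := ZMod p) tK (htK (ZMod p))
  let ρ : MvPolynomial I (ZMod p) →ₐ[ZMod p] Module.End (ZMod p) (Fin r → ZMod p) :=
    (Matrix.toLinAlgEquiv' : Matrix (Fin r) (Fin r) (ZMod p) ≃ₐ[ZMod p] _).toAlgHom.comp evK
  let φ : MvPolynomial I (ZMod p) →ₐ[ZMod p] ZMod p :=
    MvPolynomial.aeval (fun i => ((α i : ℤ) : ZMod p))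
  have key : ∀ Q, ρ Q = 0 → φ Q = 0 := by
    intro Q hQ
    have hQ' : evK Q = 0 := by
      have h1 : (Matrix.toLinAlgEquiv' : Matrix (Fin r) (Fin r) (ZMod p) ≃ₐ[ZMod p] _) (evK Q)
          = 0 := hQ
      exact (Matrix.toLinAlgEquiv' : Matrix (Fin r) (Fin r) (ZMod p) ≃ₐ[ZMod p] _).injective
        (h1.trans (map_zero _).symm)
    obtain ⟨Qt, rfl⟩ := MvPolynomial.map_surjective (Int.castRingHom (ZMod p))
      (ZMod.intCast_surjective) Q
    -- the integer matrix `Qt(t)` is divisible by `p`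
    have h1 : (evZ Qt).map (Int.castRingHom (ZMod p)) = 0 := by
      rw [← evalComm_map t ht (ZMod p) (htK (ZMod p)) Qt]
      exact hQ'
    have hdiv : ∀ k j, (p : ℤ) ∣ evZ Qt k j := by
      intro k j
      have h2 := congrFun (congrFun h1 k) j
      rw [Matrix.map_apply, Matrix.zero_apply, eq_intCast] at h2
      exact (ZMod.intCast_zmod_eq_zero_iff_dvd _ p).1 h2
    choose T' hT' using hdiv
    have hTm : evZ Qt = (p : ℤ) • (Matrix.of T' : Matrix (Fin r) (Fin r) ℤ) := by
      ext k j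
      rw [Matrix.smul_apply, Matrix.of_apply, smul_eq_mul]
      exact hT' k j
    -- complex side: `T' v = (Qt(θ) / p) v`
    have h2 := hall Qt
    have h3 : ((p : ℤ) • (Matrix.of T' : Matrix (Fin r) (Fin r) ℤ)).map (Int.castRingHom ℂ)
        = (p : ℂ) • (Matrix.of T' : Matrix (Fin r) (Fin r) ℤ).map (Int.castRingHom ℂ) := by
      ext k j
      simp [Matrix.map_apply, Matrix.smul_apply]
    rw [hTm, h3, Matrix.smul_mulVec] at h2
    have hpC : (p : ℂ) ≠ 0 := Nat.cast_ne_zero.2 hpp.ne_zero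
    have h4 : ((Matrix.of T' : Matrix (Fin r) (Fin r) ℤ).map (Int.castRingHom ℂ)).mulVec v
        = (ι (MvPolynomial.aeval θ Qt) / (p : ℂ)) • v := by
      have h5 := congrArg (fun w : Fin r → ℂ => (p : ℂ)⁻¹ • w) h2
      simp only [smul_smul, inv_mul_cancel₀ hpC, one_smul] at h5
      rw [h5, div_eq_inv_mul]
    have hint : IsIntegral ℤ (ι (MvPolynomial.aeval θ Qt) / (p : ℂ)) :=
      isIntegral_of_mulVec_eq_smul _ v hv _ h4
    have hb : MvPolynomial.aeval θ Qt
        = (p : integralClosure ℤ ℂ) * (⟨_, hint⟩ : integralClosure ℤ ℂ) := by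
      apply Subtype.ext
      show ι (MvPolynomial.aeval θ Qt) = (p : ℂ) * (ι (MvPolynomial.aeval θ Qt) / (p : ℂ))
      field_simp
    have hmem : MvPolynomial.aeval θ Qt ∈ 𝔪 := by
      rw [hb]
      exact Ideal.mul_mem_right _ _ hp𝔪
    -- pass from `θ` to `α` modulo `𝔪`
    have h5 : Ideal.Quotient.mk 𝔪 (MvPolynomial.aeval θ Qt)
        = Ideal.Quotient.mk 𝔪
            (MvPolynomial.aeval (fun i => ((α i : ℤ) : integralClosure ℤ ℂ)) Qt) := by
      have e1 := MvPolynomial.comp_aeval_apply (f := θ) (Ideal.Quotient.mk 𝔪).toIntAlgHom Qt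
      have e2 := MvPolynomial.comp_aeval_apply
        (f := fun i => ((α i : ℤ) : integralClosure ℤ ℂ)) (Ideal.Quotient.mk 𝔪).toIntAlgHom Qt
      have e3 : (fun i => (Ideal.Quotient.mk 𝔪).toIntAlgHom (θ i))
          = fun i => (Ideal.Quotient.mk 𝔪).toIntAlgHom ((α i : ℤ) : integralClosure ℤ ℂ) :=
        funext fun i => Ideal.Quotient.eq.2 (hθα i)
      rw [e3] at e1
      exact e1.trans e2.symm
    have h6 : MvPolynomial.aeval (fun i => ((α i : ℤ) : integralClosure ℤ ℂ)) Qt
        = ((MvPolynomial.aeval α Qt : ℤ) : integralClosure ℤ ℂ) := by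
      have e := MvPolynomial.comp_aeval_apply (f := α)
        (Int.castRingHom (integralClosure ℤ ℂ)).toIntAlgHom Qt
      exact e.symm
    have hnm : ((MvPolynomial.aeval α Qt : ℤ) : integralClosure ℤ ℂ) ∈ 𝔪 := by
      rw [← h6]
      exact Ideal.Quotient.eq_zero_iff_mem.1
        (h5.symm.trans (Ideal.Quotient.eq_zero_iff_mem.2 hmem))
    have hpn : (p : ℤ) ∣ MvPolynomial.aeval α Qt := by
      by_contra hnd
      have hcop : IsCoprime (p : ℤ) (MvPolynomial.aeval α Qt) :=
        (Nat.prime_iff_prime_int.1 hpp).coprime_iff_not_dvd.2 hnd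
      obtain ⟨u, w, huw⟩ := hcop
      have h1m : (1 : integralClosure ℤ ℂ) ∈ 𝔪 := by
        have h7 : ((u * (p : ℤ) + w * MvPolynomial.aeval α Qt : ℤ) : integralClosure ℤ ℂ) ∈ 𝔪 := by
          push_cast
          exact 𝔪.add_mem (𝔪.mul_mem_left _ hp𝔪) (𝔪.mul_mem_left _ hnm)
        rw [huw] at h7
        simpa using h7
      exact h𝔪.ne_top ((Ideal.eq_top_iff_one _).2 h1m)
    -- conclude
    have hcast : ((MvPolynomial.aeval α Qt : ℤ) : ZMod p)
        = MvPolynomial.eval₂ (Int.castRingHom (ZMod p)) (fun i => ((α i : ℤ) : ZMod p)) Qt := by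
      have e := MvPolynomial.eval₂_comp_left (Int.castRingHom (ZMod p)) (algebraMap ℤ ℤ) α Qt
      rw [show (Int.castRingHom (ZMod p)).comp (algebraMap ℤ ℤ) = Int.castRingHom (ZMod p) from
        Subsingleton.elim _ _] at e
      rw [MvPolynomial.aeval_def]
      exact e
    show MvPolynomial.aeval (fun i => ((α i : ℤ) : ZMod p))
      (MvPolynomial.map (Int.castRingHom (ZMod p)) Qt) = 0
    rw [MvPolynomial.aeval_def, MvPolynomial.eval₂_map,
      show (algebraMap (ZMod p) (ZMod p)).comp (Int.castRingHom (ZMod p))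
        = Int.castRingHom (ZMod p) from Subsingleton.elim _ _, ← hcast]
    exact (ZMod.intCast_zmod_eq_zero_iff_dvd _ p).2 hpn
  -- Step 3: the eigenvector
  obtain ⟨y, hy0, hy⟩ := exists_eigenvector ρ φ key
  refine ⟨y, hy0, fun i => ?_⟩
  have h := hy (MvPolynomial.X i)
  have e1 : ρ (MvPolynomial.X i) y = (tK i).mulVec y := by
    show (Matrix.toLinAlgEquiv' (evK (MvPolynomial.X i))) y = _
    have hX : evK (MvPolynomial.X i) = tK i := evalComm_X _ _ i
    rw [hX, Matrix.toLinAlgEquiv'_apply]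
  have e2 : φ (MvPolynomial.X i) = ((α i : ℤ) : ZMod p) := MvPolynomial.aeval_X _ _
  rw [e1, e2] at h
  exact h

end Reduction

/-- **(B') Reduction of an eigen-character.**  Let `A` be a finitely generated abelian group
with endomorphisms `τ ℓ` which commute on integral characters for the selected indices, and let
`ψ : A →+ ℂ` be a nonzero eigen-character, `ψ ∘ τ ℓ = θ ℓ • ψ`, with algebraic integers
`θ ℓ ≡ α ℓ` modulo a maximal ideal `𝔪 ∋ p`, `α ℓ ∈ ℤ`.  Then there is an INTEGRAL character of `A`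
which is nonzero modulo `p` and satisfies `c ∘ τ ℓ = α ℓ • c` modulo `p`. -/
theorem exists_eigen_class {A : Type} [AddCommGroup A] (hA : AddGroup.FG A) (τ : ℕ → A →+ A)
    (Sel : ℕ → Prop)
    (hτ : ∀ ℓ ℓ', Sel ℓ → Sel ℓ' → ∀ c : A →+ ℤ,
      (c.comp (τ ℓ)).comp (τ ℓ') = (c.comp (τ ℓ')).comp (τ ℓ))
    (p : ℕ) [Fact p.Prime] (𝔪 : Ideal (integralClosure ℤ ℂ)) (h𝔪 : 𝔪.IsMaximal)
    (hp𝔪 : (p : integralClosure ℤ ℂ) ∈ 𝔪)
    (θ : ℕ → integralClosure ℤ ℂ) (α : ℕ → ℤ)
    (hθα : ∀ ℓ, Sel ℓ → θ ℓ - ((α ℓ : ℤ) : integralClosure ℤ ℂ) ∈ 𝔪)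
    (ψ : A →+ ℂ) (hψ : ψ ≠ 0) (hψτ : ∀ ℓ, Sel ℓ → ∀ x, ψ (τ ℓ x) = (θ ℓ : ℂ) * ψ x) :
    ∃ c' : A →+ ℤ, (Int.castAddHom (ZMod p)).comp c' ≠ 0 ∧
      ∀ ℓ, Sel ℓ → ((Int.castAddHom (ZMod p)).comp c').comp (τ ℓ)
        = α ℓ • (Int.castAddHom (ZMod p)).comp c' := by
  classical
  obtain ⟨r, a, e, hdual, hexp⟩ := BettiLimit.exists_coords A hA
  -- the complex eigenvector
  have hv : (fun j => ψ (a j)) ≠ (0 : Fin r → ℂ) := by
    intro h0
    apply hψ
    refine AddMonoidHom.ext fun x => ?_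
    rw [hexp ℂ ψ x]
    simp only [AddMonoidHom.zero_apply]
    refine Finset.sum_eq_zero fun i _ => ?_
    have := congrFun h0 i
    simp only [Pi.zero_apply] at this
    rw [this, smul_zero]
  have hvt : ∀ i : {ℓ : ℕ // Sel ℓ},
      ((BettiLimit.tmat a e τ i.1).map (Int.castRingHom ℂ)).mulVec (fun j => ψ (a j))
        = ((θ i.1 : integralClosure ℤ ℂ) : ℂ) • (fun j => ψ (a j)) := by
    intro i
    funext k
    rw [Pi.smul_apply, smul_eq_mul, ← hψτ i.1 i.2 (a k), hexp ℂ ψ (τ i.1 (a k))]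
    simp only [Matrix.mulVec, dotProduct, Matrix.map_apply, BettiLimit.tmat_apply, eq_intCast,
      zsmul_eq_mul]
  obtain ⟨y, hy0, hy⟩ := exists_modp_eigenvector
    (fun i : {ℓ : ℕ // Sel ℓ} => BettiLimit.tmat a e τ i.1)
    (fun i i' => BettiLimit.tmat_comm a e hexp τ i.1 i'.1 (hτ i.1 i'.1 i.2 i'.2))
    p 𝔪 h𝔪 hp𝔪 (fun i => θ i.1) (fun i => α i.1) (fun i => hθα i.1 i.2)
    (fun j => ψ (a j)) hv hvt
  -- the integral character
  have hval : ∀ x : A, (((∑ j, (ZMod.cast (y j) : ℤ) • e j : A →+ ℤ) x : ℤ) : ZMod p)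
      = ∑ j, y j * ((e j x : ℤ) : ZMod p) := by
    intro x
    rw [AddMonoidHom.finsetSum_apply, Int.cast_sum]
    refine Finset.sum_congr rfl fun j _ => ?_
    rw [AddMonoidHom.zsmul_apply, smul_eq_mul, Int.cast_mul, ZMod.intCast_zmod_cast]
  refine ⟨∑ j, (ZMod.cast (y j) : ℤ) • e j, ?_, fun ℓ hℓ => ?_⟩
  · -- nonzero
    obtain ⟨k, hk⟩ : ∃ k, y k ≠ 0 := by
      by_contra hcon
      push Not at hcon
      exact hy0 (funext hcon)
    intro h0
    apply hk
    have h1 := DFunLike.congr_fun h0 (a k)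
    have h2 : (((∑ j, (ZMod.cast (y j) : ℤ) • e j : A →+ ℤ) (a k) : ℤ) : ZMod p) = 0 := h1
    rw [hval] at h2
    rw [← h2, Finset.sum_eq_single k]
    · rw [hdual k k, if_pos rfl, Int.cast_one, mul_one]
    · intro j _ hjk
      rw [hdual k j, if_neg (Ne.symm hjk), Int.cast_zero, mul_zero]
    · intro h
      exact absurd (Finset.mem_univ k) h
  · -- eigen
    refine AddMonoidHom.ext fun x => ?_
    show (((∑ j, (ZMod.cast (y j) : ℤ) • e j : A →+ ℤ) (τ ℓ x) : ℤ) : ZMod p)
      = α ℓ • (((∑ j, (ZMod.cast (y j) : ℤ) • e j : A →+ ℤ) x : ℤ) : ZMod p)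
    rw [hval, hval, zsmul_eq_mul, Finset.mul_sum]
    have h1 : ∀ j, ((e j (τ ℓ x) : ℤ) : ZMod p)
        = ∑ i, ((e i x : ℤ) : ZMod p) * ((BettiLimit.tmat a e τ ℓ i j : ℤ) : ZMod p) := by
      intro j
      rw [BettiLimit.e_tau a e hexp τ ℓ j x, Int.cast_sum]
      exact Finset.sum_congr rfl fun i _ => Int.cast_mul _ _
    have h2 : ∀ i, ∑ j, ((BettiLimit.tmat a e τ ℓ i j : ℤ) : ZMod p) * y j
        = ((α ℓ : ℤ) : ZMod p) * y i := by
      intro i
      have h3 := congrFun (hy ⟨ℓ, hℓ⟩) i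
      simp only [Matrix.mulVec, dotProduct, Matrix.map_apply, eq_intCast, Pi.smul_apply,
        smul_eq_mul] at h3
      exact h3
    calc ∑ j, y j * ((e j (τ ℓ x) : ℤ) : ZMod p)
        = ∑ j, ∑ i, ((e i x : ℤ) : ZMod p) * (((BettiLimit.tmat a e τ ℓ i j : ℤ) : ZMod p) * y j) := by
          refine Finset.sum_congr rfl fun j _ => ?_
          rw [h1 j, Finset.mul_sum]
          exact Finset.sum_congr rfl fun i _ => by ring
      _ = ∑ i, ((e i x : ℤ) : ZMod p) * ∑ j, ((BettiLimit.tmat a e τ ℓ i j : ℤ) : ZMod p) * y j := by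
          rw [Finset.sum_comm]
          exact Finset.sum_congr rfl fun i _ => (Finset.mul_sum _ _ _).symm
      _ = ∑ i, ((α ℓ : ℤ) : ZMod p) * (y i * ((e i x : ℤ) : ZMod p)) := by
          refine Finset.sum_congr rfl fun i _ => ?_
          rw [h2 i]
          ring

end Fermat.Agent.S44.W.OccCore
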