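import Mathlib
import Fermat.Agent.S44.W.Bricks
import Fermat.Agent.S44.W.OccCore
import Fermat.Agent.S29.Eigen
import Fermat.Agent.S30.Producer.BettiABricks

/-!
# PROGRAM MR / S44, strand W, row `MR.W.0` (helper59): the brick `W.OccStatement`

If the Frey curve is residually modular of level `N` (`P.ModularRepOfLevel N`), the eigensystem
of the integral model occurs in the LIFTABLE Kummer classes of level `N`: there is a nonzero
`c : AN N →+ ZMod p`, reduction of an integral character, with `c ∘ τ_ℓ = a_ℓ(W) • c` for the good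
primes `ℓ ∤ N`, `ℓ ≠ p`.

Proof: the period map (`BettiABricks.period`, injective and Hecke equivariant) sends the
eigenform `f` of `hmod` to a nonzero complex eigen-character `ψ` of `AN N` with eigenvalues
`a_ℓ(f)` (`S29.Eigen.heckeTLin_eq_smul`); the `τ_ℓ` commute on integral characters
(`BettiABricks.tauComm`); `a_ℓ(f) ≡ a_ℓ(W)` modulo `𝔪`; conclude by the reduction of an
eigensystem `OccCore.exists_eigen_class`.
-/

set_option autoImplicit false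

namespace Fermat.Agent.S44.W.Occ

open CongruenceSubgroup
open Fermat.Agent.S30 Fermat.Agent.S30.Producer Fermat.Agent.S44.W

/-- **(W0) `W.OccStatement`.** -/
theorem occStatement : OccStatement := by
  classical
  intro P N _ hmod
  obtain ⟨f, W, 𝔪, hf, hW, h𝔪, hp𝔪, hcong⟩ := hmod
  have : Fact P.p.Prime := ⟨P.pp⟩
  obtain ⟨Per, hadd, hinj, hhecke⟩ := BettiABricks.period N
  -- the complex eigen-character
  let ψ : AN N →+ ℂ := AddMonoidHom.mk' (Per f) (hadd f)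
  have hψapp : ∀ x, ψ x = Per f x := fun _ => rfl
  have hψ : ψ ≠ 0 := by
    intro h0
    apply hf.ne_zero
    apply hinj
    rw [map_zero]
    funext x
    exact DFunLike.congr_fun h0 x
  -- the selected primes and the eigenvalues
  let Sel : ℕ → Prop := fun ℓ => ℓ.Prime ∧ ¬ ℓ ∣ N ∧ ℓ ≠ P.p ∧ W.IsGoodPrimeFor ℓ
  have hex : ∀ ℓ : ℕ, ∃ a : integralClosure ℤ ℂ, Sel ℓ →
      ((a : ℂ) = ModularFormClass.qCoeff f ℓ ∧
        a - ((W.apOfModel ℓ : ℤ) : integralClosure ℤ ℂ) ∈ 𝔪) := by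
    intro ℓ
    by_cases hℓ : Sel ℓ
    · obtain ⟨a, ha, ha'⟩ := hcong ℓ hℓ.1 hℓ.2.2.2 hℓ.2.1 hℓ.2.2.1
      exact ⟨a, fun _ => ⟨ha, ha'⟩⟩
    · exact ⟨0, fun h => absurd h hℓ⟩
  choose θ hθ using hex
  have hψτ : ∀ ℓ, Sel ℓ → ∀ x, ψ (tau N ℓ x) = (θ ℓ : ℂ) * ψ x := by
    intro ℓ hℓ x
    have h1 := hhecke ℓ hℓ.1 hℓ.2.1 f x
    rw [Fermat.Agent.S29.Eigen.heckeTLin_eq_smul hf hℓ.1 hℓ.2.1, map_smul, Pi.smul_apply,
      smul_eq_mul] at h1
    rw [hψapp, hψapp, ← h1, (hθ ℓ hℓ).1]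
  obtain ⟨c', hne, heig⟩ := OccCore.exists_eigen_class (fg_AN N) (tau N) Sel
    (fun ℓ ℓ' hℓ hℓ' => BettiABricks.tauComm N ℓ ℓ' hℓ.1 hℓ.2.1 hℓ'.1 hℓ'.2.1)
    P.p 𝔪 h𝔪 hp𝔪 θ (fun ℓ => W.apOfModel ℓ) (fun ℓ hℓ => (hθ ℓ hℓ).2) ψ hψ hψτ
  exact ⟨W, hW, (Int.castAddHom (ZMod P.p)).comp c', hne, ⟨c', rfl⟩,
    fun ℓ hℓ hℓN hℓp hgood => heig ℓ ⟨hℓ, hℓN, hℓp, hgood⟩⟩

end Fermat.Agent.S44.W.Occ
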