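import Mathlib

/-!
# (W3) of Program MR (S44): `E[p]` embeds in a module with the same quadratic relations

Pure algebra (Mathlib only).  Let `E` be a two-dimensional irreducible representation of a group
`G` over a field `k` with `2 ≠ 0`, `d : G →* k` a character, `c ∈ G` with `ρE c ^ 2 = 1` and
`d c = -1`, and let `V ≠ 0` be any representation such that every `g` satisfies one and the same
quadratic relation `X ^ 2 - t X + d g = 0` on `E` and on `V`.  Then there is an injective
`G`-equivariant linear map `E → V`.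

No determinant identity on `E` is assumed: `det (ρE g) = d g` is derived.
-/

set_option autoImplicit false

namespace Fermat.Agent.S44.W.Embed

open Module

/-! ### Two-by-two identities -/

section TwoDim

variable {k : Type*} [Field k]

theorem mat_sq (M : Matrix (Fin 2) (Fin 2) k) :
    M * M - M.trace • M + M.det • (1 : Matrix (Fin 2) (Fin 2) k) = 0 := by
  ext i j
  fin_cases i <;> fin_cases j <;>
    simp [Matrix.mul_apply, Fin.sum_univ_two, Matrix.det_fin_two, Matrix.trace_fin_two] <;> ring

theorem mat_det_add (M N : Matrix (Fin 2) (Fin 2) k) :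
    (M + N).det = M.det + N.det + M.trace * N.trace - (M * N).trace := by
  simp [Matrix.det_fin_two, Matrix.trace_fin_two, Matrix.mul_apply, Fin.sum_univ_two]
  ring

variable {E : Type*} [AddCommGroup E] [Module k E]

/-- Cayley–Hamilton in dimension two. -/
theorem end_sq (hE : finrank k E = 2) (f : End k E) :
    f * f - LinearMap.trace k E f • f + LinearMap.det f • (1 : End k E) = 0 := by
  have : FiniteDimensional k E := Module.finite_of_finrank_eq_succ hE
  let b : Basis (Fin 2) k E := Module.finBasisOfFinrankEq k E hE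
  apply (LinearMap.toMatrixAlgEquiv b).injective
  rw [map_zero, map_add, map_sub, map_mul, map_smul, map_smul, map_one,
    LinearMap.trace_eq_matrix_trace k b f, ← LinearMap.det_toMatrix b f]
  exact mat_sq _

/-- The polar form of the determinant in dimension two. -/
theorem end_det_add (hE : finrank k E = 2) (f g : End k E) :
    LinearMap.det (f + g) = LinearMap.det f + LinearMap.det g
      + LinearMap.trace k E f * LinearMap.trace k E g - LinearMap.trace k E (f * g) := by
  have : FiniteDimensional k E := Module.finite_of_finrank_eq_succ hE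
  let b : Basis (Fin 2) k E := Module.finBasisOfFinrankEq k E hE
  rw [← LinearMap.det_toMatrix b (f + g), ← LinearMap.det_toMatrix b f,
    ← LinearMap.det_toMatrix b g, LinearMap.trace_eq_matrix_trace k b f,
    LinearMap.trace_eq_matrix_trace k b g, LinearMap.trace_eq_matrix_trace k b (f * g),
    LinearMap.toMatrix_mul, map_add]
  exact mat_det_add _ _

end TwoDim


/-! ### Burnside in dimension two over an arbitrary field -/

section Burnside

variable {k : Type*} [Field k] {E : Type*} [AddCommGroup E] [Module k E]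
  {G : Type*} [Monoid G]

/-- An irreducible two-dimensional representation whose span contains a nonzero element with
nonzero kernel spans the whole endomorphism algebra (no hypothesis on the field). -/
theorem span_range_eq_top_of_singular (hE : finrank k E = 2) (ρ : G →* End k E)
    (hirr : ∀ W : Submodule k E, (∀ g, ∀ x ∈ W, ρ g x ∈ W) → W = ⊥ ∨ W = ⊤)
    (b : End k E) (hb : b ∈ Submodule.span k (Set.range ρ)) (hb0 : b ≠ 0)
    (v : E) (hv : v ≠ 0) (hbv : b v = 0) :
    Submodule.span k (Set.range ρ) = ⊤ := by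
  have : FiniteDimensional k E := Module.finite_of_finrank_eq_succ hE
  set B : Submodule k (End k E) := Submodule.span k (Set.range ρ) with hB
  have hone : (1 : End k E) ∈ B := Submodule.subset_span ⟨1, map_one ρ⟩
  have hgen : ∀ g, ρ g ∈ B := fun g => Submodule.subset_span ⟨g, rfl⟩
  have hmul : ∀ g, ∀ b' ∈ B, ρ g * b' ∈ B := by
    intro g b' hb'
    induction hb' using Submodule.span_induction with
    | mem x hx =>
      obtain ⟨h, rfl⟩ := hx
      rw [← map_mul]
      exact hgen _
    | zero => rw [mul_zero]; exact B.zero_mem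
    | add x y _ _ hx hy => rw [mul_add]; exact B.add_mem hx hy
    | smul c x _ hx => rw [mul_smul_comm]; exact B.smul_mem c hx
  by_contra hne
  have h4 : finrank k (End k E) = 4 := by
    show finrank k (E →ₗ[k] E) = 4
    rw [Module.finrank_linearMap, hE]
  have hfin : finrank k B < 4 := by
    calc finrank k B < finrank k (End k E) := Submodule.finrank_lt hne
      _ = 4 := h4
  -- evaluation at a nonzero vector is onto
  have hev : ∀ u : E, ∃ b' ∈ B, b' v = u := by
    let W : Submodule k E := B.map (LinearMap.applyₗ v)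
    have hW : W = ⊥ ∨ W = ⊤ := hirr W (by
      rintro g x ⟨b', hb', rfl⟩
      exact ⟨ρ g * b', hmul g b' hb', rfl⟩)
    rcases hW with h | h
    · exfalso
      have hvW : v ∈ W := ⟨1, hone, rfl⟩
      rw [h] at hvW
      exact hv ((Submodule.mem_bot k).mp hvW)
    · intro u
      have huW : u ∈ W := h ▸ Submodule.mem_top
      obtain ⟨b', hb', rfl⟩ := huW
      exact ⟨b', hb', rfl⟩
  -- the kernel of the evaluation map has dimension at most one
  have hker : ∀ c ∈ B, c v = 0 → ∃ l : k, c = l • b := by
    intro c hc hcv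
    let ev : End k E →ₗ[k] E := LinearMap.applyₗ v
    have hEsurj : Function.Surjective ev := by
      intro u
      obtain ⟨b', -, rfl⟩ := hev u
      exact ⟨b', rfl⟩
    have hrk := LinearMap.finrank_range_add_finrank_ker ev
    rw [LinearMap.range_eq_top.mpr hEsurj, finrank_top, hE, h4] at hrk
    have hsup : B ⊔ LinearMap.ker ev = ⊤ := by
      rw [eq_top_iff]
      intro f _
      obtain ⟨b', hb', hb'f⟩ := hev (f v)
      have hfk : f - b' ∈ LinearMap.ker ev := by
        rw [LinearMap.mem_ker]
        show (f - b') v = 0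
        rw [LinearMap.sub_apply, hb'f, sub_self]
      have : f = b' + (f - b') := by abel
      rw [this]
      exact Submodule.add_mem_sup hb' hfk
    have hdim := Submodule.finrank_sup_add_finrank_inf_eq B (LinearMap.ker ev)
    rw [hsup, finrank_top, h4] at hdim
    have hk1 : finrank k (B ⊓ LinearMap.ker ev : Submodule k (End k E)) ≤ 1 := by
      omega
    obtain ⟨w, hw⟩ := (finrank_le_one_iff (K := k)
      (V := (B ⊓ LinearMap.ker ev : Submodule k (End k E)))).mp hk1
    have hbk : b ∈ B ⊓ LinearMap.ker ev := ⟨hb, hbv⟩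
    have hck : c ∈ B ⊓ LinearMap.ker ev := ⟨hc, hcv⟩
    obtain ⟨c1, hc1⟩ := hw ⟨_, hbk⟩
    obtain ⟨c2, hc2⟩ := hw ⟨_, hck⟩
    have hc1' : c1 • (w : End k E) = b := congrArg Subtype.val hc1
    have hc2' : c2 • (w : End k E) = c := congrArg Subtype.val hc2
    have hc1ne : c1 ≠ 0 := by
      rintro rfl
      rw [zero_smul] at hc1'
      exact hb0 hc1'.symm
    refine ⟨c2 * c1⁻¹, ?_⟩
    rw [← hc1', ← hc2', smul_smul, mul_assoc, inv_mul_cancel₀ hc1ne, mul_one]
  have hW : LinearMap.range b = ⊥ ∨ LinearMap.range b = ⊤ := hirr _ (by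
    rintro g x ⟨y, rfl⟩
    obtain ⟨l, hl⟩ := hker (ρ g * b) (hmul g b hb) (by
      rw [Module.End.mul_apply, hbv, map_zero])
    refine ⟨l • y, ?_⟩
    rw [map_smul]
    have := congrArg (fun f : End k E => f y) hl
    simpa using this.symm)
  rcases hW with h | h
  · exact hb0 (LinearMap.range_eq_bot.mp h)
  · have hsurj : Function.Surjective b := LinearMap.range_eq_top.mp h
    have hinj : Function.Injective b := LinearMap.injective_iff_surjective.mpr hsurj
    exact hv (hinj (by rw [hbv, map_zero]))

end Burnside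


/-! ### The relations with trace and determinant -/

section Rel

variable {k : Type*} [Field k] {G : Type*} [Group G]
  {E : Type*} [AddCommGroup E] [Module k E]

/-- An irreducible two-dimensional representation has a non-scalar element. -/
theorem exists_not_scalar (hE : finrank k E = 2) (ρE : G →* End k E)
    (hirr : ∀ L : Submodule k E, (∀ g, ∀ x ∈ L, ρE g x ∈ L) → L = ⊥ ∨ L = ⊤) :
    ∃ h : G, ∀ μ : k, ρE h ≠ μ • (1 : End k E) := by
  by_contra hcon
  have hscal : ∀ g, ∃ μ : k, ρE g = μ • (1 : End k E) := by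
    intro g
    by_contra hg
    exact hcon ⟨g, fun μ hμ => hg ⟨μ, hμ⟩⟩
  have : Nontrivial E := Module.nontrivial_of_finrank_pos (R := k) (by omega)
  obtain ⟨v0, hv0⟩ := exists_ne (0 : E)
  have hW : (k ∙ v0) = ⊥ ∨ (k ∙ v0) = ⊤ := hirr _ (by
    intro g x hx
    obtain ⟨μ, hμ⟩ := hscal g
    rw [hμ, LinearMap.smul_apply, Module.End.one_apply]
    exact Submodule.smul_mem _ μ hx)
  rcases hW with h | h
  · exact hv0 (Submodule.span_singleton_eq_bot.mp h)
  · have h1 : finrank k (k ∙ v0) = 1 := finrank_span_singleton hv0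
    rw [h, finrank_top, hE] at h1
    omega

/-- A scalar multiple of the identity that vanishes has vanishing scalar. -/
theorem eq_zero_of_smul_one_eq_zero [Nontrivial E] {a : k} (h : a • (1 : End k E) = 0) :
    a = 0 := by
  obtain ⟨v0, hv0⟩ := exists_ne (0 : E)
  have h1 := congrArg (fun f : End k E => f v0) h
  simp only [LinearMap.smul_apply, Module.End.one_apply, LinearMap.zero_apply] at h1
  exact (smul_eq_zero.mp h1).resolve_right hv0

/-- In dimension two a non-scalar endomorphism satisfies only its characteristic polynomial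
among the monic quadratic relations. -/
theorem eq_trace_det_of_not_scalar (hE : finrank k E = 2) (M : End k E)
    (hM : ∀ μ : k, M ≠ μ • (1 : End k E)) (t d : k)
    (h : M * M - t • M + d • (1 : End k E) = 0) :
    t = LinearMap.trace k E M ∧ d = LinearMap.det M := by
  have hch := end_sq hE M
  have : Nontrivial E := Module.nontrivial_of_finrank_pos (R := k) (by omega)
  have hsub : (t - LinearMap.trace k E M) • M = (d - LinearMap.det M) • (1 : End k E) := by
    have e : (t - LinearMap.trace k E M) • M - (d - LinearMap.det M) • (1 : End k E)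
        = (M * M - LinearMap.trace k E M • M + LinearMap.det M • (1 : End k E))
          - (M * M - t • M + d • (1 : End k E)) := by
      rw [sub_smul, sub_smul]
      abel
    rw [hch, h, sub_zero] at e
    exact sub_eq_zero.mp e
  have ht : t = LinearMap.trace k E M := by
    by_contra hne
    have hne' : t - LinearMap.trace k E M ≠ 0 := sub_ne_zero.mpr hne
    apply hM ((t - LinearMap.trace k E M)⁻¹ * (d - LinearMap.det M))
    have h1 := congrArg (fun X : End k E => (t - LinearMap.trace k E M)⁻¹ • X) hsub
    simp only [smul_smul, inv_mul_cancel₀ hne', one_smul] at h1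
    exact h1
  refine ⟨ht, ?_⟩
  rw [ht, sub_self, zero_smul] at hsub
  exact sub_eq_zero.mp (eq_zero_of_smul_one_eq_zero hsub.symm)

variable {V : Type*} [AddCommGroup V] [Module k V]

/-- The Cayley–Hamilton defect of a pair of endomorphisms. -/
noncomputable def Qf (M : End k E) (X : End k V) : End k V :=
  X * X - LinearMap.trace k E M • X + LinearMap.det M • (1 : End k V)

/-- The polar form of `Qf`. -/
noncomputable def Pf (M : End k E) (X : End k V) (N : End k E) (Y : End k V) : End k V :=
  X * Y + Y * X - LinearMap.trace k E M • Y - LinearMap.trace k E N • X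
    + (LinearMap.trace k E M * LinearMap.trace k E N - LinearMap.trace k E (M * N)) •
      (1 : End k V)

/-- From one common quadratic relation with constant term a character to the relation with the
trace and determinant of `E`; also `det = d`. -/
theorem rel_all (hE : finrank k E = 2) (ρE : G →* End k E)
    (hirr : ∀ L : Submodule k E, (∀ g, ∀ x ∈ L, ρE g x ∈ L) → L = ⊥ ∨ L = ⊤)
    (ρV : G →* End k V) (d : G →* k)
    (hrel : ∀ g, ∃ t : k, ρE g * ρE g - t • ρE g + d g • (1 : End k E) = 0 ∧
      ρV g * ρV g - t • ρV g + d g • (1 : End k V) = 0) (g : G) :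
    LinearMap.det (ρE g) = d g ∧ Qf (ρE g) (ρV g) = 0 := by
  have hfd : FiniteDimensional k E := Module.finite_of_finrank_eq_succ hE
  have hnt : Nontrivial E := Module.nontrivial_of_finrank_pos (R := k) (by omega)
  have hd0 : ∀ g, d g ≠ 0 := by
    intro g h0
    have h1 : d g * d g⁻¹ = 1 := by rw [← map_mul, mul_inv_cancel, map_one]
    rw [h0, zero_mul] at h1
    exact zero_ne_one h1
  obtain ⟨h, hh⟩ := exists_not_scalar hE ρE hirr
  have hdh : d h = LinearMap.det (ρE h) := by
    obtain ⟨t, ht, -⟩ := hrel h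
    exact (eq_trace_det_of_not_scalar hE _ hh t _ ht).2
  -- scalars are nonzero
  have hlam : ∀ g (l : k), ρE g = l • (1 : End k E) → l ≠ 0 := by
    intro g l hl h0
    have h1 : ρE g * ρE g⁻¹ = 1 := by rw [← map_mul, mul_inv_cancel, map_one]
    rw [hl, h0, zero_smul, zero_mul] at h1
    exact zero_ne_one h1
  have hdetscal : ∀ l : k, LinearMap.det (l • (1 : End k E)) = l ^ 2 := by
    intro l
    rw [LinearMap.det_smul, hE, map_one, mul_one]
  have hdet : ∀ g, LinearMap.det (ρE g) = d g := by
    intro g
    by_cases hs : ∃ l : k, ρE g = l • (1 : End k E)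
    · obtain ⟨l, hl⟩ := hs
      have hl0 := hlam g l hl
      have hgh : ρE (g * h) = l • ρE h := by
        rw [map_mul, hl, smul_mul_assoc, one_mul]
      have hns : ∀ μ : k, ρE (g * h) ≠ μ • (1 : End k E) := by
        intro μ hμ
        apply hh (l⁻¹ * μ)
        rw [hgh] at hμ
        have h1 := congrArg (fun X : End k E => l⁻¹ • X) hμ
        simp only [smul_smul, inv_mul_cancel₀ hl0, one_smul] at h1
        exact h1
      obtain ⟨t, ht, -⟩ := hrel (g * h)
      have h1 := (eq_trace_det_of_not_scalar hE _ hns t _ ht).2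
      rw [hgh, LinearMap.det_smul, hE, map_mul, ← hdh] at h1
      have h2 : d g = l ^ 2 := mul_right_cancel₀ (hd0 h) h1
      rw [hl, hdetscal, h2]
    · have hns : ∀ μ : k, ρE g ≠ μ • (1 : End k E) := fun μ hμ => hs ⟨μ, hμ⟩
      obtain ⟨t, ht, -⟩ := hrel g
      exact ((eq_trace_det_of_not_scalar hE _ hns t _ ht).2).symm
  refine ⟨hdet g, ?_⟩
  obtain ⟨t, htE, htV⟩ := hrel g
  have htr : t = LinearMap.trace k E (ρE g) := by
    by_cases hs : ∃ l : k, ρE g = l • (1 : End k E)
    · obtain ⟨l, hl⟩ := hs
      have hl0 := hlam g l hl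
      have hdg : d g = l ^ 2 := by rw [← hdet g, hl, hdetscal]
      have h1 : (l * l - t * l + l ^ 2) • (1 : End k E) = 0 := by
        rw [hl, hdg] at htE
        rw [← htE, smul_mul_smul_comm, one_mul, smul_smul, add_smul, sub_smul]
      have h2 := eq_zero_of_smul_one_eq_zero h1
      have h3 : l * (2 * l - t) = 0 := by
        rw [← h2]
        ring
      have h4 : 2 * l - t = 0 := (mul_eq_zero.mp h3).resolve_left hl0
      rw [hl, map_smul, LinearMap.trace_one, hE, smul_eq_mul]
      have h5 : t = 2 * l := (sub_eq_zero.mp h4).symm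
      rw [h5]
      push_cast
      ring
    · have hns : ∀ μ : k, ρE g ≠ μ • (1 : End k E) := fun μ hμ => hs ⟨μ, hμ⟩
      exact (eq_trace_det_of_not_scalar hE _ hns t _ htE).1
  unfold Qf
  rw [← htr, hdet g]
  exact htV

end Rel


/-! ### Polarisation: the Cayley–Hamilton identity on the whole group algebra -/

section CH

variable {k : Type*} [Field k] {E : Type*} [AddCommGroup E] [Module k E]
  {V : Type*} [AddCommGroup V] [Module k V]

theorem Qf_add (hE : finrank k E = 2) (M N : End k E) (X Y : End k V) :
    Qf (M + N) (X + Y) = Qf M X + Qf N Y + Pf M X N Y := by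
  unfold Qf Pf
  rw [end_det_add hE, map_add]
  simp only [add_mul, mul_add, add_smul, sub_smul, smul_add]
  abel

theorem Qf_smul (hE : finrank k E = 2) (a : k) (M : End k E) (X : End k V) :
    Qf (a • M) (a • X) = (a ^ 2) • Qf M X := by
  have : FiniteDimensional k E := Module.finite_of_finrank_eq_succ hE
  unfold Qf
  rw [LinearMap.det_smul, hE, map_smul, smul_mul_smul_comm, smul_add, smul_sub, smul_smul,
    smul_smul, smul_smul, smul_eq_mul, pow_two]
  congr 3
  ring

theorem Pf_add_left (M M' N : End k E) (X X' Y : End k V) :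
    Pf (M + M') (X + X') N Y = Pf M X N Y + Pf M' X' N Y := by
  unfold Pf
  simp only [map_add, add_mul, mul_add, add_smul, sub_smul, smul_add]
  abel

theorem Pf_smul_left (a : k) (M N : End k E) (X Y : End k V) :
    Pf (a • M) (a • X) N Y = a • Pf M X N Y := by
  unfold Pf
  simp only [map_smul, smul_mul_assoc, mul_smul_comm, smul_eq_mul]
  module

theorem Pf_comm (M N : End k E) (X Y : End k V) : Pf M X N Y = Pf N Y M X := by
  unfold Pf
  rw [LinearMap.trace_mul_comm k M N, mul_comm (LinearMap.trace k E M)]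
  abel

variable {G : Type*} [Group G]

/-- The polar form vanishes on pairs of group elements. -/
theorem Pf_group (ρE : G →* End k E) (ρV : G →* End k V)
    (hA : ∀ g, Qf (ρE g) (ρV g) = 0) (g h : G) :
    Pf (ρE g) (ρV g) (ρE h) (ρV h) = 0 := by
  have key : ∀ x : G, LinearMap.det (ρE x) • ρV x⁻¹
      = LinearMap.trace k E (ρE x) • (1 : End k V) - ρV x := by
    intro x
    have h1 := hA x
    unfold Qf at h1
    have h2 : ρV x * ρV x⁻¹ = 1 := by rw [← map_mul, mul_inv_cancel, map_one]
    have h3 := congrArg (fun Z : End k V => Z * ρV x⁻¹) h1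
    simp only [add_mul, sub_mul, smul_mul_assoc, mul_assoc, h2, mul_one, one_mul, zero_mul] at h3
    rw [← sub_eq_zero, ← h3]
    abel
  have k1 := key g
  have k2 := key h
  have k3 := key (h * g)
  have e1 : (LinearMap.det (ρE g) • ρV g⁻¹) * (LinearMap.det (ρE h) • ρV h⁻¹)
      = LinearMap.det (ρE (h * g)) • ρV (h * g)⁻¹ := by
    rw [smul_mul_smul_comm, mul_inv_rev, map_mul ρV, map_mul ρE, map_mul,
      mul_comm (LinearMap.det (ρE g))]
  rw [k1, k2, k3, map_mul ρV, map_mul ρE] at e1
  unfold Pf
  rw [LinearMap.trace_mul_comm k (ρE g) (ρE h)]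
  have e2 : (LinearMap.trace k E (ρE g) • (1 : End k V) - ρV g)
      * (LinearMap.trace k E (ρE h) • (1 : End k V) - ρV h)
      = (LinearMap.trace k E (ρE g) * LinearMap.trace k E (ρE h)) • (1 : End k V)
        - LinearMap.trace k E (ρE g) • ρV h - LinearMap.trace k E (ρE h) • ρV g
        + ρV g * ρV h := by
    simp only [sub_mul, mul_sub, smul_mul_assoc, mul_smul_comm, one_mul, mul_one, smul_smul,
      smul_sub]
    rw [mul_comm (LinearMap.trace k E (ρE h))]
    abel
  rw [e2] at e1
  rw [sub_smul, ← sub_eq_zero.mpr e1]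
  abel

theorem Pf_lift (ρE : G →* End k E) (ρV : G →* End k V)
    (hA : ∀ g, Qf (ρE g) (ρV g) = 0) (x y : MonoidAlgebra k G) :
    Pf (MonoidAlgebra.lift k (End k E) G ρE x) (MonoidAlgebra.lift k (End k V) G ρV x)
      (MonoidAlgebra.lift k (End k E) G ρE y) (MonoidAlgebra.lift k (End k V) G ρV y) = 0 := by
  induction x using MonoidAlgebra.induction_on with
  | of g =>
    induction y using MonoidAlgebra.induction_on with
    | of h =>
      rw [MonoidAlgebra.lift_of, MonoidAlgebra.lift_of, MonoidAlgebra.lift_of,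
        MonoidAlgebra.lift_of]
      exact Pf_group ρE ρV hA g h
    | add y y' hy hy' =>
      rw [map_add, map_add, Pf_comm, Pf_add_left, Pf_comm, hy, Pf_comm, hy', add_zero]
    | smul r y hy =>
      rw [map_smul, map_smul, Pf_comm, Pf_smul_left, Pf_comm, hy, smul_zero]
  | add x x' hx hx' =>
    rw [map_add, map_add, Pf_add_left, hx, hx', add_zero]
  | smul r x hx =>
    rw [map_smul, map_smul, Pf_smul_left, hx, smul_zero]

theorem Qf_lift (hE : finrank k E = 2) (ρE : G →* End k E) (ρV : G →* End k V)
    (hA : ∀ g, Qf (ρE g) (ρV g) = 0) (x : MonoidAlgebra k G) :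
    Qf (MonoidAlgebra.lift k (End k E) G ρE x) (MonoidAlgebra.lift k (End k V) G ρV x) = 0 := by
  induction x using MonoidAlgebra.induction_on with
  | of g =>
    rw [MonoidAlgebra.lift_of, MonoidAlgebra.lift_of]
    exact hA g
  | add x y hx hy =>
    rw [map_add, map_add, Qf_add hE, hx, hy, Pf_lift ρE ρV hA, add_zero, add_zero]
  | smul r x hx =>
    rw [map_smul, map_smul, Qf_smul hE, hx, smul_zero]

end CH


/-! ### The embedding -/

section Main

variable {k : Type*} [Field k] {G : Type*} [Group G]
  {E : Type*} [AddCommGroup E] [Module k E]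
  {V : Type*} [AddCommGroup V] [Module k V]

/-- **(W3), core.**  `E` two-dimensional and irreducible, `c` an involution on `E` with
`d c = -1`, `V ≠ 0`, and every `g` satisfies one common relation `X ^ 2 - t X + d g = 0` on `E`
and on `V`: then `E` embeds `G`-equivariantly in `V`. -/
theorem exists_embedding (h2 : (2 : k) ≠ 0) (hE : finrank k E = 2) (ρE : G →* End k E)
    (hirr : ∀ L : Submodule k E, (∀ g, ∀ x ∈ L, ρE g x ∈ L) → L = ⊥ ∨ L = ⊤)
    [Nontrivial V] (ρV : G →* End k V) (d : G →* k) (c : G) (hc : ρE c * ρE c = 1)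
    (hdc : d c = -1)
    (hrel : ∀ g, ∃ t : k, ρE g * ρE g - t • ρE g + d g • (1 : End k E) = 0 ∧
      ρV g * ρV g - t • ρV g + d g • (1 : End k V) = 0) :
    ∃ φ : E →ₗ[k] V, Function.Injective φ ∧ ∀ g x, φ (ρE g x) = ρV g (φ x) := by
  have hfd : FiniteDimensional k E := Module.finite_of_finrank_eq_succ hE
  have hnt : Nontrivial E := Module.nontrivial_of_finrank_pos (R := k) (by omega)
  have hA : ∀ g, Qf (ρE g) (ρV g) = 0 := fun g => (rel_all hE ρE hirr ρV d hrel g).2
  have hdet : ∀ g, LinearMap.det (ρE g) = d g := fun g => (rel_all hE ρE hirr ρV d hrel g).1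
  set aE : MonoidAlgebra k G →ₐ[k] End k E := MonoidAlgebra.lift k (End k E) G ρE with haE
  set aV : MonoidAlgebra k G →ₐ[k] End k V := MonoidAlgebra.lift k (End k V) G ρV with haV
  have hQ : ∀ x, Qf (aE x) (aV x) = 0 := Qf_lift hE ρE ρV hA
  have hP : ∀ x y, Pf (aE x) (aV x) (aE y) (aV y) = 0 := Pf_lift ρE ρV hA
  have hofE : ∀ g, aE (MonoidAlgebra.of k G g) = ρE g := fun g => MonoidAlgebra.lift_of ρE g
  have hofV : ∀ g, aV (MonoidAlgebra.of k G g) = ρV g := fun g => MonoidAlgebra.lift_of ρV g
  -- the kernel of `aE` acts on `V` by elements of square zero that anticommute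
  have hsq : ∀ x, aE x = 0 → aV x * aV x = 0 := by
    intro x hx
    have h1 := hQ x
    rw [hx] at h1
    unfold Qf at h1
    rw [map_zero, zero_smul, sub_zero, LinearMap.det_zero, hE] at h1
    simpa using h1
  have hanti : ∀ x y, aE x = 0 → aE y = 0 → aV x * aV y + aV y * aV x = 0 := by
    intro x y hx hy
    have h1 := hP x y
    rw [hx, hy] at h1
    unfold Pf at h1
    simpa using h1
  have htriple : ∀ x y z, aE x = 0 → aE y = 0 → aE z = 0 → aV x * aV y * aV z = 0 := by
    intro x y z hx hy hz
    have hxy : aE (x * y) = 0 := by rw [map_mul, hx, zero_mul]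
    have h1 := hanti (x * y) z hxy hz
    rw [map_mul] at h1
    have h2' := hanti z x hz hx
    have h3 := hanti z y hz hy
    have e1 : aV z * aV x = -(aV x * aV z) := eq_neg_of_add_eq_zero_left h2'
    have e2 : aV z * aV y = -(aV y * aV z) := eq_neg_of_add_eq_zero_left h3
    have e3 : aV x * aV y * aV z = -(aV z * (aV x * aV y)) := eq_neg_of_add_eq_zero_left h1
    have e4 : aV x * aV y * aV z = -(aV x * aV y * aV z) := by
      calc aV x * aV y * aV z = -(aV z * (aV x * aV y)) := e3
        _ = -(aV z * aV x * aV y) := by rw [mul_assoc]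
        _ = aV x * aV z * aV y := by rw [e1, neg_mul, neg_neg]
        _ = aV x * (aV z * aV y) := by rw [mul_assoc]
        _ = -(aV x * aV y * aV z) := by rw [e2, mul_neg, mul_assoc]
    have e5 : (2 : k) • (aV x * aV y * aV z) = 0 := by
      rw [two_smul]
      nth_rewrite 1 [e4]
      exact neg_add_cancel _
    exact (smul_eq_zero.mp e5).resolve_left h2
  -- a nonzero vector killed by the kernel of `aE`
  obtain ⟨w, hw0, hw⟩ : ∃ w : V, w ≠ 0 ∧ ∀ x, aE x = 0 → aV x w = 0 := by
    obtain ⟨v, hv⟩ := exists_ne (0 : V)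
    by_cases h1 : ∀ x, aE x = 0 → aV x v = 0
    · exact ⟨v, hv, h1⟩
    · obtain ⟨x, hx⟩ := not_forall.mp h1
      obtain ⟨hx0, hxv⟩ := Classical.not_imp.mp hx
      by_cases h3 : ∀ y, aE y = 0 → aV y (aV x v) = 0
      · exact ⟨aV x v, hxv, h3⟩
      · obtain ⟨y, hy⟩ := not_forall.mp h3
        obtain ⟨hy0, hyv⟩ := Classical.not_imp.mp hy
        refine ⟨aV y (aV x v), hyv, ?_⟩
        intro z hz
        have h4 := htriple z y x hz hy0 hx0
        have h5 := congrArg (fun f : End k V => f v) h4
        simpa [Module.End.mul_apply] using h5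
  -- `aE` is onto (Burnside, using the involution)
  have hdc' : LinearMap.det (ρE c) = -1 := by rw [hdet, hdc]
  have hne1 : (1 : k) ≠ -1 := by
    intro h
    apply h2
    have h1 : (1 : k) + 1 = 0 := by
      nth_rewrite 1 [h]
      exact neg_add_cancel 1
    rw [← one_add_one_eq_two]
    exact h1
  have hspan : Submodule.span k (Set.range ρE) = ⊤ := by
    have hC1 : ρE c ≠ 1 := by
      intro h
      rw [h, map_one] at hdc'
      exact hne1 hdc'
    have hCm1 : ρE c + 1 ≠ 0 := by
      intro h
      have hC : ρE c = (-1 : k) • (1 : End k E) := by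
        rw [neg_one_smul]
        exact eq_neg_of_add_eq_zero_left h
      rw [hC, LinearMap.det_smul, hE, map_one, mul_one, neg_one_sq] at hdc'
      exact hne1 hdc'
    obtain ⟨u, hu⟩ : ∃ u : E, (ρE c + 1) u ≠ 0 := by
      by_contra hcon
      apply hCm1
      ext u
      by_contra hu
      exact hcon ⟨u, hu⟩
    refine span_range_eq_top_of_singular hE ρE hirr (ρE c - 1)
      (Submodule.sub_mem _ (Submodule.subset_span ⟨c, rfl⟩)
        (Submodule.subset_span ⟨1, map_one ρE⟩))
      (sub_ne_zero.mpr hC1) ((ρE c + 1) u) hu ?_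
    have h1 : (ρE c - 1) * (ρE c + 1) = 0 := by
      rw [sub_mul, mul_add, mul_one, one_mul, hc]
      abel
    have h3 := congrArg (fun f : End k E => f u) h1
    simpa [Module.End.mul_apply] using h3
  have hsurj : ∀ f : End k E, ∃ x, aE x = f := by
    intro f
    have hf : f ∈ Submodule.span k (Set.range ρE) := hspan ▸ Submodule.mem_top
    induction hf using Submodule.span_induction with
    | mem f hf =>
      obtain ⟨g, rfl⟩ := hf
      exact ⟨MonoidAlgebra.of k G g, hofE g⟩
    | zero => exact ⟨0, map_zero _⟩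
    | add f f' _ _ hf hf' =>
      obtain ⟨x, rfl⟩ := hf
      obtain ⟨y, rfl⟩ := hf'
      exact ⟨x + y, map_add _ _ _⟩
    | smul a f _ hf =>
      obtain ⟨x, rfl⟩ := hf
      exact ⟨a • x, map_smul _ _ _⟩
  -- coordinate projections
  let b : Basis (Fin 2) k E := Module.finBasisOfFinrankEq k E hE
  let e : Fin 2 → End k E := fun i => (b.coord i).smulRight (b i)
  have he : ∀ i (v : E), e i v = b.repr v i • b i := fun i v => rfl
  have hsum : e 0 + e 1 = 1 := by
    apply LinearMap.ext
    intro v
    rw [LinearMap.add_apply, he, he, Module.End.one_apply]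
    have h1 := b.sum_repr v
    rw [Fin.sum_univ_two] at h1
    exact h1
  choose xi hxi using fun i => hsurj (e i)
  have hwsum : aV (xi 0) w + aV (xi 1) w = w := by
    have h0 : aE (xi 0 + xi 1 - 1) = 0 := by
      rw [map_sub, map_add, hxi, hxi, hsum, map_one, sub_self]
    have h1 := hw _ h0
    rw [map_sub, map_add, map_one, LinearMap.sub_apply, LinearMap.add_apply,
      Module.End.one_apply] at h1
    exact sub_eq_zero.mp h1
  obtain ⟨i, hi⟩ : ∃ i, aV (xi i) w ≠ 0 := by
    by_contra hcon
    apply hw0
    rw [← hwsum]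
    have h0 : aV (xi 0) w = 0 := by
      by_contra h
      exact hcon ⟨0, h⟩
    have h1 : aV (xi 1) w = 0 := by
      by_contra h
      exact hcon ⟨1, h⟩
    rw [h0, h1, add_zero]
  -- the two evaluation maps on the group algebra
  let π : MonoidAlgebra k G →ₗ[k] E := (LinearMap.applyₗ (b i)).comp aE.toLinearMap
  let Φ : MonoidAlgebra k G →ₗ[k] V := (LinearMap.applyₗ (aV (xi i) w)).comp aV.toLinearMap
  have hπ : ∀ x, π x = aE x (b i) := fun x => rfl
  have hΦ : ∀ x, Φ x = aV x (aV (xi i) w) := fun x => rfl
  have hker : ∀ x, π x = 0 → Φ x = 0 := by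
    intro x hx
    rw [hΦ, ← Module.End.mul_apply, ← map_mul]
    apply hw
    rw [map_mul, hxi]
    apply LinearMap.ext
    intro v
    rw [Module.End.mul_apply, he, map_smul, ← hπ, hx, smul_zero, LinearMap.zero_apply]
  have hπsurj : Function.Surjective π := by
    intro u
    obtain ⟨x, hx⟩ := hsurj ((b.coord i).smulRight u)
    refine ⟨x, ?_⟩
    rw [hπ, hx]
    show b.repr (b i) i • u = u
    rw [b.repr_self, Finsupp.single_eq_same, one_smul]
  obtain ⟨s, hs⟩ := π.exists_rightInverse_of_surjective (LinearMap.range_eq_top.mpr hπsurj)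
  have hs' : ∀ u, π (s u) = u := fun u => LinearMap.congr_fun hs u
  let φ : E →ₗ[k] V := Φ.comp s
  have hφ : ∀ x, φ (π x) = Φ x := by
    intro x
    show Φ (s (π x)) = Φ x
    have h1 : Φ (s (π x) - x) = 0 := hker _ (by rw [map_sub, hs', sub_self])
    rw [map_sub] at h1
    exact sub_eq_zero.mp h1
  have hequiv : ∀ g u, φ (ρE g u) = ρV g (φ u) := by
    intro g u
    obtain ⟨x, rfl⟩ := hπsurj u
    have h1 : ρE g (π x) = π (MonoidAlgebra.of k G g * x) := by
      rw [hπ, hπ, map_mul, hofE, Module.End.mul_apply]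
    rw [h1, hφ, hφ, hΦ, hΦ, map_mul, hofV, Module.End.mul_apply]
  have hφne : φ (b i) ≠ 0 := by
    have h1 : b i = π 1 := by rw [hπ, map_one, Module.End.one_apply]
    rw [h1, hφ, hΦ, map_one, Module.End.one_apply]
    exact hi
  refine ⟨φ, ?_, hequiv⟩
  have hK : LinearMap.ker φ = ⊥ ∨ LinearMap.ker φ = ⊤ := hirr _ (by
    intro g x hx
    rw [LinearMap.mem_ker] at hx ⊢
    rw [hequiv, hx, map_zero])
  rcases hK with h | h
  · exact LinearMap.ker_eq_bot.mp h
  · exfalso
    apply hφne
    have h1 : b i ∈ LinearMap.ker φ := h ▸ Submodule.mem_top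
    exact LinearMap.mem_ker.mp h1

end Main

end Fermat.Agent.S44.W.Embed
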