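import Mathlib
import Fermat.Agent.S44.W.Embed

/-!
# (W3) of Program MR (S44): the Boston–Lenstra–Ribet step in the vocabulary of `W/Bricks.lean`

`alg` is, verbatim, the body of `Fermat.Agent.S44.W.AlgStatement` (strand W, brick (W3)):
`E` an irreducible `ZMod p[G]`-module with `p ^ 2` elements, `X ≠ 0`, `d` multiplicative with
`d c₀ = -1` for an involution `c₀`; if every `g` satisfies `g² - t g + d g = 0` on `E` and on `X`
with the same `t`, then `E` embeds `G`-equivariantly into `X`.

This file imports Mathlib and `W/Embed.lean` only, so it can be used without the closure of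
`W/Bricks.lean`; `AlgStatement` itself is `fun p _ hp2 G E X => alg p hp2 G E X`.
-/

set_option autoImplicit false

namespace Fermat.Agent.S44.W.Alg

open Module

/-- The endomorphism of a `ZMod p`-module given by an element of an acting group. -/
noncomputable def toEnd (p : ℕ) (G M : Type*) [Group G] [AddCommGroup M] [Module (ZMod p) M]
    [DistribMulAction G M] : G →* End (ZMod p) M where
  toFun g := (DistribSMul.toAddMonoidHom M g).toZModLinearMap p
  map_one' := by
    apply LinearMap.ext
    intro x
    show (1 : G) • x = x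
    exact one_smul G x
  map_mul' g h := by
    apply LinearMap.ext
    intro x
    show (g * h) • x = g • h • x
    exact mul_smul g h x

theorem toEnd_apply (p : ℕ) (G M : Type*) [Group G] [AddCommGroup M] [Module (ZMod p) M]
    [DistribMulAction G M] (g : G) (x : M) : toEnd p G M g x = g • x := rfl

/-- **(W3)**, verbatim the body of `W.AlgStatement`. -/
theorem alg (p : ℕ) [Fact p.Prime] (hp2 : p ≠ 2)
    (G E X : Type) [Group G] [AddCommGroup E] [AddCommGroup X] [Module (ZMod p) E]
    [Module (ZMod p) X] [Finite X] [DistribMulAction G E] [DistribMulAction G X]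
    (d : G → ZMod p) (c₀ : G)
    (hcard : Nat.card E = p ^ 2) (hX : Nontrivial X)
    (hirr : ∀ S : AddSubgroup E, (∀ (g : G), ∀ x ∈ S, g • x ∈ S) → S = ⊥ ∨ S = ⊤)
    (hd : ∀ g h : G, d (g * h) = d g * d h) (hc : c₀ * c₀ = 1) (hdc : d c₀ = -1)
    (hrel : ∀ g : G, ∃ t : ZMod p, (∀ e : E, g • g • e - t • g • e + d g • e = 0) ∧
      (∀ x : X, g • g • x - t • g • x + d g • x = 0)) :
    ∃ φ : E →+ X, Function.Injective φ ∧ ∀ (g : G) (e : E), φ (g • e) = g • φ e := by
  have hp : p.Prime := Fact.out
  -- `2 ≠ 0` in `ZMod p`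
  have h2 : (2 : ZMod p) ≠ 0 := by
    intro h
    have h1 : ((2 : ℕ) : ZMod p) = 0 := by exact_mod_cast h
    rw [ZMod.natCast_eq_zero_iff] at h1
    exact hp2 ((Nat.prime_dvd_prime_iff_eq hp Nat.prime_two).mp h1)
  -- `E` is two-dimensional
  have hEfin : Finite E := Nat.finite_of_card_ne_zero (by
    rw [hcard]
    exact pow_ne_zero 2 hp.ne_zero)
  have hE : finrank (ZMod p) E = 2 := by
    have h1 := Module.natCard_eq_pow_finrank (K := ZMod p) (V := E)
    rw [hcard, Nat.card_zmod] at h1
    exact (Nat.pow_right_injective hp.two_le h1).symm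
  -- `d` is a monoid homomorphism
  have hd1 : d 1 = 1 := by
    have h1 : d c₀ = d c₀ * d 1 := by rw [← hd, mul_one]
    rw [hdc] at h1
    have h3 : (-1 : ZMod p) * d 1 = (-1 : ZMod p) * 1 := by rw [mul_one]; exact h1.symm
    exact mul_left_cancel₀ (neg_ne_zero.mpr one_ne_zero) h3
  let d' : G →* ZMod p := { toFun := d, map_one' := hd1, map_mul' := hd }
  -- irreducibility for submodules
  have hirr' : ∀ L : Submodule (ZMod p) E, (∀ g, ∀ x ∈ L, toEnd p G E g x ∈ L) →
      L = ⊥ ∨ L = ⊤ := by
    intro L hL
    rcases hirr L.toAddSubgroup (fun g x hx => hL g x hx) with h | h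
    · left
      rw [eq_bot_iff]
      intro x hx
      have h1 : x ∈ L.toAddSubgroup := hx
      rw [h] at h1
      exact h1
    · right
      rw [eq_top_iff]
      intro x _
      have h1 : x ∈ L.toAddSubgroup := by
        rw [h]
        exact AddSubgroup.mem_top x
      exact h1
  have hcE : toEnd p G E c₀ * toEnd p G E c₀ = 1 := by
    rw [← map_mul, hc, map_one]
  have hrel' : ∀ g, ∃ t : ZMod p,
      toEnd p G E g * toEnd p G E g - t • toEnd p G E g + d' g • (1 : End (ZMod p) E) = 0 ∧
      toEnd p G X g * toEnd p G X g - t • toEnd p G X g + d' g • (1 : End (ZMod p) X) = 0 := by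
    intro g
    obtain ⟨t, h1, h3⟩ := hrel g
    refine ⟨t, ?_, ?_⟩
    · apply LinearMap.ext
      intro e
      exact h1 e
    · apply LinearMap.ext
      intro x
      exact h3 x
  obtain ⟨φ, hφ, hequiv⟩ := Embed.exists_embedding h2 hE (toEnd p G E) hirr' (toEnd p G X) d' c₀
    hcE hdc hrel'
  exact ⟨φ.toAddMonoidHom, hφ, fun g e => hequiv g e⟩

end Fermat.Agent.S44.W.Alg
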