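import Mathlib
import Fermat.Agent.S44.W.Bricks
import Fermat.Agent.S44.W.NewEmb
import Fermat.Agent.S41.NonEis.Roots
import Fermat.Agent.Lib.TorsionCard
import Fermat.Prelude.Def_GaloisRep_ComplexConjugation

/-!
# PROGRAM MR (S44), strand W, row MR.W.E: the Betti-level embedding from its inputs (helper84)

`embStatement_of : RelStatement → LiftStatement → AlgStatement → EmbStatement`.

* `galChar N m σ c` : the Galois action on Kummer characters of exponent `m` (the character of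
  `galF σ f` for any `f` with character `c`), with `galChar_spec / _add / _one / _mul`,
  `isEigen_galChar` (Hecke commutes with Galois);
* `classes W N p` : the additive group of liftable eigen-classes;
* the glue: `E[p] = Submodule.torsionBy` with the Prelude action, `Lib.TorsionCard.frey_card`,
  the cyclotomic character `IsPrimitiveRoot.autToPow`, Prelude `complexConjugation`.
-/

set_option autoImplicit false

noncomputable section

open WeierstrassCurve WeierstrassCurve.Affine WeierstrassCurve.Affine.Point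
open ModularCurve AlgebraicCurve

namespace Fermat.Agent.S44.W.Emb

open Fermat.Agent.S30 Fermat.Agent.S30.Producer Fermat.Agent.S44.Contract Fermat.Agent.S44.W

local notation "GQb" => (AlgebraicClosure ℚ ≃ₐ[ℚ] AlgebraicClosure ℚ)

/-! ### The Galois action on Kummer characters -/

section Act

variable (N m : ℕ) [NeZero N] [NeZero m]

theorem exists_galChar (σ : GQb) (c : AN N →+ ZMod m) :
    ∃ d : AN N →+ ZMod m, ∀ f : FN N, KRel N m f c → KRel N m (galF N σ f) d := by
  obtain ⟨f₀, hf₀⟩ := Glue.krel_ex (SurjXRoot.surj N) c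
  obtain ⟨d, hd⟩ := Glue.krel_gal (ParEllBrick.parEll N) σ hf₀
  refine ⟨d, fun f hf => ?_⟩
  obtain ⟨k, hk, rfl⟩ := NewEmb.krel_eq_mul_pow hf₀ hf
  rw [_root_.map_mul, _root_.map_pow]
  exact NewEmb.krel_mul_pow hd ((_root_.map_ne_zero_iff _ (galF N σ).injective).mpr hk)

/-- The Galois action on the Kummer characters of level `N` and exponent `m`. -/
def galChar (σ : GQb) (c : AN N →+ ZMod m) : AN N →+ ZMod m :=
  Classical.choose (exists_galChar N m σ c)

theorem galChar_spec (σ : GQb) {f : FN N} {c : AN N →+ ZMod m} (h : KRel N m f c) :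
    KRel N m (galF N σ f) (galChar N m σ c) :=
  Classical.choose_spec (exists_galChar N m σ c) f h

theorem galChar_eq (σ : GQb) {f : FN N} {c d : AN N →+ ZMod m} (h : KRel N m f c)
    (hd : KRel N m (galF N σ f) d) : galChar N m σ c = d :=
  Glue.krel_uniq (galChar_spec N m σ h) hd

theorem galChar_add (σ : GQb) (c d : AN N →+ ZMod m) :
    galChar N m σ (c + d) = galChar N m σ c + galChar N m σ d := by
  obtain ⟨f, hf⟩ := Glue.krel_ex (SurjXRoot.surj N) c
  obtain ⟨g, hg⟩ := Glue.krel_ex (SurjXRoot.surj N) d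
  refine galChar_eq N m σ (Glue.krel_mul hf hg) ?_
  rw [_root_.map_mul]
  exact Glue.krel_mul (galChar_spec N m σ hf) (galChar_spec N m σ hg)

theorem galChar_one (c : AN N →+ ZMod m) : galChar N m 1 c = c := by
  obtain ⟨f, hf⟩ := Glue.krel_ex (SurjXRoot.surj N) c
  refine galChar_eq N m 1 hf ?_
  rwa [galF_one]

theorem galChar_mul (σ τ : GQb) (c : AN N →+ ZMod m) :
    galChar N m (σ * τ) c = galChar N m σ (galChar N m τ c) := by
  obtain ⟨f, hf⟩ := Glue.krel_ex (SurjXRoot.surj N) c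
  refine galChar_eq N m (σ * τ) hf ?_
  rw [galF_mul]
  exact galChar_spec N m σ (galChar_spec N m τ hf)

/-- `galChar σ` as an additive map. -/
def galCharHom (σ : GQb) : (AN N →+ ZMod m) →+ (AN N →+ ZMod m) :=
  AddMonoidHom.mk' (galChar N m σ) (galChar_add N m σ)

theorem galCharHom_apply (σ : GQb) (c : AN N →+ ZMod m) :
    galCharHom N m σ c = galChar N m σ c := rfl

/-- The Hecke correspondences commute with the Galois action: eigen-classes are stable. -/
theorem isEigen_galChar {W : WeierstrassCurve ℤ} (σ : GQb) {c : AN N →+ ZMod m}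
    (hc : IsEigen W N m c) : IsEigen W N m (galChar N m σ c) := by
  intro ℓ hℓ hℓN hℓp hgood
  obtain ⟨f, hf⟩ := Glue.krel_ex (SurjXRoot.surj N) c
  have h1 : KRel N m (E4.heckeFb N ℓ f) (W.apOfModel ℓ • c) := by
    rw [← hc ℓ hℓ hℓN hℓp hgood]
    exact Glue.krel_hecke (BettiABricks.tHomParEll N) hℓ hℓN
      (TransferTrivialProof.heckeDiv N ℓ) hf
  have h2 := galChar_spec N m σ h1
  have h3 := Glue.krel_hecke (BettiABricks.tHomParEll N) hℓ hℓN
    (TransferTrivialProof.heckeDiv N ℓ) (galChar_spec N m σ hf)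
  rw [E4.heckeFb_galF N hℓ hℓN σ f] at h3
  rw [Glue.krel_uniq h3 h2, ← galCharHom_apply, ← galCharHom_apply, _root_.map_zsmul]

theorem finite_hom : Finite (AN N →+ ZMod m) := by
  obtain ⟨S, hS⟩ := fg_AN N
  have hS' : AddSubgroup.closure (S : Set (AN N)) = ⊤ := hS
  refine Finite.of_injective (fun (c : AN N →+ ZMod m) (s : S) => c s) ?_
  intro c d hcd
  refine AddMonoidHom.eq_of_eqOn_dense hS' ?_
  intro x hx
  exact congrFun hcd ⟨x, hx⟩

end Act

/-! ### The group of liftable eigen-classes -/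

theorem isLift_zero (N p : ℕ) : IsLift N p 0 := ⟨0, AddMonoidHom.comp_zero _⟩

theorem isLift_add {N p : ℕ} {c d : AN N →+ ZMod p} (hc : IsLift N p c) (hd : IsLift N p d) :
    IsLift N p (c + d) := by
  obtain ⟨c', rfl⟩ := hc
  obtain ⟨d', rfl⟩ := hd
  exact ⟨c' + d', AddMonoidHom.comp_add _ _ _⟩

theorem isLift_neg {N p : ℕ} {c : AN N →+ ZMod p} (hc : IsLift N p c) : IsLift N p (-c) := by
  obtain ⟨c', rfl⟩ := hc
  refine ⟨-c', AddMonoidHom.ext fun x => ?_⟩
  simp

theorem isEigen_zero (W : WeierstrassCurve ℤ) (N p : ℕ) : IsEigen W N p 0 :=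
  fun ℓ _ _ _ _ => by rw [AddMonoidHom.zero_comp, smul_zero]

theorem isEigen_add {W : WeierstrassCurve ℤ} {N p : ℕ} {c d : AN N →+ ZMod p}
    (hc : IsEigen W N p c) (hd : IsEigen W N p d) : IsEigen W N p (c + d) :=
  fun ℓ hℓ hℓN hℓp hgood => by
    rw [AddMonoidHom.add_comp, hc ℓ hℓ hℓN hℓp hgood, hd ℓ hℓ hℓN hℓp hgood, smul_add]

theorem isEigen_neg {W : WeierstrassCurve ℤ} {N p : ℕ} {c : AN N →+ ZMod p}
    (hc : IsEigen W N p c) : IsEigen W N p (-c) :=
  fun ℓ hℓ hℓN hℓp hgood => by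
    rw [AddMonoidHom.neg_comp, hc ℓ hℓ hℓN hℓp hgood, smul_neg]

theorem isLift_nsmul {N p : ℕ} {c : AN N →+ ZMod p} (hc : IsLift N p c) (n : ℕ) :
    IsLift N p (n • c) := by
  induction n with
  | zero => rw [zero_smul]; exact isLift_zero N p
  | succ n ih => rw [succ_nsmul]; exact isLift_add ih hc

theorem isEigen_nsmul {W : WeierstrassCurve ℤ} {N p : ℕ} {c : AN N →+ ZMod p}
    (hc : IsEigen W N p c) (n : ℕ) : IsEigen W N p (n • c) := by
  induction n with
  | zero => rw [zero_smul]; exact isEigen_zero W N p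
  | succ n ih => rw [succ_nsmul]; exact isEigen_add ih hc

/-- The liftable eigen-classes of level `N` modulo `p`. -/
def classes (W : WeierstrassCurve ℤ) (N p : ℕ) [NeZero p] :
    Submodule (ZMod p) (AN N →+ ZMod p) where
  carrier := {c | IsLift N p c ∧ IsEigen W N p c}
  zero_mem' := ⟨isLift_zero N p, isEigen_zero W N p⟩
  add_mem' := fun hc hd => ⟨isLift_add hc.1 hd.1, isEigen_add hc.2 hd.2⟩
  smul_mem' := fun a c hc => by
    rw [← ZMod.natCast_zmod_val a, Nat.cast_smul_eq_nsmul]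
    exact ⟨isLift_nsmul hc.1 _, isEigen_nsmul hc.2 _⟩

theorem mem_classes {W : WeierstrassCurve ℤ} {N p : ℕ} [NeZero p] {c : AN N →+ ZMod p} :
    c ∈ classes W N p ↔ IsLift N p c ∧ IsEigen W N p c := Iff.rfl

/-- The Galois action on the liftable eigen-classes. -/
@[reducible] def classAct (hLift : LiftStatement) (W : WeierstrassCurve ℤ) (N p : ℕ) [NeZero N]
    [NeZero p] (hp : p.Prime) : DistribMulAction GQb (classes W N p) where
  smul σ x := ⟨galChar N p σ x.1, by
    obtain ⟨f, hf⟩ := Glue.krel_ex (SurjXRoot.surj N) x.1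
    exact mem_classes.2 ⟨hLift N p hp σ f x.1 _ hf (galChar_spec N p σ hf) (mem_classes.1 x.2).1,
      isEigen_galChar N p σ (mem_classes.1 x.2).2⟩⟩
  one_smul x := Subtype.ext (galChar_one N p x.1)
  mul_smul σ τ x := Subtype.ext (galChar_mul N p σ τ x.1)
  smul_zero σ := Subtype.ext (by
    show galChar N p σ 0 = 0
    rw [← galCharHom_apply, _root_.map_zero])
  smul_add σ x y := Subtype.ext (galChar_add N p σ x.1 y.1)

/-! ### Roots of unity -/

theorem natCast_eq_of_pow_eq {p : ℕ} {η : Qb} (hη : IsPrimitiveRoot η p) (hp : 0 < p) {a b : ℕ}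
    (h : η ^ a = η ^ b) : (a : ZMod p) = (b : ZMod p) := by
  have hη0 : η ≠ 0 := hη.ne_zero hp.ne'
  have key : ∀ a b : ℕ, a ≤ b → η ^ a = η ^ b → (a : ZMod p) = (b : ZMod p) := by
    intro a b hab h
    have h1 : η ^ (b - a) = 1 := by
      have h2 : η ^ a * η ^ (b - a) = η ^ a * 1 := by
        rw [← pow_add, Nat.add_sub_cancel' hab, mul_one, h]
      exact mul_left_cancel₀ (pow_ne_zero a hη0) h2
    have h3 : p ∣ b - a := (hη.pow_eq_one_iff_dvd _).1 h1
    exact (ZMod.natCast_eq_natCast_iff a b p).2 ((Nat.modEq_iff_dvd' hab).2 h3)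
  rcases le_total a b with hab | hab
  · exact key a b hab h
  · exact (key b a hab h.symm).symm

/-- The cyclotomic character modulo `p`, as a multiplicative function with value `-1` at complex
conjugation. -/
theorem exists_cyclo (p : ℕ) (hp : p.Prime) :
    ∃ d : GQb → ZMod p, (∀ g h : GQb, d (g * h) = d g * d h) ∧ d complexConjugation = -1 ∧
      ∀ (σ : GQb) (k : ℕ), (∀ ζ : Qb, ζ ^ p = 1 → σ ζ = ζ ^ k) → (k : ZMod p) = d σ := by
  haveI : Fact p.Prime := ⟨hp⟩
  have hη : IsPrimitiveRoot ((E4.zetaU p : Qbˣ) : Qb) p :=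
    IsPrimitiveRoot.coe_units_iff.2 (E4.zetaU_spec hp.pos)
  generalize ((E4.zetaU p : Qbˣ) : Qb) = η at hη
  have hηp : η ^ p = 1 := hη.pow_eq_one
  have hχ : ∀ σ : GQb, η ^ ((hη.autToPow ℚ σ : (ZMod p)ˣ) : ZMod p).val = σ η :=
    fun σ => hη.autToPow_spec ℚ σ
  have hdk : ∀ (σ : GQb) (k : ℕ), σ η = η ^ k →
      (k : ZMod p) = ((hη.autToPow ℚ σ : (ZMod p)ˣ) : ZMod p) := by
    intro σ k hk
    have h1 := natCast_eq_of_pow_eq hη hp.pos ((hχ σ).trans hk)
    rw [ZMod.natCast_zmod_val] at h1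
    exact h1.symm
  refine ⟨fun σ => ((hη.autToPow ℚ σ : (ZMod p)ˣ) : ZMod p), fun g h => ?_, ?_,
    fun σ k hk => hdk σ k (hk η hηp)⟩
  · show ((hη.autToPow ℚ (g * h) : (ZMod p)ˣ) : ZMod p) = _
    rw [_root_.map_mul, Units.val_mul]
  · have h1 : complexConjugation η = η ^ (p - 1) := by
      rw [Fermat.Agent.S41.NonEis.Roots.complexConjugation_root hp.pos hηp]
      have h2 : η ^ (p - 1) * η = 1 := by
        rw [← pow_succ, Nat.sub_add_cancel hp.one_le, hηp]
      exact inv_eq_of_mul_eq_one_left h2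
    show ((hη.autToPow ℚ complexConjugation : (ZMod p)ˣ) : ZMod p) = -1
    rw [← hdk _ _ h1, Nat.cast_pred hp.pos, ZMod.natCast_self, zero_sub]

/-! ### The `p`-torsion of the Frey curve -/

/-- The `p`-torsion module of the Frey curve over `ℚ̄` (Prelude vocabulary). -/
abbrev Ep (P : FreyPackage) : Type := Submodule.torsionBy ℤ (P.freyCurve⁄Qb).Point P.p

theorem nsmul_coe_Ep (P : FreyPackage) (e : Ep P) : P.p • (e : (P.freyCurve⁄Qb).Point) = 0 := by
  have := (Submodule.mem_torsionBy_iff _ _).mp e.2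
  rwa [natCast_zsmul] at this

theorem mem_Ep (P : FreyPackage) {Q : (P.freyCurve⁄Qb).Point} (hQ : P.p • Q = 0) :
    Q ∈ Submodule.torsionBy ℤ (P.freyCurve⁄Qb).Point P.p := by
  rw [Submodule.mem_torsionBy_iff, natCast_zsmul]
  exact hQ

/-- Irreducibility in additive-subgroup form. -/
theorem irr_addSubgroup (P : FreyPackage)
    (hirr : GaloisRepIsIrreducible (K := AlgebraicClosure ℚ) ℚ P.freyCurve P.p)
    (S : AddSubgroup (Ep P)) (hS : ∀ (g : GQb), ∀ x ∈ S, g • x ∈ S) : S = ⊥ ∨ S = ⊤ := by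
  haveI : Fact P.p.Prime := ⟨P.pp⟩
  let M : Submodule (ZMod P.p) (Ep P) :=
    { carrier := S
      add_mem' := fun ha hb => S.add_mem ha hb
      zero_mem' := S.zero_mem
      smul_mem' := fun a x hx => by
        rw [← ZMod.natCast_zmod_val a, Nat.cast_smul_eq_nsmul]
        exact S.nsmul_mem hx _ }
  rcases hirr.2 M (fun σ x hx => hS σ x hx) with h | h
  · left
    refine (AddSubgroup.eq_bot_iff_forall S).2 fun x hx => ?_
    have hxM : x ∈ M := hx
    rw [h] at hxM
    exact (Submodule.mem_bot (ZMod P.p)).1 hxM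
  · right
    refine (AddSubgroup.eq_top_iff' S).2 fun x => ?_
    have hxM : x ∈ M := by rw [h]; exact Submodule.mem_top
    exact hxM

/-! ### The glue -/

/-- **Row MR.W.E**: the Betti-level embedding from (W2), (WL) and (W3). -/
theorem embStatement_of (hRel : RelStatement) (hLift : LiftStatement) (hAlg : AlgStatement) :
    EmbStatement := by
  intro P N _ _ W hW hirr hocc
  have hp : P.p.Prime := P.pp
  haveI : Fact P.p.Prime := ⟨hp⟩
  have hp2 : P.p ≠ 2 := by
    have := P.hp5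
    omega
  obtain ⟨d, hdmul, hdc, hdk⟩ := exists_cyclo P.p hp
  have hcardE : Nat.card (Ep P) = P.p ^ 2 := Fermat.Agent.Lib.TorsionCard.frey_card P
  letI iX2 : DistribMulAction GQb (classes W N P.p) := classAct hLift W N P.p hp
  haveI : Finite (AN N →+ ZMod P.p) := finite_hom N P.p
  haveI iX3 : Finite (classes W N P.p) := inferInstance
  have hnt : Nontrivial (classes W N P.p) := by
    obtain ⟨c, hc, hl, he⟩ := hocc
    exact ⟨⟨⟨c, mem_classes.2 ⟨hl, he⟩⟩, 0, fun h => hc (congrArg Subtype.val h)⟩⟩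
  have hrel : ∀ g : GQb, ∃ t : ZMod P.p,
      (∀ e : Ep P, g • g • e - t • g • e + d g • e = 0) ∧
      (∀ x : classes W N P.p, g • g • x - t • g • x + d g • x = 0) := by
    intro g
    obtain ⟨k, t, hζ, hE, hX⟩ := hRel P N W hW g
    have hk : (k : ZMod P.p) = d g := hdk g k hζ
    refine ⟨(t : ZMod P.p), fun e => ?_, fun x => ?_⟩
    · rw [← hk, Int.cast_smul_eq_zsmul (ZMod P.p) t (g • e), Nat.cast_smul_eq_nsmul (ZMod P.p) k e]
      apply Subtype.ext
      exact hE (e : (P.freyCurve⁄Qb).Point) (nsmul_coe_Ep P e)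
    · rw [← hk, Int.cast_smul_eq_zsmul (ZMod P.p) t (g • x), Nat.cast_smul_eq_nsmul (ZMod P.p) k x]
      apply Subtype.ext
      obtain ⟨f, hf⟩ := Glue.krel_ex (SurjXRoot.surj N) x.1
      exact hX x.1 (galChar N P.p g x.1) (galChar N P.p g (galChar N P.p g x.1)) f
        (mem_classes.1 x.2).2 hf
        (galChar_spec N P.p g hf) (galChar_spec N P.p g (galChar_spec N P.p g hf))
  obtain ⟨φ, hφinj, hφ⟩ := hAlg P.p hp2 GQb (Ep P) (classes W N P.p) d complexConjugation hcardE
    hnt (irr_addSubgroup P hirr) hdmul complexConjugation_mul_self hdc hrel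
  -- the map on points
  classical
  let Φ : (P.freyCurve⁄Qb).Point → (AN N →+ ZMod P.p) := fun Q =>
    if h : P.p • Q = 0 then ((φ ⟨Q, mem_Ep P h⟩ : classes W N P.p) : AN N →+ ZMod P.p) else 0
  have hΦ : ∀ (Q : (P.freyCurve⁄Qb).Point) (h : P.p • Q = 0),
      Φ Q = ((φ ⟨Q, mem_Ep P h⟩ : classes W N P.p) : AN N →+ ZMod P.p) := fun Q h => dif_pos h
  refine ⟨Φ, ?_, ?_, ?_, ?_⟩
  · intro Q Q' hQ hQ'
    have hQQ : P.p • (Q + Q') = 0 := by rw [nsmul_add, hQ, hQ', add_zero]
    rw [hΦ _ hQQ, hΦ _ hQ, hΦ _ hQ', ← Submodule.coe_add, ← _root_.map_add]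
    rfl
  · intro Q hQ h0
    rw [hΦ _ hQ] at h0
    have h1 : φ ⟨Q, mem_Ep P hQ⟩ = 0 := Subtype.ext h0
    have h2 := hφinj (h1.trans (_root_.map_zero φ).symm)
    exact congrArg Subtype.val h2
  · intro Q hQ
    rw [hΦ _ hQ]
    exact mem_classes.1 (φ ⟨Q, mem_Ep P hQ⟩).2
  · intro σ Q hQ f hf
    have hσQ : P.p • (σ • Q) = 0 := by
      have h1 := smul_mem_torsionBy (S := ℚ) σ (mem_Ep P hQ)
      have h2 := (Submodule.mem_torsionBy_iff _ _).mp h1
      rwa [natCast_zsmul] at h2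
    rw [hΦ _ hQ] at hf
    rw [hΦ _ hσQ]
    have h3 : φ ⟨σ • Q, mem_Ep P hσQ⟩ = σ • φ ⟨Q, mem_Ep P hQ⟩ := hφ σ ⟨Q, mem_Ep P hQ⟩
    rw [h3]
    exact galChar_spec N P.p σ hf

end Fermat.Agent.S44.W.Emb
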