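/-
PROGRAM MR / S44, strand W, row `MR.W.1` (helper288): the brick `W.ExitStatement`.

A nonzero LIFTABLE eigen-class of level `M` modulo `p` makes the Frey representation modular of
level `M`: this is `OldExit.modularRepOfLevel_of_char` (Deligne–Serre on the Betti lattice +
`S35.Cocc`) in the vocabulary of `S44/W/Bricks.lean`.
-/
import Mathlib
import Fermat.Agent.S44.W.Bricks
import Fermat.Agent.S44.W.OldExit

set_option autoImplicit false

namespace Fermat.Agent.S44.W.Exit

open Fermat.Agent.S30 Fermat.Agent.S30.Producer Fermat.Agent.S44.W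

/-- **(W1) `W.ExitStatement`.** -/
theorem exitStatement : ExitStatement := by
  intro P M _ W hW hex
  obtain ⟨c, hc, ⟨c', hc'⟩, heig⟩ := hex
  have : NeZero P.p := ⟨P.pp.ne_zero⟩
  subst hc'
  refine OldExit.modularRepOfLevel_of_char P M W hW c' ?_ ?_
  · by_contra hcon
    push Not at hcon
    apply hc
    refine AddMonoidHom.ext fun x => ?_
    show ((c' x : ℤ) : ZMod P.p) = 0
    exact (ZMod.intCast_zmod_eq_zero_iff_dvd _ _).mpr (hcon x)
  · intro ℓ hℓ hℓM hℓp hgood x
    have h1 := DFunLike.congr_fun (heig ℓ hℓ hℓM hℓp hgood) x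
    have h2 : ((c' (tau M ℓ x) : ℤ) : ZMod P.p)
        = ((W.apOfModel ℓ : ℤ) : ZMod P.p) * ((c' x : ℤ) : ZMod P.p) := by
      rw [← zsmul_eq_mul]
      exact h1
    rw [← ZMod.intCast_zmod_eq_zero_iff_dvd, Int.cast_sub, Int.cast_mul, h2, sub_self]

end Fermat.Agent.S44.W.Exit
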