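/-
PROGRAM MR / S44, strand W, rows `MR.W.B` and `MR.W.4` (helper45): the exits in the literal
vocabulary of `S44/W/Bricks.lean`.

* `normBetaStatement : W.NormBetaStatement`  (from `BetaNorm.krel_norm_beta` + `omegaAt_mul`);
* `newEmbStatement  : W.NewEmbStatement`     (from `NewEmb.exists_isNewEmb`);
* `newEmbInputs     : W.NewEmbInputs`.
-/
import Mathlib
import Fermat.Agent.S44.W.Bricks
import Fermat.Agent.S44.W.NewEmb

set_option autoImplicit false

noncomputable section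

open WeierstrassCurve WeierstrassCurve.Affine WeierstrassCurve.Affine.Point
open ModularCurve AlgebraicCurve

namespace Fermat.Agent.S44.W.NewEmbExit

open Fermat.Agent.S30 Fermat.Agent.S30.Producer Fermat.Agent.S44.Contract
open Fermat.Agent.S35.Betti Fermat.Agent.S35.Betti.Swap
open Fermat.Agent.S44.W.NewEmb

/-- A Bezout datum for a prime `ℓ ∤ N`. -/
theorem exists_bezout_of_prime {N ℓ : ℕ} (hℓ : ℓ.Prime) (hℓN : ¬ ℓ ∣ N) :
    ∃ x y : ℤ, x * ℓ + y * N = 1 :=
  ⟨_, _, bezout_gcdA_gcdB (coprime_of_prime_not_dvd hℓ hℓN)⟩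

/-- **(Wβ)** The Kummer character of the `β`-norm is `(c ∘ ω_ℓ) ∘ verA`. -/
theorem normBetaStatement : NormBetaStatement := by
  intro N ℓ _ _ hℓ hℓN m _ f c hf
  obtain ⟨x, y, h⟩ := exists_bezout_of_prime hℓ hℓN
  rw [omegaAt_mul N ℓ x y h]
  exact BetaNorm.krel_norm_beta x y h hℓ hf

/-- **(W4)** The function-level embedding from the Betti-level embedding. -/
theorem newEmbStatement : NewEmbStatement := by
  intro P N' _ _ W hpN' φ hadd hinj heig hgal hnew
  have hp : P.p.Prime := P.pp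
  obtain ⟨x, y, h⟩ := exists_bezout_of_prime hp hpN'
  refine exists_isNewEmb P N' W φ ⟨hadd, hinj, ?_, ?_, fun Q hQ => (hnew Q hQ).1, ?_⟩
  · intro σ Q hQ
    obtain ⟨f, hf⟩ := Glue.krel_ex (SurjXRoot.surj (N' * P.p)) (φ Q)
    exact ⟨f, hf, hgal σ Q hQ f hf⟩
  · intro ℓ hℓ hℓN hgood Q hQ z
    have hℓp : ℓ ≠ P.p := fun h0 => hℓN (h0 ▸ Dvd.intro_left N' rfl)
    have h1 := DFunLike.congr_fun (heig Q hQ ℓ hℓ hℓN hℓp hgood) z
    rw [AddMonoidHom.comp_apply, AddMonoidHom.smul_apply, zsmul_eq_mul] at h1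
    exact h1
  · intro Q hQ
    refine ⟨x, y, h, ?_⟩
    rw [← omegaAt_mul N' P.p x y h]
    exact (hnew Q hQ).2

/-- The row `NewEmbInputs` of `Bricks.lean`. -/
theorem newEmbInputs : NewEmbInputs := fun _ => newEmbStatement

end Fermat.Agent.S44.W.NewEmbExit

end
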