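import Mathlib
import Fermat.Agent.S44.W.Bricks
import Fermat.Agent.S44.W.Emb
import Fermat.Agent.S44.W.Alg
import Fermat.Agent.S44.W.Exit
import Fermat.Agent.S44.W.NewEmbExit

/-!
# PROGRAM MR (S44), strand W: the strand statement from the three open rows (helper84)

Landed exits: `Exit.exitStatement` (W1, helper288), `Alg.alg` (W3, helper270),
`NewEmbExit.newEmbStatement` (W4 + Wβ, helper45), `Emb.embStatement_of` (glue, helper84).

  `wStatement_of : OccStatement → RelStatement → LiftStatement → Contract.WStatement`

so strand W is reduced to the rows (W0) `Occ`, (W2) `Rel`, (WL) `Lift`.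
-/

set_option autoImplicit false

namespace Fermat.Agent.S44.W.Reduce

open Fermat.Agent.S44.W Fermat.Agent.S44.Contract

/-- **(W3)** in the literal shape of `Bricks.lean`. -/
theorem algStatement : AlgStatement :=
  fun p _ hp2 G E X _ _ _ _ _ _ _ _ d c₀ hcard hX hirr hd hc hdc hrel =>
    Alg.alg p hp2 G E X d c₀ hcard hX hirr hd hc hdc hrel

/-- The Betti-level embedding from (W2) and (WL). -/
theorem embStatement_of (hRel : RelStatement) (hLift : LiftStatement) : EmbStatement :=
  Emb.embStatement_of hRel hLift algStatement

/-- **Strand W from the rows (W0), (W2), (WL).** -/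
theorem wStatement_of (hOcc : OccStatement) (hRel : RelStatement) (hLift : LiftStatement) :
    WStatement :=
  WStatement_of_bricks hOcc Exit.exitStatement (embStatement_of hRel hLift)
    NewEmbExit.newEmbStatement

end Fermat.Agent.S44.W.Reduce
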