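/-
PROGRAM MR / S44, strand W (helper181): the Galois action on Kummer characters of exponent `m`.

`galChar N m σ c` is the Kummer character of `galF N σ f` for any Kummer function `f` of
character `c : AN N →+ ZMod m` (mirror of `Producer/CharSystem.actFun`, at an arbitrary
exponent `m`, e.g. `m = p`, not `p ^ 1`).

* `krel_galChar`, `galChar_eq` : the defining property and uniqueness;
* `galChar_add`, `galChar_zero`, `galChar_neg`, `galChar_sub`, `galChar_nsmul`, `galChar_zsmul`,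
  `galChar_one`, `galChar_mul`, `galChar_inv_galChar`, `galChar_galChar_inv` : a group action by
  additive maps;
* `galChar_comp_tau` : it commutes with the Hecke correspondences; `isEigen_galChar` : it
  preserves the eigen-classes `W.IsEigen`;
* `exists_field_galChar` : it factors through a finite level;
* `galChar_es` : the Eichler–Shimura relation `σ² c + ℓ c = (σ c) ∘ τ_ℓ` for `σ` a Frobenius
  element at `ℓ ∤ N m`; `eigen_rel_frob` : `σ² c - a_ℓ σ c + ℓ c = 0` on eigen-classes;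
* `classes_rel_of_eq`, `classes_rel_of_inv` : the classes clause of `W.RelStatement` for an
  element `σ` acting on the classes as a Frobenius element `s` at `ℓ`, resp. as `s⁻¹`.
-/
import Mathlib
import Fermat.Agent.S44.W.Bricks
import Fermat.Agent.S44.W.NewEmb
import Fermat.Agent.S30.Producer.Final

set_option autoImplicit false

noncomputable section

open ModularCurve AlgebraicCurve

namespace Fermat.Agent.S44.W.CharAct

open Fermat.Agent.S30 Fermat.Agent.S30.Producer Fermat.Agent.S44.W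

local notation "GQb" => (AlgebraicClosure ℚ ≃ₐ[ℚ] AlgebraicClosure ℚ)

/-! ### The action -/

section Act

variable {N m : ℕ} [NeZero N] [NeZero m]

/-- Every character is the Kummer character of a function. -/
theorem exists_krel (c : AN N →+ ZMod m) : ∃ f : FN N, KRel N m f c :=
  Glue.krel_ex (SurjXRoot.surj N) c

/-- Galois conjugates of Kummer functions are Kummer functions. -/
theorem exists_krel_gal (σ : GQb) {f : FN N} {c : AN N →+ ZMod m} (h : KRel N m f c) :
    ∃ d : AN N →+ ZMod m, KRel N m (galF N σ f) d :=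
  Glue.krel_gal (ParEllBrick.parEll N) σ h

/-- The Kummer character of `galF N σ f`, for `f` of Kummer character `c`. -/
def galChar (N m : ℕ) [NeZero N] [NeZero m] (σ : GQb) (c : AN N →+ ZMod m) : AN N →+ ZMod m :=
  Classical.choose (exists_krel_gal σ (Classical.choose_spec (exists_krel c)))

theorem krel_galChar (σ : GQb) {f : FN N} {c : AN N →+ ZMod m} (h : KRel N m f c) :
    KRel N m (galF N σ f) (galChar N m σ c) := by
  have h0 := Classical.choose_spec (exists_krel c)
  have h1 : KRel N m (galF N σ (Classical.choose (exists_krel c))) (galChar N m σ c) :=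
    Classical.choose_spec (exists_krel_gal σ h0)
  obtain ⟨k, hk, rfl⟩ := NewEmb.krel_eq_mul_pow h0 h
  rw [_root_.map_mul, _root_.map_pow]
  exact NewEmb.krel_mul_pow h1 ((_root_.map_ne_zero_iff _ (galF N σ).injective).2 hk)

theorem galChar_eq (σ : GQb) {f : FN N} {c d : AN N →+ ZMod m} (h : KRel N m f c)
    (hd : KRel N m (galF N σ f) d) : galChar N m σ c = d :=
  Glue.krel_uniq (krel_galChar σ h) hd

theorem galChar_add (σ : GQb) (c d : AN N →+ ZMod m) :
    galChar N m σ (c + d) = galChar N m σ c + galChar N m σ d := by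
  obtain ⟨f, hf⟩ := exists_krel c
  obtain ⟨g, hg⟩ := exists_krel d
  refine galChar_eq σ (Glue.krel_mul hf hg) ?_
  rw [_root_.map_mul]
  exact Glue.krel_mul (krel_galChar σ hf) (krel_galChar σ hg)

/-- `galChar N m σ` as an additive map. -/
def galCharHom (N m : ℕ) [NeZero N] [NeZero m] (σ : GQb) :
    (AN N →+ ZMod m) →+ (AN N →+ ZMod m) :=
  AddMonoidHom.mk' (galChar N m σ) (galChar_add σ)

theorem galCharHom_apply (σ : GQb) (c : AN N →+ ZMod m) :
    galCharHom N m σ c = galChar N m σ c := rfl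

theorem galChar_zero (σ : GQb) : galChar N m σ (0 : AN N →+ ZMod m) = 0 :=
  (galCharHom N m σ).map_zero

theorem galChar_neg (σ : GQb) (c : AN N →+ ZMod m) :
    galChar N m σ (-c) = -galChar N m σ c :=
  (galCharHom N m σ).map_neg c

theorem galChar_sub (σ : GQb) (c d : AN N →+ ZMod m) :
    galChar N m σ (c - d) = galChar N m σ c - galChar N m σ d :=
  (galCharHom N m σ).map_sub c d

theorem galChar_nsmul (σ : GQb) (a : ℕ) (c : AN N →+ ZMod m) :
    galChar N m σ (a • c) = a • galChar N m σ c :=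
  (galCharHom N m σ).map_nsmul a c

theorem galChar_zsmul (σ : GQb) (a : ℤ) (c : AN N →+ ZMod m) :
    galChar N m σ (a • c) = a • galChar N m σ c :=
  (galCharHom N m σ).map_zsmul a c

theorem galChar_one (c : AN N →+ ZMod m) : galChar N m 1 c = c := by
  obtain ⟨f, hf⟩ := exists_krel c
  refine galChar_eq 1 hf ?_
  rwa [galF_one]

theorem galChar_mul (σ τ : GQb) (c : AN N →+ ZMod m) :
    galChar N m (σ * τ) c = galChar N m σ (galChar N m τ c) := by
  obtain ⟨f, hf⟩ := exists_krel c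
  refine galChar_eq (σ * τ) hf ?_
  rw [galF_mul]
  exact krel_galChar σ (krel_galChar τ hf)

theorem galChar_inv_galChar (σ : GQb) (c : AN N →+ ZMod m) :
    galChar N m σ⁻¹ (galChar N m σ c) = c := by
  rw [← galChar_mul, inv_mul_cancel, galChar_one]

theorem galChar_galChar_inv (σ : GQb) (c : AN N →+ ZMod m) :
    galChar N m σ (galChar N m σ⁻¹ c) = c := by
  rw [← galChar_mul, mul_inv_cancel, galChar_one]

theorem galChar_injective (σ : GQb) :
    Function.Injective (galChar N m σ : (AN N →+ ZMod m) → (AN N →+ ZMod m)) := by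
  intro c d h
  rw [← galChar_inv_galChar σ c, h, galChar_inv_galChar]

/-- The action as a monoid homomorphism into the additive endomorphisms. -/
def galCharAct (N m : ℕ) [NeZero N] [NeZero m] : GQb →* AddMonoid.End (AN N →+ ZMod m) where
  toFun σ := galCharHom N m σ
  map_one' := by
    ext c : 1
    exact galChar_one c
  map_mul' := by
    intro σ τ
    ext c : 1
    exact galChar_mul σ τ c

theorem galCharAct_apply (σ : GQb) (c : AN N →+ ZMod m) :
    galCharAct N m σ c = galChar N m σ c := rfl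

/-! ### Hecke equivariance -/

/-- The Galois action commutes with the Hecke correspondences. -/
theorem galChar_comp_tau {ℓ : ℕ} (hℓ : ℓ.Prime) (hℓN : ¬ ℓ ∣ N) (σ : GQb)
    (c : AN N →+ ZMod m) :
    galChar N m σ (c.comp (tau N ℓ)) = (galChar N m σ c).comp (tau N ℓ) := by
  obtain ⟨f, hf⟩ := exists_krel c
  have h1 : KRel N m (E4.heckeFb N ℓ f) (c.comp (tau N ℓ)) :=
    Glue.krel_hecke (BettiABricks.tHomParEll N) hℓ hℓN (TransferTrivialProof.heckeDiv N ℓ) hf
  refine galChar_eq σ h1 ?_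
  rw [← E4.heckeFb_galF N hℓ hℓN σ f]
  exact Glue.krel_hecke (BettiABricks.tHomParEll N) hℓ hℓN (TransferTrivialProof.heckeDiv N ℓ)
    (krel_galChar σ hf)

/-- The Galois action preserves the eigen-classes. -/
theorem isEigen_galChar {W : WeierstrassCurve ℤ} {p : ℕ} [NeZero p] (σ : GQb)
    {c : AN N →+ ZMod p} (hc : IsEigen W N p c) : IsEigen W N p (galChar N p σ c) := by
  intro ℓ hℓ hℓN hℓp hgood
  rw [← galChar_comp_tau hℓ hℓN σ c, hc ℓ hℓ hℓN hℓp hgood, galChar_zsmul]

/-! ### Finite level -/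

theorem finite_hom (N m : ℕ) [NeZero N] [NeZero m] : Finite (AN N →+ ZMod m) := by
  obtain ⟨S, hS⟩ := fg_AN N
  have hS' : AddSubgroup.closure (S : Set (AN N)) = ⊤ := hS
  refine Finite.of_injective (fun (c : AN N →+ ZMod m) (s : S) => c s) ?_
  intro c d hcd
  refine AddMonoidHom.eq_of_eqOn_dense hS' ?_
  intro s hs
  exact congrFun hcd ⟨s, hs⟩

/-- The Galois action on the Kummer characters factors through a finite level: two
automorphisms which agree on a suitable finite extension `L` of `ℚ` act in the same way. -/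
theorem exists_field_galChar (N m : ℕ) [NeZero N] [NeZero m] :
    ∃ L : IntermediateField ℚ Qb, FiniteDimensional ℚ L ∧
      ∀ σ τ : GQb, (∀ x ∈ L, σ x = τ x) →
        ∀ c : AN N →+ ZMod m, galChar N m σ c = galChar N m τ c := by
  have := finite_hom N m
  choose f hf using fun c : AN N →+ ZMod m => exists_krel c
  choose L hL hLf using fun c : AN N →+ ZMod m => E4.galF_eq_self_of_fixes N (f c)
  refine ⟨⨆ c, L c, inferInstance, fun σ τ hστ c => ?_⟩
  have hfix : galF N (τ⁻¹ * σ) (f c) = f c := hLf c (τ⁻¹ * σ) fun x hx => by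
    rw [AlgEquiv.mul_apply, hστ x (le_iSup L c hx)]
    exact τ.symm_apply_apply x
  have hσ : galF N σ (f c) = galF N τ (f c) := by
    have h1 := congrArg (galF N τ) hfix
    rwa [← galF_mul, mul_inv_cancel_left] at h1
  refine galChar_eq σ (hf c) ?_
  rw [hσ]
  exact krel_galChar τ (hf c)

/-! ### The Eichler–Shimura relation -/

/-- **Eichler–Shimura on Kummer characters**: for `s` a Frobenius element at a prime `ℓ ∤ N m`,
`s² c + ℓ c = (s c) ∘ τ_ℓ`. -/
theorem galChar_es {ℓ : ℕ} (hℓ : ℓ.Prime) (hℓN : ¬ ℓ ∣ N) (hℓm : ¬ ℓ ∣ m)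
    (B : ValuationSubring Qb) (hB : B.LiesOverPrime ℓ) (s : GQb) (hs : B.IsFrobeniusAt s ℓ)
    (c : AN N →+ ZMod m) :
    galChar N m s (galChar N m s c) + ℓ • c = (galChar N m s c).comp (tau N ℓ) := by
  have : Fact ℓ.Prime := ⟨hℓ⟩
  obtain ⟨f, hf⟩ := exists_krel c
  have h1 := krel_galChar s hf
  have h2 := krel_galChar s h1
  have h3 : KRel N m (E4.heckeFb N ℓ (galF N s f)) ((galChar N m s c).comp (tau N ℓ)) :=
    Glue.krel_hecke (BettiABricks.tHomParEll N) hℓ hℓN (TransferTrivialProof.heckeDiv N ℓ) h1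
  obtain ⟨h, hh0, hh⟩ := E4.es hℓ.pos B hB (E4.k1 N ℓ hℓ hℓN B hB) (E4.zetaU ℓ)
    (E4.zetaU_spec hℓ.pos)
    (E4.heckeClosed_of_heckeDiv N hℓ hℓN (TransferTrivialProof.heckeDiv N ℓ)) hℓm hs f hf.1
    hf.2.1
  have hg : galF N s (galF N s f) * f ^ ℓ = E4.heckeFb N ℓ (galF N s f) * h ^ m := by
    refine Subtype.ext ?_
    rw [MulMemClass.coe_mul, MulMemClass.coe_mul, E4.coe_heckeFb N hℓ hℓN]
    exact hh
  have hL := Glue.krel_mul h2 (NewEmb.krel_npow hf ℓ)
  rw [hg] at hL
  exact Glue.krel_uniq hL (NewEmb.krel_mul_pow h3 hh0)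

/-- **The quadratic relation at Frobenius elements on eigen-classes**:
`s² c - a_ℓ(W) s c + ℓ c = 0`. -/
theorem eigen_rel_frob {W : WeierstrassCurve ℤ} {p : ℕ} [NeZero p] (hp : p.Prime) {ℓ : ℕ}
    (hℓ : ℓ.Prime) (hℓN : ¬ ℓ ∣ N) (hℓp : ℓ ≠ p) (hgood : W.IsGoodPrimeFor ℓ)
    (B : ValuationSubring Qb) (hB : B.LiesOverPrime ℓ) (s : GQb) (hs : B.IsFrobeniusAt s ℓ)
    {c : AN N →+ ZMod p} (hc : IsEigen W N p c) :
    galChar N p s (galChar N p s c) - W.apOfModel ℓ • galChar N p s c + ℓ • c = 0 := by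
  have hℓm : ¬ ℓ ∣ p := fun h => hℓp ((Nat.prime_dvd_prime_iff_eq hℓ hp).mp h)
  have h1 := galChar_es hℓ hℓN hℓm B hB s hs c
  have h2 := isEigen_galChar s hc ℓ hℓ hℓN hℓp hgood
  rw [h2] at h1
  rw [← h1]
  abel

/-! ### The classes clause of `RelStatement` -/

/-- The classes clause of `W.RelStatement` for `σ` acting on the classes as a Frobenius element
`s` at `ℓ`: `(k, t) = (ℓ, a_ℓ(W))`. -/
theorem classes_rel_of_eq {W : WeierstrassCurve ℤ} {p : ℕ} [NeZero p] (hp : p.Prime) {ℓ : ℕ}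
    (hℓ : ℓ.Prime) (hℓN : ¬ ℓ ∣ N) (hℓp : ℓ ≠ p) (hgood : W.IsGoodPrimeFor ℓ)
    (B : ValuationSubring Qb) (hB : B.LiesOverPrime ℓ) (s : GQb) (hs : B.IsFrobeniusAt s ℓ)
    (σ : GQb) (hσ : ∀ c : AN N →+ ZMod p, galChar N p σ c = galChar N p s c)
    (c c₁ c₂ : AN N →+ ZMod p) (f : FN N) (hc : IsEigen W N p c) (hf : KRel N p f c)
    (h1 : KRel N p (galF N σ f) c₁) (h2 : KRel N p (galF N σ (galF N σ f)) c₂) :
    c₂ - W.apOfModel ℓ • c₁ + ℓ • c = 0 := by
  have e1 : c₁ = galChar N p s c := by rw [← hσ, galChar_eq σ hf h1]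
  have e2 : c₂ = galChar N p s c₁ := by rw [← hσ, galChar_eq σ h1 h2]
  rw [e2, e1]
  exact eigen_rel_frob hp hℓ hℓN hℓp hgood B hB s hs hc

/-- The classes clause of `W.RelStatement` for `σ` acting on the classes as the INVERSE of a
Frobenius element `s` at `ℓ`: `k ℓ ≡ 1 (mod p)` and `t = a_ℓ(W) k`. -/
theorem classes_rel_of_inv {W : WeierstrassCurve ℤ} {p : ℕ} [NeZero p] (hp : p.Prime) {ℓ : ℕ}
    (hℓ : ℓ.Prime) (hℓN : ¬ ℓ ∣ N) (hℓp : ℓ ≠ p) (hgood : W.IsGoodPrimeFor ℓ)
    (B : ValuationSubring Qb) (hB : B.LiesOverPrime ℓ) (s : GQb) (hs : B.IsFrobeniusAt s ℓ)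
    (σ : GQb) (hσ : ∀ c : AN N →+ ZMod p, galChar N p s c = galChar N p σ⁻¹ c)
    (k : ℕ) (hk : (k : ZMod p) * (ℓ : ZMod p) = 1)
    (c c₁ c₂ : AN N →+ ZMod p) (f : FN N) (hc : IsEigen W N p c) (hf : KRel N p f c)
    (h1 : KRel N p (galF N σ f) c₁) (h2 : KRel N p (galF N σ (galF N σ f)) c₂) :
    c₂ - (W.apOfModel ℓ * k) • c₁ + k • c = 0 := by
  have e1 : galChar N p σ c = c₁ := galChar_eq σ hf h1
  have e2 : galChar N p σ c₁ = c₂ := galChar_eq σ h1 h2
  have hc₂ : IsEigen W N p c₂ := by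
    rw [← e2, ← e1]
    exact isEigen_galChar σ (isEigen_galChar σ hc)
  have h3 := eigen_rel_frob hp hℓ hℓN hℓp hgood B hB s hs hc₂
  have e3 : galChar N p s c₂ = c₁ := by rw [hσ, ← e2, galChar_inv_galChar]
  have e4 : galChar N p s c₁ = c := by rw [hσ, ← e1, galChar_inv_galChar]
  rw [e3, e4] at h3
  -- `h3 : c - a • c₁ + ℓ • c₂ = 0`
  refine AddMonoidHom.ext fun x => ?_
  have hx := congrArg (fun d : AN N →+ ZMod p => d x) h3
  simp only [AddMonoidHom.add_apply, AddMonoidHom.sub_apply, AddMonoidHom.smul_apply,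
    AddMonoidHom.zero_apply, zsmul_eq_mul, nsmul_eq_mul] at hx ⊢
  push_cast
  linear_combination (k : ZMod p) * hx - c₂ x * hk

end Act

end Fermat.Agent.S44.W.CharAct

end
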