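/-
PROGRAM MR / S44, strand W, row MR.W.2 (helper181): `relStatement : W.RelStatement`.

Every `σ ∈ G_ℚ` acts on `μ_p` by `ζ ↦ ζ ^ k` and satisfies `σ² - t σ + k = 0` on `E[p]` and on
the eigen-classes of level `N` (Galois action through `KRel`), with the same `(k, t)`.

Proof.  Chebotarev in exact form (`Lib.Chebotarev.FrobExact.exists_frobenius_eq_or_inv_on`) on
the compositum `L` of the field of the `E[p]`-coordinates and `ζ_p` (`S41.NonEis.Main.fieldL`)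
and of a finite level of the action on the Kummer characters (`CharAct.exists_field_galChar`)
gives a Frobenius element `s` at a good prime `ℓ ≥ 5`, `ℓ ∤ N p`, with `s = σ` on `L` or
`s = σ⁻¹` on `L`.  No Frobenius power and no Lucas sequence is needed:

* `s = σ` on `L`: `(k, t) = (ℓ, a_ℓ(W))` (`S41` Frobenius relation on `E[p]`, Eichler–Shimura
  on the classes: `CharAct.classes_rel_of_eq`);
* `s = σ⁻¹` on `L`: `k ℓ ≡ 1 (mod p)`, `t = a_ℓ(W) k` (apply the Frobenius relation to `σ² x`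
  and multiply by `k`: `point_rel_of_inv`, `CharAct.classes_rel_of_inv`).
-/
import Mathlib
import Fermat.Agent.S44.W.CharAct
import Fermat.Agent.S41.NonEis.Main
import Fermat.Agent.Lib.Chebotarev.FrobExact

set_option autoImplicit false

open WeierstrassCurve WeierstrassCurve.Affine WeierstrassCurve.Affine.Point
open ModularCurve AlgebraicCurve

namespace Fermat.Agent.S44.W.Rel

open Fermat.Agent.S30 Fermat.Agent.S30.Producer Fermat.Agent.S44.W
open Fermat.Agent.S41.NonEis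

local notation "GQb" => (AlgebraicClosure ℚ ≃ₐ[ℚ] AlgebraicClosure ℚ)

/-- From `Q - a Y + ℓ X = 0` and `(k ℓ) X = X` to `X - (a k) Y + k Q = 0`. -/
theorem quad_inv_aux {A : Type*} [AddCommGroup A] (Q Y X : A) (a : ℤ) (k ℓ : ℕ)
    (h1 : Q - a • Y + (ℓ : ℤ) • X = 0) (h5 : (k * ℓ) • X = X) :
    X - (a * k) • Y + k • Q = 0 := by
  have key : X - (a * k) • Y + k • Q
      = (k : ℤ) • (Q - a • Y + (ℓ : ℤ) • X) + (X - ((k * ℓ : ℕ) : ℤ) • X) := by
    rw [← natCast_zsmul Q k]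
    push_cast
    module
  rw [key, h1, natCast_zsmul X (k * ℓ), h5, _root_.smul_zero, sub_self, add_zero]

section ESide

variable (E : WeierstrassCurve ℚ) (p : ℕ)

/-- Automorphisms agreeing on `fieldL` act in the same way on the `p`-torsion points. -/
theorem smul_eq_of_eqOn_point (ζ : Qb) (σ τ : GQb)
    (h : ∀ x ∈ Main.fieldL E p ζ, σ x = τ x) (Q : (E⁄Qb).Point) (hQ : p • Q = 0) :
    σ • Q = τ • Q := by
  have hv : Q ∈ Submodule.torsionBy ℤ (E⁄Qb).Point (p : ℤ) := by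
    rw [Submodule.mem_torsionBy_iff, natCast_zsmul]
    exact hQ
  exact congrArg Subtype.val (Main.smul_eq_of_eqOn E p ζ σ τ h ⟨Q, hv⟩)

/-- The Galois action preserves the `p`-torsion. -/
theorem nsmul_smul_eq_zero (σ : GQb) {Q : (E⁄Qb).Point} (hQ : p • Q = 0) :
    p • (σ • Q) = 0 := by
  have h1 : σ • (p • Q) = p • (σ • Q) :=
    (DistribSMul.toAddMonoidHom (E⁄Qb).Point σ).map_nsmul p Q
  rw [← h1, hQ]
  exact _root_.smul_zero (A := (E⁄Qb).Point) σ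

/-- Integers congruent to `1` modulo `p` act trivially on the `p`-torsion. -/
theorem nsmul_eq_self_of_eq {n q : ℕ} (hn : n = p * q + 1) {Q : (E⁄Qb).Point}
    (hQ : p • Q = 0) : n • Q = Q := by
  rw [hn, add_nsmul, mul_nsmul, hQ, nsmul_zero, zero_add, one_nsmul]

/-- **`E[p]` clause, direct case**: `σ` acts on `E[p]` as a Frobenius element `s` at `ℓ`. -/
theorem point_rel_of_eq {W : WeierstrassCurve ℤ} (hW : W.IsIntegralModelOf E) (hp : p.Prime)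
    {ℓ : ℕ} (hℓ : ℓ.Prime) (h5 : 5 ≤ ℓ) (hgood : W.IsGoodPrimeFor ℓ) (hℓp : ℓ ≠ p)
    {B : ValuationSubring Qb} (hB : B.LiesOverPrime ℓ) (s : GQb) (hs : B.IsFrobeniusAt s ℓ)
    (σ : GQb) (hσ : ∀ Q : (E⁄Qb).Point, p • Q = 0 → σ • Q = s • Q)
    (Q : (E⁄Qb).Point) (hQ : p • Q = 0) :
    σ • σ • Q - W.apOfModel ℓ • σ • Q + ℓ • Q = 0 := by
  have hn : ¬ ℓ ∣ p := fun h => hℓp ((Nat.prime_dvd_prime_iff_eq hℓ hp).mp h)
  have h1 := FrobRel.frobenius_relation E hW hℓ h5 hgood hn hB s hs Q hQ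
  rw [hσ Q hQ, hσ (s • Q) (nsmul_smul_eq_zero E p s hQ), ← natCast_zsmul Q ℓ]
  exact h1

/-- **`E[p]` clause, inverse case**: `σ⁻¹` acts on `E[p]` as a Frobenius element `s` at `ℓ`,
`k ℓ ≡ 1 (mod p)`. -/
theorem point_rel_of_inv {W : WeierstrassCurve ℤ} (hW : W.IsIntegralModelOf E) (hp : p.Prime)
    {ℓ : ℕ} (hℓ : ℓ.Prime) (h5 : 5 ≤ ℓ) (hgood : W.IsGoodPrimeFor ℓ) (hℓp : ℓ ≠ p)
    {B : ValuationSubring Qb} (hB : B.LiesOverPrime ℓ) (s : GQb) (hs : B.IsFrobeniusAt s ℓ)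
    (σ : GQb) (hσ : ∀ Q : (E⁄Qb).Point, p • Q = 0 → s • Q = σ⁻¹ • Q)
    {k q : ℕ} (hk : k * ℓ = p * q + 1)
    (Q : (E⁄Qb).Point) (hQ : p • Q = 0) :
    σ • σ • Q - (W.apOfModel ℓ * k) • σ • Q + k • Q = 0 := by
  have hn : ¬ ℓ ∣ p := fun h => hℓp ((Nat.prime_dvd_prime_iff_eq hℓ hp).mp h)
  have hQ1 : p • (σ • Q) = 0 := nsmul_smul_eq_zero E p σ hQ
  have hQ2 : p • (σ • σ • Q) = 0 := nsmul_smul_eq_zero E p σ hQ1
  have h1 := FrobRel.frobenius_relation E hW hℓ h5 hgood hn hB s hs (σ • σ • Q) hQ2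
  have e1 : s • σ • σ • Q = σ • Q := by
    rw [hσ _ hQ2]
    exact inv_smul_smul σ (σ • Q)
  have e2 : s • σ • Q = Q := by
    rw [hσ _ hQ1]
    exact inv_smul_smul σ Q
  rw [e1, e2] at h1
  -- `h1 : Q - a • σ • Q + (ℓ : ℤ) • σ • σ • Q = 0`
  exact quad_inv_aux Q (σ • Q) (σ • σ • Q) (W.apOfModel ℓ) k ℓ h1
    (nsmul_eq_self_of_eq E p hk hQ2)

end ESide

/-- **(W2)** `RelStatement`, through Chebotarev in exact form. -/
theorem relStatement : RelStatement := by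
  intro P N _ _ W hW σ
  classical
  have hp : P.p.Prime := P.pp
  have hΔ0 : W.Δ ≠ 0 := Main.Δ_ne_zero P.freyCurve hW
  obtain ⟨η, hη⟩ := HasEnoughRootsOfUnity.exists_primitiveRoot Qb P.p
  have hfd1 : FiniteDimensional ℚ (Main.fieldL P.freyCurve P.p η) :=
    Main.finiteDimensional_fieldL P.freyCurve P.p hp.pos η
  obtain ⟨L2, hfd2, hL2⟩ := CharAct.exists_field_galChar N P.p
  -- every `p`-th root of unity lies in the field
  have hζL : ∀ ζ : Qb, ζ ^ P.p = 1 → ζ ∈ Main.fieldL P.freyCurve P.p η ⊔ L2 := by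
    intro ζ hζ
    obtain ⟨i, -, rfl⟩ := hη.eq_pow_of_pow_eq_one hζ
    exact pow_mem ((le_sup_left : Main.fieldL P.freyCurve P.p η ≤ _)
      (Main.mem_fieldL_zeta P.freyCurve P.p η)) i
  -- the excluded primes
  set S' : Finset ℕ := {2, 3, P.p} ∪ W.Δ.natAbs.primeFactors ∪ N.primeFactors with hS'def
  have hS' : ∀ ℓ : ℕ, ℓ.Prime → ℓ ∉ S' →
      5 ≤ ℓ ∧ W.IsGoodPrimeFor ℓ ∧ ℓ ≠ P.p ∧ ¬ ℓ ∣ N := by
    intro ℓ hℓ hmem
    simp only [hS'def, Finset.mem_union, Finset.mem_insert, Finset.mem_singleton,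
      Nat.mem_primeFactors, not_or, not_and] at hmem
    obtain ⟨⟨⟨h2, h3, hp'⟩, hΔ'⟩, hN'⟩ := hmem
    refine ⟨?_, ?_, hp', ?_⟩
    · have h2le := hℓ.two_le
      by_contra hlt
      push Not at hlt
      have h4 : ℓ ≠ 4 := by
        rintro rfl
        exact absurd hℓ (by norm_num)
      omega
    · intro hdvd
      exact hΔ' hℓ (Int.natCast_dvd.mp hdvd) (Int.natAbs_ne_zero.mpr hΔ0)
    · intro hdvd
      exact hN' hℓ hdvd (NeZero.ne N)
  obtain ⟨ℓ, B, s, hℓ, hℓS, hB, hs, hcase⟩ :=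
    Fermat.Agent.Lib.Chebotarev.FrobExact.exists_frobenius_eq_or_inv_on
      (Main.fieldL P.freyCurve P.p η ⊔ L2) S' σ
  obtain ⟨h5, hgood, hℓp, hℓN⟩ := hS' ℓ hℓ hℓS
  have hnℓ : ¬ ℓ ∣ P.p := fun h => hℓp ((Nat.prime_dvd_prime_iff_eq hℓ hp).mp h)
  rcases hcase with hsσ | hsσ
  · -- `s = σ` on the field
    refine ⟨ℓ, W.apOfModel ℓ, ?_, ?_, ?_⟩
    · intro ζ hζ
      rw [← hsσ ζ (hζL ζ hζ)]
      exact Roots.frobenius_root hℓ hB hnℓ hp.pos hs hζ
    · intro Q hQ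
      exact point_rel_of_eq P.freyCurve P.p hW hp hℓ h5 hgood hℓp hB s hs σ
        (fun Q' hQ' => (smul_eq_of_eqOn_point P.freyCurve P.p η s σ
          (fun x hx => hsσ x ((le_sup_left : Main.fieldL P.freyCurve P.p η ≤ _) hx)) Q' hQ').symm)
        Q hQ
    · intro c c₁ c₂ f hc hf h1 h2
      exact CharAct.classes_rel_of_eq hp hℓ hℓN hℓp hgood B hB s hs σ
        (fun c' => hL2 σ s (fun x hx => (hsσ x ((le_sup_right : L2 ≤ _) hx)).symm) c')
        c c₁ c₂ f hc hf h1 h2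
  · -- `s = σ⁻¹` on the field
    have hpF : Fact P.p.Prime := ⟨hp⟩
    have hℓ0 : (ℓ : ZMod P.p) ≠ 0 := by
      intro h0
      rw [ZMod.natCast_eq_zero_iff] at h0
      exact hℓp ((Nat.prime_dvd_prime_iff_eq hp hℓ).mp h0).symm
    set k : ℕ := ((ℓ : ZMod P.p)⁻¹).val with hkdef
    have hk : (k : ZMod P.p) * (ℓ : ZMod P.p) = 1 := by
      rw [hkdef, ZMod.natCast_zmod_val, inv_mul_cancel₀ hℓ0]
    obtain ⟨q, hq⟩ : ∃ q : ℕ, k * ℓ = P.p * q + 1 := by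
      have h1 : ((k * ℓ : ℕ) : ZMod P.p) = ((1 : ℕ) : ZMod P.p) := by
        push_cast
        exact hk
      have h2 : (k * ℓ) % P.p = 1 % P.p := (ZMod.natCast_eq_natCast_iff' _ _ _).mp h1
      rw [Nat.mod_eq_of_lt hp.one_lt] at h2
      exact ⟨k * ℓ / P.p, by rw [← h2]; exact (Nat.div_add_mod _ _).symm⟩
    refine ⟨k, W.apOfModel ℓ * k, ?_, ?_, ?_⟩
    · intro ζ hζ
      have h1 : s ζ = ζ ^ ℓ := Roots.frobenius_root hℓ hB hnℓ hp.pos hs hζ
      rw [hsσ ζ (hζL ζ hζ)] at h1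
      have h3 : ζ = σ ζ ^ ℓ := by
        have h2 := congrArg σ h1
        rw [_root_.map_pow] at h2
        rw [← h2]
        exact (σ.apply_symm_apply ζ).symm
      have h4 : σ ζ ^ P.p = 1 := by rw [← _root_.map_pow, hζ, _root_.map_one]
      calc σ ζ = (σ ζ ^ P.p) ^ q * σ ζ := by rw [h4, one_pow, one_mul]
        _ = σ ζ ^ (k * ℓ) := by rw [hq, pow_add, pow_mul, pow_one]
        _ = (σ ζ ^ ℓ) ^ k := by rw [mul_comm, pow_mul]
        _ = ζ ^ k := by rw [← h3]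
    · intro Q hQ
      exact point_rel_of_inv P.freyCurve P.p hW hp hℓ h5 hgood hℓp hB s hs σ
        (fun Q' hQ' => smul_eq_of_eqOn_point P.freyCurve P.p η s σ⁻¹
          (fun x hx => hsσ x ((le_sup_left : Main.fieldL P.freyCurve P.p η ≤ _) hx)) Q' hQ')
        hq Q hQ
    · intro c c₁ c₂ f hc hf h1 h2
      exact CharAct.classes_rel_of_inv hp hℓ hℓN hℓp hgood B hB s hs σ
        (fun c' => hL2 s σ⁻¹ (fun x hx => hsσ x ((le_sup_right : L2 ≤ _) hx)) c')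
        k hk c c₁ c₂ f hc hf h1 h2

end Fermat.Agent.S44.W.Rel
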