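import Mathlib
import Fermat.Agent.S44.W.Reduce
import Fermat.Agent.S44.W.Occ
import Fermat.Agent.S44.W.Rel
import Fermat.Agent.S44.W.Lift

/-!
# PROGRAM MR (S44), strand W: the strand statement (helper84)

`wStatement : Contract.WStatement` — the `p`-old exit or a Galois-equivariant Hecke-eigen
embedding of `E[p]` into the `p`-new Kummer classes of level `N' p`.

Rows: (W0) `Occ.occStatement` (helper59, helper191), (W1) `Exit.exitStatement` (helper288),
(W2) `Rel.relStatement` (helper186, helper7, helper181), (WL) `Lift.liftStatement` (helper275,
helper165), (W3) `Alg.alg` (helper270, helper109), (W4), (Wβ) `NewEmbExit` (helper45), glue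
`Emb.embStatement_of`, `Reduce.wStatement_of` (helper84).
-/

set_option autoImplicit false

namespace Fermat.Agent.S44.W.Final

/-- **Strand W.** -/
theorem wStatement : Fermat.Agent.S44.Contract.WStatement :=
  Reduce.wStatement_of Occ.occStatement Rel.relStatement Lift.liftStatement

end Fermat.Agent.S44.W.Final
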