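import Fermat.Agent.S44.W.Bricks
import Fermat.Agent.S44.W.Alg

/-!
# (W3) of Program MR (S44): the exit `algStatement : W.AlgStatement`

`W/Alg.lean` proves the body of `AlgStatement` verbatim (Mathlib only); this file is the
one-line exit in the vocabulary of `W/Bricks.lean`.
-/

set_option autoImplicit false

namespace Fermat.Agent.S44.W.AlgExit

/-- **(W3)** The Boston–Lenstra–Ribet step of strand W. -/
theorem algStatement : Fermat.Agent.S44.W.AlgStatement :=
  fun p _ hp2 G E X _ _ _ _ _ _ _ _ d c₀ h1 h2 h3 h4 h5 h6 h7 =>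
    Alg.alg p hp2 G E X d c₀ h1 h2 h3 h4 h5 h6 h7

end Fermat.Agent.S44.W.AlgExit
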