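import Mathlib
import Fermat.Agent.S44.W.Embed
import Fermat.Agent.S44.W.Alg

/-!
# (W3) of Program MR (S44): the smul form over `ZMod p` with a character `d : G →* ZMod p`

`exists_equivariant_injective` is the form (E2) of the interface of `W/Embed.lean`: `E` a
two-dimensional irreducible `ZMod p`-module with a distributive `G`-action, `V ≠ 0` any
`ZMod p`-module with a distributive `G`-action (no finiteness), `d : G →* ZMod p` with
`d c = -1` for an element `c` acting as an involution on `E`, and one common quadratic relation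
for every `g`.
-/

set_option autoImplicit false

namespace Fermat.Agent.S44.W.EmbedSmul

open Module

/-- **(W3), smul form.** -/
theorem exists_equivariant_injective {p : ℕ} [Fact p.Prime] (hp2 : p ≠ 2)
    {G : Type*} [Group G]
    {E : Type*} [AddCommGroup E] [Module (ZMod p) E] [DistribMulAction G E]
    (hE : finrank (ZMod p) E = 2)
    (hirr : ∀ L : Submodule (ZMod p) E, (∀ g : G, ∀ x ∈ L, g • x ∈ L) → L = ⊥ ∨ L = ⊤)
    {V : Type*} [AddCommGroup V] [Module (ZMod p) V] [DistribMulAction G V] [Nontrivial V]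
    (d : G →* ZMod p) (c : G) (hc : ∀ x : E, c • c • x = x) (hdc : d c = -1)
    (hrel : ∀ g : G, ∃ t : ZMod p, (∀ x : E, g • g • x - t • g • x + d g • x = 0) ∧
      (∀ v : V, g • g • v - t • g • v + d g • v = 0)) :
    ∃ φ : E →+ V, Function.Injective φ ∧ ∀ (g : G) (x : E), φ (g • x) = g • φ x := by
  have hp : p.Prime := Fact.out
  have h2 : (2 : ZMod p) ≠ 0 := by
    intro h
    have h1 : ((2 : ℕ) : ZMod p) = 0 := by exact_mod_cast h
    rw [ZMod.natCast_eq_zero_iff] at h1
    exact hp2 ((Nat.prime_dvd_prime_iff_eq hp Nat.prime_two).mp h1)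
  have hcE : Alg.toEnd p G E c * Alg.toEnd p G E c = 1 := by
    apply LinearMap.ext
    intro x
    exact hc x
  have hrel' : ∀ g, ∃ t : ZMod p,
      Alg.toEnd p G E g * Alg.toEnd p G E g - t • Alg.toEnd p G E g
        + d g • (1 : End (ZMod p) E) = 0 ∧
      Alg.toEnd p G V g * Alg.toEnd p G V g - t • Alg.toEnd p G V g
        + d g • (1 : End (ZMod p) V) = 0 := by
    intro g
    obtain ⟨t, h1, h3⟩ := hrel g
    refine ⟨t, ?_, ?_⟩
    · apply LinearMap.ext
      intro e
      exact h1 e
    · apply LinearMap.ext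
      intro x
      exact h3 x
  obtain ⟨φ, hφ, hequiv⟩ := Embed.exists_embedding h2 hE (Alg.toEnd p G E)
    (fun L hL => hirr L hL) (Alg.toEnd p G V) d c hcE hdc hrel'
  exact ⟨φ.toAddMonoidHom, hφ, fun g e => hequiv g e⟩

end Fermat.Agent.S44.W.EmbedSmul
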