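/-
PROGRAM MR / S44, strand W (helper45): the exponent adapter `p ^ 1 ↦ p` for (W4).

The Kummer system of S30 (`Producer.Assembly.kummerSystem`) presents the Kummer characters of
exponent `p ^ n` as `AN N →+ ZMod (p ^ n)`; at `n = 1` this is `ZMod (p ^ 1)`, not `ZMod p`.

* `castHom h`     : `ZMod m →+ ZMod m'` for `h : m = m'`;
* `krel_cast`     : `KRel N m f c ↔ KRel N m' f (castHom h ∘ c)`;
* `IsCharEmbPow`  : the structure `NewEmb.IsCharEmb` with `ZMod (P.p ^ 1)`-valued characters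
                    and Kummer relations of exponent `P.p ^ 1`;
* `isCharEmb_of_pow`, `exists_isNewEmb_of_pow` : the transport.
-/
import Mathlib
import Fermat.Agent.S44.W.NewEmb

set_option autoImplicit false

noncomputable section

open WeierstrassCurve WeierstrassCurve.Affine WeierstrassCurve.Affine.Point
open ModularCurve AlgebraicCurve

namespace Fermat.Agent.S44.W.NewEmbPow

open Fermat.Agent.S30 Fermat.Agent.S30.Producer
open Fermat.Agent.S35.Betti.Swap Fermat.Agent.S35.Betti.Norm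
open Fermat.Agent.S44.Contract Fermat.Agent.S44.W.NewEmb

local notation "GQb" => (AlgebraicClosure ℚ ≃ₐ[ℚ] AlgebraicClosure ℚ)

/-- Transport of `ZMod`-values along an equality of moduli. -/
def castHom {m m' : ℕ} (h : m = m') : ZMod m →+ ZMod m' :=
  (ZMod.ringEquivCongr h).toAddMonoidHom

theorem castHom_rfl {m : ℕ} (x : ZMod m) : castHom (rfl : m = m) x = x := by
  show ZMod.ringEquivCongr rfl x = x
  rw [ZMod.ringEquivCongr_refl]
  rfl

theorem castHom_injective {m m' : ℕ} (h : m = m') : Function.Injective (castHom h) := by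
  subst h
  intro x y hxy
  rwa [castHom_rfl, castHom_rfl] at hxy

theorem castHom_intCast {m m' : ℕ} (h : m = m') (a : ℤ) : castHom h (a : ZMod m) = (a : ZMod m') := by
  subst h
  exact castHom_rfl _

theorem castHom_mul {m m' : ℕ} (h : m = m') (x y : ZMod m) :
    castHom h (x * y) = castHom h x * castHom h y := by
  subst h
  rw [castHom_rfl, castHom_rfl, castHom_rfl]

theorem castHom_comp_rfl {A : Type*} [AddCommGroup A] {m : ℕ} (c : A →+ ZMod m) :
    (castHom (rfl : m = m)).comp c = c :=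
  AddMonoidHom.ext fun x => castHom_rfl (c x)

/-- The Kummer relation only depends on the value of the exponent. -/
theorem krel_cast {N m m' : ℕ} [NeZero m] [NeZero m'] (h : m = m') {f : FN N}
    {c : AN N →+ ZMod m} : KRel N m f c ↔ KRel N m' f ((castHom h).comp c) := by
  subst h
  rw [castHom_comp_rfl]

/-- `NewEmb.IsCharEmb` with characters of exponent `P.p ^ 1` (the shape produced by the S30
Kummer system at `n = 1`). -/
structure IsCharEmbPow (P : FreyPackage) (N' : ℕ) [NeZero N'] [NeZero P.p]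
    (W : WeierstrassCurve ℤ)
    (e : (P.freyCurve⁄Qb).Point → (AN (N' * P.p) →+ ZMod (P.p ^ 1))) : Prop where
  add : ∀ Q Q', P.p • Q = 0 → P.p • Q' = 0 → e (Q + Q') = e Q + e Q'
  inj : ∀ Q, P.p • Q = 0 → e Q = 0 → Q = 0
  gal : ∀ (σ : GQb) (Q), P.p • Q = 0 → ∃ f : FN (N' * P.p),
    KRel (N' * P.p) (P.p ^ 1) f (e Q) ∧
      KRel (N' * P.p) (P.p ^ 1) (galF (N' * P.p) σ f) (e (σ • Q))
  hecke : ∀ ℓ : ℕ, ℓ.Prime → ¬ ℓ ∣ N' * P.p → W.IsGoodPrimeFor ℓ → ∀ Q, P.p • Q = 0 →
    ∀ x : AN (N' * P.p),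
      e Q (tau (N' * P.p) ℓ x) = ((W.apOfModel ℓ : ℤ) : ZMod (P.p ^ 1)) * e Q x
  newAlpha : ∀ Q, P.p • Q = 0 → (e Q).comp (verA N' P.p) = 0
  newBeta : ∀ Q, P.p • Q = 0 → ∃ (x y : ℤ) (h : x * P.p + y * N' = 1),
    ((e Q).comp (omega x y h)).comp (verA N' P.p) = 0

/-- The exponent adapter. -/
theorem isCharEmb_of_pow (P : FreyPackage) (N' : ℕ) [NeZero N'] [NeZero P.p]
    (W : WeierstrassCurve ℤ) (e : (P.freyCurve⁄Qb).Point → (AN (N' * P.p) →+ ZMod (P.p ^ 1)))
    (he : IsCharEmbPow P N' W e) :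
    IsCharEmb P N' W (fun Q => (castHom (pow_one P.p)).comp (e Q)) where
  add Q Q' hQ hQ' := by
    show (castHom (pow_one P.p)).comp (e (Q + Q')) = _
    rw [he.add Q Q' hQ hQ', AddMonoidHom.comp_add]
  inj Q hQ h0 := by
    refine he.inj Q hQ (AddMonoidHom.ext fun x => castHom_injective (pow_one P.p) ?_)
    have h1 := DFunLike.congr_fun h0 x
    rw [AddMonoidHom.zero_apply, _root_.map_zero]
    exact h1
  gal σ Q hQ := by
    obtain ⟨f, hf, hσf⟩ := he.gal σ Q hQ
    exact ⟨f, (krel_cast (pow_one P.p)).mp hf, (krel_cast (pow_one P.p)).mp hσf⟩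
  hecke ℓ hℓ hℓN hgood Q hQ x := by
    show castHom (pow_one P.p) (e Q (tau (N' * P.p) ℓ x)) = _ * castHom (pow_one P.p) (e Q x)
    rw [he.hecke ℓ hℓ hℓN hgood Q hQ x, castHom_mul, castHom_intCast]
  newAlpha Q hQ := by
    rw [AddMonoidHom.comp_assoc, he.newAlpha Q hQ, AddMonoidHom.comp_zero]
  newBeta Q hQ := by
    obtain ⟨x, y, h, hxy⟩ := he.newBeta Q hQ
    refine ⟨x, y, h, AddMonoidHom.ext fun z => ?_⟩
    have h1 : e Q (omega x y h (verA N' P.p z)) = 0 := DFunLike.congr_fun hxy z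
    show castHom (pow_one P.p) (e Q (omega x y h (verA N' P.p z))) = 0
    rw [h1, _root_.map_zero]

/-- **(W4), exponent `P.p ^ 1`.** -/
theorem exists_isNewEmb_of_pow (P : FreyPackage) (N' : ℕ) [NeZero N'] [NeZero P.p]
    (W : WeierstrassCurve ℤ) (e : (P.freyCurve⁄Qb).Point → (AN (N' * P.p) →+ ZMod (P.p ^ 1)))
    (he : IsCharEmbPow P N' W e) :
    ∃ ι : (P.freyCurve⁄Qb).Point → FN (N' * P.p), IsNewEmb P N' W ι :=
  exists_isNewEmb P N' W _ (isCharEmb_of_pow P N' W e he)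

end Fermat.Agent.S44.W.NewEmbPow

end
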