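/-
PROGRAM MR / S44, strand W, row `MR.W.2`, INDEPENDENT SECOND PROOF (helper186): quadratic
relations for ALL `σ`, by Frobenius POWERS and Lucas sequences — no Chebotarev.

`relStatement : W.RelStatement` — for every `σ ∈ G_ℚ` there are `k : ℕ` and `t : ℤ` with
`σ ζ = ζ ^ k` on `μ_p`, `σ² - t σ + k = 0` on `E[p]`, and `σ² - t σ + k = 0` on the Hecke
eigen-classes of level `N` (Kummer characters `AN N →+ ZMod p`, Galois action through `KRel`).

(The primary proof is `S44/W/Rel.lean`, helper181, through the exact Chebotarev theorem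
`Lib/Chebotarev/FrobExact`.  This file only needs the Frobenius-density lemma of the S41 closure
`Lib/FrobDensity`; its import closure is contained in that of `S44/W/Rel.lean`, 28 modules
smaller: none of `Lib/Chebotarev/*`, `CFT/Analytic/*`.  Import ONE of the two.)

Proof.
* `actC N m σ c` : the Kummer character of `galF σ f` for any Kummer function `f` of `c`
  (exponent `m`; `Glue.krel_ex`, `Glue.krel_gal`, `Glue.krel_uniq`).  It is additive and
  multiplicative in `σ` (`act`), commutes with the Hecke correspondences (`actC_comp_tau`) and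
  factors through a finite level (`exists_level`, from `E4.galF_eq_self_of_fixes`).
* `es_char` : Eichler–Shimura on characters at a Frobenius element over `ℓ ∤ N p`
  (`E4.es_field` at `n = 1`, with the landed bricks `E4.k1`, `TransferTrivialProof.heckeDiv`).
* On the eigen-classes `eigenSub W N p` (stable under `actC`), `T_ℓ` is the integer `a_ℓ(W)`,
  so a Frobenius element `s` satisfies `s² - a_ℓ s + ℓ = 0` there, and also on `E[p]`
  (`S41.NonEis.Main.frobenius_relation_V`).
* Frobenius density (`Lib.FrobDensity.exists_frobenius_pow_eq`): `σ = s ^ b` on the level field;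
  Lucas sequences in the PRODUCT ring `End(E[p]) × End(eigen-classes)` (`lucas_pair`, from
  `S41.NonEis.Group.lucas`) give one integer `t` for both modules; `k = ℓ ^ b`.
-/
import Mathlib
import Fermat.Agent.S44.W.Bricks
import Fermat.Agent.S44.W.NewEmb
import Fermat.Agent.S41.NonEis.Main
import Fermat.Agent.S30.Producer.Assembly
import Fermat.Agent.S30.Producer.SurjXRoot
import Fermat.Agent.S30.E4.K1

set_option autoImplicit false

noncomputable section

open WeierstrassCurve WeierstrassCurve.Affine WeierstrassCurve.Affine.Point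
open ModularCurve AlgebraicCurve

namespace Fermat.Agent.S44.W.RelLucas

open Fermat.Agent.S30 Fermat.Agent.S30.Producer Fermat.Agent.S44.Contract
open Fermat.Agent.S41.NonEis

local notation "GQb" => (AlgebraicClosure ℚ ≃ₐ[ℚ] AlgebraicClosure ℚ)

/-! ### The Galois action on Kummer characters of exponent `m` -/

section Act

variable (N m : ℕ) [NeZero N] [NeZero m]

/-- Every character is the Kummer character of a function (landed brick `Surj`). -/
theorem exists_krel (c : AN N →+ ZMod m) : ∃ f : FN N, KRel N m f c :=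
  Glue.krel_ex (SurjXRoot.surj N) c

/-- Galois conjugates of Kummer functions are Kummer functions (landed brick `ParEll`). -/
theorem exists_krel_gal (σ : GQb) {f : FN N} {c : AN N →+ ZMod m} (h : KRel N m f c) :
    ∃ d : AN N →+ ZMod m, KRel N m (galF N σ f) d :=
  Glue.krel_gal (ParEllBrick.parEll N) σ h

/-- The character of `σ f`, for `f` of character `c`. -/
def actC (σ : GQb) (c : AN N →+ ZMod m) : AN N →+ ZMod m :=
  Classical.choose (exists_krel_gal N m σ (Classical.choose_spec (exists_krel N m c)))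

theorem actC_spec (σ : GQb) {f : FN N} {c : AN N →+ ZMod m} (h : KRel N m f c) :
    KRel N m (galF N σ f) (actC N m σ c) := by
  have h0 := Classical.choose_spec (exists_krel N m c)
  have h1 : KRel N m (galF N σ (Classical.choose (exists_krel N m c))) (actC N m σ c) :=
    Classical.choose_spec (exists_krel_gal N m σ h0)
  obtain ⟨k, hk0, hk⟩ := NewEmb.krel_eq_mul_pow h0 h
  rw [hk, _root_.map_mul, _root_.map_pow]
  exact NewEmb.krel_mul_pow h1 ((_root_.map_ne_zero_iff _ (galF N σ).injective).mpr hk0)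

theorem actC_eq (σ : GQb) {f : FN N} {c d : AN N →+ ZMod m} (h : KRel N m f c)
    (hd : KRel N m (galF N σ f) d) : actC N m σ c = d :=
  Glue.krel_uniq (actC_spec N m σ h) hd

theorem actC_add (σ : GQb) (c d : AN N →+ ZMod m) :
    actC N m σ (c + d) = actC N m σ c + actC N m σ d := by
  obtain ⟨f, hf⟩ := exists_krel N m c
  obtain ⟨g, hg⟩ := exists_krel N m d
  refine actC_eq N m σ (Glue.krel_mul hf hg) ?_
  rw [_root_.map_mul]
  exact Glue.krel_mul (actC_spec N m σ hf) (actC_spec N m σ hg)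

theorem actC_one (c : AN N →+ ZMod m) : actC N m 1 c = c := by
  obtain ⟨f, hf⟩ := exists_krel N m c
  refine actC_eq N m 1 hf ?_
  rwa [galF_one]

theorem actC_mul (σ τ : GQb) (c : AN N →+ ZMod m) :
    actC N m (σ * τ) c = actC N m σ (actC N m τ c) := by
  obtain ⟨f, hf⟩ := exists_krel N m c
  refine actC_eq N m (σ * τ) hf ?_
  rw [galF_mul]
  exact actC_spec N m σ (actC_spec N m τ hf)

/-- The Galois action on `Hom(AN N, ℤ/m)`. -/
def act : GQb →* AddMonoid.End (AN N →+ ZMod m) where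
  toFun σ := AddMonoidHom.mk' (actC N m σ) (actC_add N m σ)
  map_one' := by
    ext c : 1
    exact actC_one N m c
  map_mul' := by
    intro σ τ
    ext c : 1
    exact actC_mul N m σ τ c

theorem act_apply (σ : GQb) (c : AN N →+ ZMod m) : act N m σ c = actC N m σ c := rfl

theorem actC_zsmul (σ : GQb) (a : ℤ) (c : AN N →+ ZMod m) :
    actC N m σ (a • c) = a • actC N m σ c :=
  map_zsmul (act N m σ) a c

/-- The Galois action commutes with the Hecke correspondences. -/
theorem actC_comp_tau (σ : GQb) {ℓ : ℕ} (hℓ : ℓ.Prime) (hℓN : ¬ ℓ ∣ N) (c : AN N →+ ZMod m) :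
    (actC N m σ c).comp (tau N ℓ) = actC N m σ (c.comp (tau N ℓ)) := by
  obtain ⟨f, hf⟩ := exists_krel N m c
  have h1 := Glue.krel_hecke (BettiABricks.tHomParEll N) hℓ hℓN
    (TransferTrivialProof.heckeDiv N ℓ) hf
  have h2 := actC_spec N m σ h1
  have h3 := Glue.krel_hecke (BettiABricks.tHomParEll N) hℓ hℓN
    (TransferTrivialProof.heckeDiv N ℓ) (actC_spec N m σ hf)
  rw [E4.heckeFb_galF N hℓ hℓN σ f] at h3
  exact Glue.krel_uniq h3 h2

theorem finite_hom : Finite (AN N →+ ZMod m) := by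
  obtain ⟨S, hS⟩ := fg_AN N
  have hS' : AddSubgroup.closure (S : Set (AN N)) = ⊤ := hS
  refine Finite.of_injective (fun (c : AN N →+ ZMod m) (s : S) => c s) ?_
  intro c d hcd
  refine AddMonoidHom.eq_of_eqOn_dense hS' ?_
  intro s hs
  exact congrFun hcd ⟨s, hs⟩

/-- The action on characters factors through a finite level. -/
theorem exists_level : ∃ L : IntermediateField ℚ Qb, FiniteDimensional ℚ L ∧
    ∀ σ : GQb, (∀ x ∈ L, σ x = x) → ∀ c : AN N →+ ZMod m, actC N m σ c = c := by
  have := finite_hom N m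
  choose f hf using exists_krel N m
  choose L hL hLf using fun c : AN N →+ ZMod m => E4.galF_eq_self_of_fixes N (f c)
  refine ⟨⨆ c, L c, inferInstance, fun σ hσ c => ?_⟩
  refine actC_eq N m σ (hf c) ?_
  rw [hLf c σ fun x hx => hσ x (le_iSup L c hx)]
  exact hf c

/-- Automorphisms agreeing on the level field act in the same way on characters. -/
theorem actC_congr {L : IntermediateField ℚ Qb}
    (hL : ∀ σ : GQb, (∀ x ∈ L, σ x = x) → ∀ c : AN N →+ ZMod m, actC N m σ c = c)
    {g σ : GQb} (h : ∀ x ∈ L, g x = σ x) (c : AN N →+ ZMod m) :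
    actC N m g c = actC N m σ c := by
  have e : g = σ * (σ⁻¹ * g) := by group
  rw [e, actC_mul]
  congr 1
  refine hL (σ⁻¹ * g) (fun x hx => ?_) c
  show σ⁻¹ (g x) = x
  rw [h x hx]
  exact σ.symm_apply_apply x

end Act

/-! ### Eichler–Shimura on characters -/

/-- **Eichler–Shimura on Kummer characters** of exponent `p`, at a Frobenius element over a
prime `ℓ ∤ N`, `ℓ ≠ p`. -/
theorem es_char (N : ℕ) [NeZero N] {p : ℕ} [NeZero p] (hp : p.Prime) {ℓ : ℕ} (hℓ : ℓ.Prime)
    (hℓN : ¬ ℓ ∣ N) (hℓp : ℓ ≠ p) (B : ValuationSubring Qb) (hB : B.LiesOverPrime ℓ)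
    (s : GQb) (hs : B.IsFrobeniusAt s ℓ) (c : AN N →+ ZMod p) :
    actC N p s (actC N p s c) - (actC N p s c).comp (tau N ℓ) + ℓ • c = 0 := by
  have : Fact p.Prime := ⟨hp⟩
  obtain ⟨f, hf⟩ := exists_krel N p c
  have hdiv : E4.DivBy N (p ^ 1) f := by
    rw [pow_one]
    exact hf.2.1
  obtain ⟨g, hg⟩ := E4.es_field N p (fun q hq hqN A hA => E4.k1 N q hq hqN A hA)
    (fun ℓ' _ _ => TransferTrivialProof.heckeDiv N ℓ') ℓ ⟨hℓ, hℓN, hℓp⟩ B hB s hs (n := 1)
    hf.1 hdiv
  rw [pow_one] at hg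
  have h1 := actC_spec N p s hf
  have h2 := actC_spec N p s h1
  have h3 := Glue.krel_hecke (BettiABricks.tHomParEll N) hℓ hℓN
    (TransferTrivialProof.heckeDiv N ℓ) h1
  have hL := Glue.krel_mul h2 (NewEmb.krel_npow hf ℓ)
  have hg0 : g ≠ 0 := by
    rintro rfl
    rw [zero_pow hp.ne_zero, mul_zero] at hg
    exact hL.1 hg
  rw [hg] at hL
  have key := Glue.krel_uniq hL (NewEmb.krel_mul_pow h3 hg0)
  rw [sub_add_eq_add_sub, key, sub_self]

/-! ### The eigen-classes -/

/-- The eigen-classes of level `N` for the model `W`, as a subgroup of the characters. -/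
def eigenSub (W : WeierstrassCurve ℤ) (N p : ℕ) : AddSubgroup (AN N →+ ZMod p) where
  carrier := {c | IsEigen W N p c}
  zero_mem' := by
    intro ℓ _ _ _ _
    rw [AddMonoidHom.zero_comp, smul_zero]
  add_mem' := by
    intro c d hc hd ℓ hℓ hℓN hℓp hgood
    rw [AddMonoidHom.add_comp, hc ℓ hℓ hℓN hℓp hgood, hd ℓ hℓ hℓN hℓp hgood, smul_add]
  neg_mem' := by
    intro c hc ℓ hℓ hℓN hℓp hgood
    rw [AddMonoidHom.neg_comp, hc ℓ hℓ hℓN hℓp hgood, smul_neg]

theorem mem_eigenSub {W : WeierstrassCurve ℤ} {N p : ℕ} {c : AN N →+ ZMod p} :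
    c ∈ eigenSub W N p ↔ IsEigen W N p c := Iff.rfl

/-- The eigen-classes are Galois stable. -/
theorem isEigen_actC {W : WeierstrassCurve ℤ} {N p : ℕ} [NeZero N] [NeZero p] (σ : GQb)
    {c : AN N →+ ZMod p} (hc : IsEigen W N p c) : IsEigen W N p (actC N p σ c) := by
  intro ℓ hℓ hℓN hℓp hgood
  rw [actC_comp_tau N p σ hℓ hℓN c, hc ℓ hℓ hℓN hℓp hgood, actC_zsmul]

/-- The Galois action on the eigen-classes. -/
def actX (W : WeierstrassCurve ℤ) (N p : ℕ) [NeZero N] [NeZero p] :
    GQb →* AddMonoid.End (eigenSub W N p) where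
  toFun σ := ((act N p σ).comp (eigenSub W N p).subtype).codRestrict (eigenSub W N p)
    (fun c => isEigen_actC σ c.2)
  map_one' := by
    ext c : 2
    exact actC_one N p c
  map_mul' := by
    intro σ τ
    ext c : 2
    exact actC_mul N p σ τ c

theorem coe_actX (W : WeierstrassCurve ℤ) (N p : ℕ) [NeZero N] [NeZero p] (σ : GQb)
    (c : eigenSub W N p) : ((actX W N p σ c : eigenSub W N p) : AN N →+ ZMod p) =
      actC N p σ (c : AN N →+ ZMod p) := rfl

/-! ### Lucas sequences for two modules at once -/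

/-- Lucas sequences, for two endomorphisms satisfying the same quadratic relation: the powers
satisfy quadratic relations with ONE common integer `t`. -/
theorem lucas_pair {A B : Type*} [AddCommGroup A] [AddCommGroup B] (SA : AddMonoid.End A)
    (SB : AddMonoid.End B) (a l : ℤ) (hA : ∀ v : A, SA (SA v) - a • SA v + l • v = 0)
    (hB : ∀ w : B, SB (SB w) - a • SB w + l • w = 0) (b : ℕ) :
    ∃ t : ℤ, (∀ v : A, (SA ^ b) ((SA ^ b) v) - t • (SA ^ b) v + (l ^ b) • v = 0) ∧
      (∀ w : B, (SB ^ b) ((SB ^ b) w) - t • (SB ^ b) w + (l ^ b) • w = 0) := by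
  have hrel : ((SA, SB) : AddMonoid.End A × AddMonoid.End B) * (SA, SB)
      - ((a : ℤ) : AddMonoid.End A × AddMonoid.End B) * (SA, SB)
      + ((l : ℤ) : AddMonoid.End A × AddMonoid.End B) = 0 := by
    refine Prod.ext ?_ ?_
    · simp only [Prod.fst_add, Prod.fst_sub, Prod.fst_mul, Prod.fst_intCast, Prod.fst_zero]
      refine AddMonoidHom.ext fun v => ?_
      change SA (SA v) - ((a : ℤ) : AddMonoid.End A) (SA v) + ((l : ℤ) : AddMonoid.End A) v = 0
      rw [AddMonoid.End.intCast_apply, AddMonoid.End.intCast_apply]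
      exact hA v
    · simp only [Prod.snd_add, Prod.snd_sub, Prod.snd_mul, Prod.snd_intCast, Prod.snd_zero]
      refine AddMonoidHom.ext fun w => ?_
      change SB (SB w) - ((a : ℤ) : AddMonoid.End B) (SB w) + ((l : ℤ) : AddMonoid.End B) w = 0
      rw [AddMonoid.End.intCast_apply, AddMonoid.End.intCast_apply]
      exact hB w
  obtain ⟨t, ht⟩ := Group.lucas _ a l hrel b
  refine ⟨t, fun v => ?_, fun w => ?_⟩
  · have e := congrArg Prod.fst ht
    simp only [Prod.fst_add, Prod.fst_sub, Prod.fst_mul, Prod.pow_fst, Prod.fst_intCast,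
      Prod.fst_zero] at e
    have e' := DFunLike.congr_fun e v
    rw [← Int.cast_pow] at e'
    change (SA ^ b) ((SA ^ b) v) - ((t : ℤ) : AddMonoid.End A) ((SA ^ b) v)
      + ((l ^ b : ℤ) : AddMonoid.End A) v = 0 at e'
    rw [AddMonoid.End.intCast_apply, AddMonoid.End.intCast_apply] at e'
    exact e'
  · have e := congrArg Prod.snd ht
    simp only [Prod.snd_add, Prod.snd_sub, Prod.snd_mul, Prod.pow_snd, Prod.snd_intCast,
      Prod.snd_zero] at e
    have e' := DFunLike.congr_fun e w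
    rw [← Int.cast_pow] at e'
    change (SB ^ b) ((SB ^ b) w) - ((t : ℤ) : AddMonoid.End B) ((SB ^ b) w)
      + ((l ^ b : ℤ) : AddMonoid.End B) w = 0 at e'
    rw [AddMonoid.End.intCast_apply, AddMonoid.End.intCast_apply] at e'
    exact e'

/-! ### The relation statement -/

/-- **(W2)** Every `σ` satisfies one quadratic relation `σ² - t σ + k = 0` on `E[p]` and on the
eigen-classes, with `σ ζ = ζ ^ k` on `μ_p`. -/
theorem relStatement : RelStatement := by
  intro P N _ _ W hW σ
  classical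
  have hp : P.p.Prime := P.pp
  have hΔ0 : W.Δ ≠ 0 := Main.Δ_ne_zero P.freyCurve hW
  -- a primitive `p`-th root of unity
  obtain ⟨η, hη⟩ := HasEnoughRootsOfUnity.exists_primitiveRoot Qb P.p
  have hηp : η ^ P.p = 1 := hη.pow_eq_one
  -- the level field
  have hfd : FiniteDimensional ℚ (Main.fieldL P.freyCurve P.p η) :=
    Main.finiteDimensional_fieldL P.freyCurve P.p hp.pos η
  obtain ⟨L₂, hL₂fd, hL₂⟩ := exists_level N P.p
  have hfdL : FiniteDimensional ℚ ↥(Main.fieldL P.freyCurve P.p η ⊔ L₂) :=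
    IntermediateField.finiteDimensional_sup _ _
  -- the excluded primes
  set S' : Finset ℕ := {2, 3, P.p} ∪ W.Δ.natAbs.primeFactors ∪ N.primeFactors with hS'def
  obtain ⟨ℓ, A, s, b, hℓ, hℓS, hA, hs, -, hsg⟩ :=
    Fermat.Agent.Lib.FrobDensity.exists_frobenius_pow_eq (Main.fieldL P.freyCurve P.p η ⊔ L₂) S' σ
  simp only [hS'def, Finset.mem_union, Finset.mem_insert, Finset.mem_singleton,
    Nat.mem_primeFactors, not_or, not_and] at hℓS
  obtain ⟨⟨⟨h2, h3, hℓp⟩, hΔ'⟩, hN'⟩ := hℓS
  have h5 : 5 ≤ ℓ := by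
    have h2le := hℓ.two_le
    by_contra hlt
    push Not at hlt
    have h4 : ℓ ≠ 4 := by
      rintro rfl
      exact absurd hℓ (by norm_num)
    omega
  have hgood : W.IsGoodPrimeFor ℓ := by
    intro hdvd
    exact hΔ' hℓ (Int.natCast_dvd.mp hdvd) (Int.natAbs_ne_zero.mpr hΔ0)
  have hℓN : ¬ ℓ ∣ N := fun hdvd => hN' hℓ hdvd (NeZero.ne N)
  have hnℓ : ¬ ℓ ∣ P.p := fun h => hℓp ((Nat.prime_dvd_prime_iff_eq hℓ hp).mp h)
  have hsg₁ : ∀ x ∈ Main.fieldL P.freyCurve P.p η, (s ^ b) x = σ x :=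
    fun x hx => hsg x ((le_sup_left : _ ≤ Main.fieldL P.freyCurve P.p η ⊔ L₂) hx)
  have hsg₂ : ∀ x ∈ L₂, (s ^ b) x = σ x :=
    fun x hx => hsg x ((le_sup_right : _ ≤ Main.fieldL P.freyCurve P.p η ⊔ L₂) hx)
  -- the two Frobenius relations
  have hrelV : ∀ v : Submodule.torsionBy ℤ (P.freyCurve⁄Qb).Point (P.p : ℤ),
      s • s • v - W.apOfModel ℓ • s • v + (ℓ : ℤ) • v = 0 :=
    Main.frobenius_relation_V P.freyCurve P.p hW hp hℓ h5 hgood hℓp hA s hs
  have hrelX : ∀ c : eigenSub W N P.p,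
      actX W N P.p s (actX W N P.p s c) - W.apOfModel ℓ • actX W N P.p s c + (ℓ : ℤ) • c = 0 := by
    intro c
    apply Subtype.ext
    have e := es_char N hp hℓ hℓN hℓp A hA s hs (c : AN N →+ ZMod P.p)
    have e2 := isEigen_actC (W := W) s c.2 ℓ hℓ hℓN hℓp hgood
    rw [e2] at e
    rw [AddSubgroup.coe_add, AddSubgroup.coe_sub, AddSubgroup.coe_zsmul, AddSubgroup.coe_zsmul,
      coe_actX, coe_actX, natCast_zsmul]
    exact e
  -- Lucas in the product ring
  obtain ⟨t, htV', htX'⟩ := lucas_pair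
    (DistribMulAction.toAddMonoidEnd GQb
      (Submodule.torsionBy ℤ (P.freyCurve⁄Qb).Point (P.p : ℤ)) s)
    (actX W N P.p s) (W.apOfModel ℓ) (ℓ : ℤ) hrelV hrelX b
  have htV : ∀ v : Submodule.torsionBy ℤ (P.freyCurve⁄Qb).Point (P.p : ℤ),
      (s ^ b) • (s ^ b) • v - t • (s ^ b) • v + ((ℓ : ℤ) ^ b) • v = 0 := by
    intro v
    have e := htV' v
    rw [← map_pow] at e
    exact e
  have htX : ∀ c : eigenSub W N P.p,
      actX W N P.p (s ^ b) (actX W N P.p (s ^ b) c) - t • actX W N P.p (s ^ b) c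
        + ((ℓ : ℤ) ^ b) • c = 0 := by
    intro c
    have e := htX' c
    rw [← map_pow] at e
    exact e
  have hk : ((ℓ : ℤ) ^ b) = ((ℓ ^ b : ℕ) : ℤ) := (Nat.cast_pow ℓ b).symm
  refine ⟨ℓ ^ b, t, ?_, ?_, ?_⟩
  · -- roots of unity
    intro ζ hζ
    obtain ⟨i, -, rfl⟩ := hη.eq_pow_of_pow_eq_one hζ
    have hmem : η ^ i ∈ Main.fieldL P.freyCurve P.p η :=
      pow_mem (Main.mem_fieldL_zeta P.freyCurve P.p η) i
    rw [← hsg₁ _ hmem]
    exact Roots.frobenius_pow_root hℓ hA hnℓ hp.pos hs hζ b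
  · -- the `p`-torsion
    intro Q hQ
    have hQmem : Q ∈ Submodule.torsionBy ℤ (P.freyCurve⁄Qb).Point (P.p : ℤ) := by
      rw [Submodule.mem_torsionBy_iff, natCast_zsmul]
      exact hQ
    have hg : ∀ v : Submodule.torsionBy ℤ (P.freyCurve⁄Qb).Point (P.p : ℤ),
        (s ^ b) • v = σ • v := fun v => Main.smul_eq_of_eqOn P.freyCurve P.p η _ _ hsg₁ v
    have e := htV ⟨Q, hQmem⟩
    rw [hg, hg] at e
    have e' := congrArg (fun v : Submodule.torsionBy ℤ (P.freyCurve⁄Qb).Point (P.p : ℤ) =>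
      (v : (P.freyCurve⁄Qb).Point)) e
    change σ • σ • Q - t • σ • Q + ((ℓ : ℤ) ^ b) • Q = 0 at e'
    rw [hk, natCast_zsmul] at e'
    exact e'
  · -- the eigen-classes
    intro c c₁ c₂ f hc hf h1 h2
    obtain rfl := actC_eq N P.p σ hf h1
    obtain rfl := actC_eq N P.p σ h1 h2
    have hg : ∀ d : AN N →+ ZMod P.p, actC N P.p (s ^ b) d = actC N P.p σ d :=
      fun d => actC_congr N P.p hL₂ hsg₂ d
    have e := congrArg (fun x : eigenSub W N P.p => (x : AN N →+ ZMod P.p)) (htX ⟨c, hc⟩)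
    simp only [AddSubgroup.coe_add, AddSubgroup.coe_sub, AddSubgroup.coe_zsmul, coe_actX,
      AddSubgroup.coe_zero] at e
    rw [hg, hg, hk, natCast_zsmul] at e
    exact e

end Fermat.Agent.S44.W.RelLucas

end
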